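import Fermat.Agent.BadPrime.Mazur.Assembly
import Fermat.Agent.BadPrime.Mazur.Local.Defs
import Fermat.Agent.EichlerShimura.Inputs
import Fermat.Agent.Lifting.Minimal.Defs

/-!
# Mazur's principle at `q ≥ 5` for a semistable curve and an odd prime `p`

At `p = 3` the level is assumed even: then `X₀(M)` has no elliptic point of order `3` and the
bounded factor of the local inputs is prime to `3`.
-/

set_option autoImplicit false

noncomputable section

open scoped WeierstrassCurve.Affine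

namespace Fermat.Agent.Lifting

/-- Mazur's principle at a prime `q ≥ 5`, `q ≢ 1 (mod p)`, `p` odd; at `p = 3` for even levels. -/
def MazurLowering : Prop :=
  ∀ (p : ℕ), p.Prime → p ≠ 2 → ∀ (W : WeierstrassCurve ℤ), W.Δ ≠ 0 → W.ModRepIsIrreducible p →
    ∀ (M q : ℕ), 0 < M → q.Prime → 5 ≤ q → q ≠ p → q ∣ M → ¬ q ^ 2 ∣ M → (p = 3 → 2 ∣ M) →
      (q : ZMod p) ≠ 1 → ResiduallyUnramifiedAt W p q →
      W.IsResiduallyModularOfLevel p M → W.IsResiduallyModularOfLevel p (M / q)

/-- The local inputs `MazurLowering` needs. -/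
def MazurLocalInputs : Prop :=
  ∀ (q p M : ℕ) [NeZero M] [NeZero (M * q)], q.Prime → 5 ≤ q → p.Prime → p ≠ 2 → q ≠ p → ¬ q ∣ M →
    (p = 3 → 2 ∣ M) → BadPrime.Mazur.LocalInputs q p M

theorem mazurLowering_of_inputs (hI : MazurLocalInputs) : MazurLowering := by
  intro p hp hp2 W hΔ hirr N q hN hq hq5 hqp hqN hq2 h23 hq1 hunr hmod
  have : Fact p.Prime := ⟨hp⟩
  obtain ⟨M, rfl⟩ : ∃ M, N = M * q := ⟨N / q, (Nat.div_mul_cancel hqN).symm⟩
  rw [Nat.mul_div_cancel M hq.pos]
  have hqM : ¬ q ∣ M := fun h => hq2 (by rw [pow_two]; exact Nat.mul_dvd_mul_right h q)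
  have : NeZero M := ⟨fun h => by simp [h] at hN⟩
  have : NeZero (M * q) := ⟨hN.ne'⟩
  have : (W.map (Int.castRingHom ℚ)).IsElliptic := EC.isElliptic_map_rat hΔ
  have h2M : p = 3 → 2 ∣ M := fun h => ((Nat.prime_two.dvd_mul).1 (h23 h)).resolve_right fun h2 => by
    have := (Nat.prime_dvd_prime_iff_eq Nat.prime_two hq).1 h2
    omega
  exact BadPrime.Mazur.isResiduallyModularOfLevel_of_inputs
    (fun N _ => EichlerShimura.kummerIso_modular N)
    (fun N _ p _ => EichlerShimura.frobeniusOnTorsion_modular N p) hp2 hΔ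
    (EC.natCard_torsion_rat _ hp.ne_zero)
    (EC.galoisRepModuleEnd_factorsThroughFiniteLevel _ hp.ne_zero)
    hirr hq hqp (hI q p M hq hq5 hp hp2 hqp hqM h2M) hq1
    (fun A hA σ hσ => LinearMap.ext fun x => hunr A hA σ hσ x) hmod

end Fermat.Agent.Lifting
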