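import Fermat.Agent.Lifting.Contracts
import Fermat.Prelude.Def_CuspForm_Newforms

/-!
# Contracts of the lifting at squarefree levels on the route to S01

* `AdjustedSwitch`: the 3–5 switch with the residual behaviour at `2` and `3` under control.
* `FiveIrreducibleOfSquare`: a curve with square discriminant has irreducible `E[5]`.
* `ResidualNewformAt`: a newform of exactly the given level congruent to the curve.
* `IsRaisingBase`, `RaisingBaseExists`, `LiftFromRaisingBase`: the base level, its construction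
  by lowering, and the patched raising argument.
* `TresPrimeInLevel`, `OrdinaryTpFive`: the two facts at a multiplicative `p`.
-/

set_option autoImplicit false

open WeierstrassCurve

namespace Fermat.Agent.Lifting

/-- What the lowering to a base at `p ∈ {3, 5}` assumes of the curve beyond semistability: at
`p = 3`, multiplicative and ramified at `2` and très ramifiée at `3` when multiplicative there. -/
def IsLiftableAt (W : WeierstrassCurve ℤ) (p : ℕ) : Prop :=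
  ((2 : ℤ) ∣ W.Δ ∨ p = 5) ∧
    (p = 3 → ¬ 3 ∣ padicValInt 2 W.Δ ∧ ((3 : ℤ) ∣ W.Δ → ¬ 3 ∣ padicValInt 3 W.Δ))

/-- A curve liftable at `3` is multiplicative at `2`. -/
theorem IsLiftableAt.two_dvd {W : WeierstrassCurve ℤ} {p : ℕ} (h : IsLiftableAt W p)
    (hp : p = 3) : (2 : ℤ) ∣ W.Δ :=
  h.1.resolve_right fun h5 => absurd (hp.symm.trans h5) (by decide)

/-- An eigenform of level prime to `p` congruent to the curve has `a_p ≡ ±1`. -/
def OrdinaryTpAt (W : WeierstrassCurve ℤ) (p : ℕ) : Prop :=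
  ∀ (M : ℕ) (f : CuspForm (CongruenceSubgroup.Gamma0 M) 2) (𝔪 : Ideal (integralClosure ℤ ℂ)),
    0 < M → ¬ p ∣ M → f.IsNormalizedEigenform → 𝔪.IsMaximal →
    (p : integralClosure ℤ ℂ) ∈ 𝔪 →
    (∀ ℓ : ℕ, ℓ.Prime → W.IsGoodPrimeFor ℓ → ¬ ℓ ∣ M → ℓ ≠ p → ∃ a : integralClosure ℤ ℂ,
      (a : ℂ) = ModularFormClass.qCoeff f ℓ ∧
        a - ((W.apOfModel ℓ : ℤ) : integralClosure ℤ ℂ) ∈ 𝔪) →
    ∃ a : integralClosure ℤ ℂ, (a : ℂ) = ModularFormClass.qCoeff f p ∧ a ^ 2 - 1 ∈ 𝔪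

/-- What the raising at `p ∈ {3, 5}` assumes of the curve beyond semistability: at `p = 3`, the
ordinarity of congruent forms when peu ramifiée multiplicative. It holds for every curve. -/
def IsRaisableAt (W : WeierstrassCurve ℤ) (p : ℕ) : Prop :=
  p = 3 → (3 : ℤ) ∣ W.Δ → 3 ∣ padicValInt 3 W.Δ → OrdinaryTpAt W 3

theorem IsLiftableAt.raisable {W : WeierstrassCurve ℤ} {p : ℕ} (h : IsLiftableAt W p) :
    IsRaisableAt W p :=
  fun h3 hΔ hv => absurd hv ((h.2 h3).2 hΔ)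

/-- The 3–5 switch to a curve liftable at `3`, keeping good reduction at `3` and at `5`. -/
def AdjustedSwitch : Prop :=
  ∀ W : WeierstrassCurve ℤ, W.Δ ≠ 0 → W.IsSemistableModel → (2 : ℤ) ∣ W.Δ →
    W.ModRepIsIrreducible 5 →
    ∃ W' : WeierstrassCurve ℤ, W'.Δ ≠ 0 ∧ W'.IsSemistableModel ∧ IsLiftableAt W' 3 ∧
      W'.ModRepIsIrreducible 3 ∧
      (W.IsGoodPrimeFor 3 → W'.IsGoodPrimeFor 3) ∧ (W.IsGoodPrimeFor 5 → W'.IsGoodPrimeFor 5) ∧
      ∀ ℓ : ℕ, ℓ.Prime → W.IsGoodPrimeFor ℓ → W'.IsGoodPrimeFor ℓ → ℓ ≠ 5 →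
        (5 : ℤ) ∣ (W'.apOfModel ℓ - W.apOfModel ℓ)

/-- An elliptic curve whose discriminant is a square has irreducible `E[5]`. -/
def FiveIrreducibleOfSquare : Prop :=
  ∀ W : WeierstrassCurve ℤ, W.Δ ≠ 0 → IsSquare W.Δ → W.ModRepIsIrreducible 5

/-- A newform of level exactly `M` congruent to `W` modulo a prime over `p`. -/
def ResidualNewformAt (W : WeierstrassCurve ℤ) (p M : ℕ) : Prop :=
  ∃ (g : CuspForm (CongruenceSubgroup.Gamma0 M) 2) (𝔪 : Ideal (integralClosure ℤ ℂ)),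
    g.IsNewform ∧ 𝔪.IsMaximal ∧ (p : integralClosure ℤ ℂ) ∈ 𝔪 ∧
    ∀ ℓ : ℕ, ℓ.Prime → W.IsGoodPrimeFor ℓ → ¬ ℓ ∣ M → ℓ ≠ p →
      ∃ a : integralClosure ℤ ℂ, (a : ℂ) = ModularFormClass.qCoeff g ℓ ∧
        a - ((W.apOfModel ℓ : ℤ) : integralClosure ℤ ℂ) ∈ 𝔪

/-- The base of the raising argument: a squarefree level with a congruent newform, made of bad
primes of `W`, containing the ramified ones and `p` when `W` is multiplicative there, and minimal
among such levels. A residually unramified prime of it has its sign determined. -/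
structure IsRaisingBase (W : WeierstrassCurve ℤ) (p L : ℕ) : Prop where
  pos : 0 < L
  squarefree : Squarefree L
  newform : ResidualNewformAt W p L
  p_dvd_iff : p ∣ L ↔ (p : ℤ) ∣ W.Δ
  dvd_bad : ∀ q : ℕ, q.Prime → q ∣ L → (q : ℤ) ∣ W.Δ
  ramified_dvd : ∀ q : ℕ, q.Prime → q ≠ p → ¬ ResiduallyUnramifiedAt W p q → q ∣ L
  sign_determined : ∀ q : ℕ, q.Prime → q ≠ p → q ∣ L → ResiduallyUnramifiedAt W p q →
    ¬ p ∣ q + 1
  minimal : ∀ L' : ℕ, L' ∣ L → (p ∣ L → p ∣ L') → ResidualNewformAt W p L' → L' = L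

/-- Lowering to a base from a squarefree residual level whose primes of good reduction other than
`p` are at least `5`. -/
def RaisingBaseExists : Prop :=
  ∀ (p : ℕ), p = 3 ∨ p = 5 → ∀ W : WeierstrassCurve ℤ, W.Δ ≠ 0 → W.IsSemistableModel →
    W.ModRepIsIrreducible p → IsLiftableAt W p →
    ∀ M : ℕ, 0 < M → Squarefree M → W.IsResiduallyModularOfLevel p M →
      (W.IsGoodPrimeFor p → ¬ p ∣ M) →
      (∀ q : ℕ, q.Prime → q ∣ M → W.IsGoodPrimeFor q → q ≠ p → 5 ≤ q) →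
      ∃ L : ℕ, IsRaisingBase W p L

/-- Raising to a squarefree level containing all bad primes, in characteristic zero. -/
def LiftFromRaisingBase : Prop :=
  ∀ (p : ℕ), p = 3 ∨ p = 5 → ∀ W : WeierstrassCurve ℤ, W.Δ ≠ 0 → W.IsSemistableModel →
    W.ModRepIsIrreducible p → IsRaisableAt W p → ∀ L : ℕ, IsRaisingBase W p L →
    ∃ N : ℕ, Squarefree N ∧ (∀ q : ℕ, q.Prime → (q : ℤ) ∣ W.Δ → q ∣ N) ∧
      W.IsModularModelOfLevel N

/-- A très ramifiée multiplicative `p` divides every residual level. -/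
def TresPrimeInLevel : Prop :=
  ∀ (p : ℕ), p.Prime → p ≠ 2 → ∀ W : WeierstrassCurve ℤ, W.Δ ≠ 0 → W.IsSemistableModel →
    (p : ℤ) ∣ W.Δ → ¬ p ∣ padicValInt p W.Δ → W.ModRepIsIrreducible p →
    ∀ M : ℕ, 0 < M → W.IsResiduallyModularOfLevel p M → p ∣ M

/-- At `5`: an eigenform of level prime to `5` congruent to a curve multiplicative at `5` has
`a₅ ≡ ±1`. -/
def OrdinaryTpFive : Prop :=
  ∀ W : WeierstrassCurve ℤ, W.Δ ≠ 0 → W.IsSemistableModel → (5 : ℤ) ∣ W.Δ →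
    W.ModRepIsIrreducible 5 →
    ∀ (M : ℕ) (f : CuspForm (CongruenceSubgroup.Gamma0 M) 2) (𝔪 : Ideal (integralClosure ℤ ℂ)),
    0 < M → ¬ 5 ∣ M → f.IsNormalizedEigenform → 𝔪.IsMaximal →
    ((5 : ℕ) : integralClosure ℤ ℂ) ∈ 𝔪 →
    (∀ ℓ : ℕ, ℓ.Prime → W.IsGoodPrimeFor ℓ → ¬ ℓ ∣ M → ℓ ≠ 5 → ∃ a : integralClosure ℤ ℂ,
      (a : ℂ) = ModularFormClass.qCoeff f ℓ ∧
        a - ((W.apOfModel ℓ : ℤ) : integralClosure ℤ ℂ) ∈ 𝔪) →
    ∃ a : integralClosure ℤ ℂ, (a : ℂ) = ModularFormClass.qCoeff f 5 ∧ a ^ 2 - 1 ∈ 𝔪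

end Fermat.Agent.Lifting
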