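import Fermat.Agent.LevelRaise.Main
import Fermat.Agent.LevelRaise.NonEisenstein
import Fermat.Agent.TwoAdic.Count.OneLevel
import Fermat.Agent.BadPrime.Raise
import Fermat.Agent.RT.NewformDescent
import Fermat.Agent.EC.Torsion.Rat
import Fermat.Agent.Lifting.Squarefree.Contracts

/-!
# Raising the level at a prime with `a_q² ≡ (q + 1)²`, the residual characteristic included

* `exists_newAt_of_sq_congr`: an eigenform of level `N q` with `a_q² = 1` and the same residual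
  eigen-system; the prime `q` may be `p`;
* `exists_residualNewform_dvd`: a newform congruent to the curve whose level divides `N q` and is
  divisible by `q`, when the primes of `N` are bad or `p`.
-/

set_option autoImplicit false

noncomputable section

open WeierstrassCurve WeierstrassCurve.Affine WeierstrassCurve.Affine.Point
open scoped CongruenceSubgroup
open ModularFormClass

namespace Fermat.Agent.Lifting

open Fermat.Agent.Periods Fermat.Agent.LevelRaise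

variable {W : WeierstrassCurve ℤ} {p N q : ℕ}

/-- Level raising at `q`, with `q = p` allowed. -/
theorem exists_newAt_of_sq_congr (hΔ : W.Δ ≠ 0) (hp : p.Prime) (hp2 : p ≠ 2) (hN : 0 < N)
    (hq : q.Prime) (hqN : ¬ q ∣ N) (hirr : W.ModRepIsIrreducible p)
    {f : CuspForm (CongruenceSubgroup.Gamma0 N) 2} {𝔪 : Ideal (integralClosure ℤ ℂ)}
    (hf : f.IsNormalizedEigenform) (hmax : 𝔪.IsMaximal) (hpm : (p : integralClosure ℤ ℂ) ∈ 𝔪)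
    (hcong : ∀ ℓ : ℕ, ℓ.Prime → W.IsGoodPrimeFor ℓ → ¬ ℓ ∣ N → ℓ ≠ p → ℓ ≠ q →
      ∃ a : integralClosure ℤ ℂ, (a : ℂ) = qCoeff f ℓ ∧
        a - ((W.apOfModel ℓ : ℤ) : integralClosure ℤ ℂ) ∈ 𝔪)
    (hLR : ∃ a : integralClosure ℤ ℂ, (a : ℂ) = qCoeff f q ∧
      a ^ 2 - ((q : integralClosure ℤ ℂ) + 1) ^ 2 ∈ 𝔪) :
    ∃ (g : CuspForm (CongruenceSubgroup.Gamma0 (N * q)) 2) (𝔪' : Ideal (integralClosure ℤ ℂ)),
      g.IsNormalizedEigenform ∧ 𝔪'.IsMaximal ∧ (p : integralClosure ℤ ℂ) ∈ 𝔪' ∧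
      (∀ ℓ : ℕ, ℓ.Prime → W.IsGoodPrimeFor ℓ → ¬ ℓ ∣ N * q → ℓ ≠ p →
        ∃ a : integralClosure ℤ ℂ, (a : ℂ) = qCoeff g ℓ ∧
          a - ((W.apOfModel ℓ : ℤ) : integralClosure ℤ ℂ) ∈ 𝔪') ∧
      g.IsNewAt q := by
  have : NeZero N := ⟨hN.ne'⟩
  have : NeZero q := ⟨hq.ne_zero⟩
  have := EC.isElliptic_map_rat hΔ
  obtain ⟨a, ha, hsq⟩ := hLR
  obtain ⟨ε, hε, hεa⟩ : ∃ ε : ℤ, ε * ε = 1 ∧
      a - ((ε * (q + 1) : ℤ) : integralClosure ℤ ℂ) ∈ 𝔪 := by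
    have hmul : (a - ((q : integralClosure ℤ ℂ) + 1)) * (a + ((q : integralClosure ℤ ℂ) + 1)) ∈ 𝔪 := by
      rw [show (a - ((q : integralClosure ℤ ℂ) + 1)) * (a + ((q : integralClosure ℤ ℂ) + 1)) =
        a ^ 2 - ((q : integralClosure ℤ ℂ) + 1) ^ 2 by ring]
      exact hsq
    rcases hmax.isPrime.mem_or_mem hmul with h | h
    · exact ⟨1, by norm_num, by simpa using h⟩
    · refine ⟨-1, by norm_num, ?_⟩
      have e : ((-1 * (q + 1) : ℤ) : integralClosure ℤ ℂ) = -((q : integralClosure ℤ ℂ) + 1) := by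
        push_cast; ring
      rw [e, sub_neg_eq_add]
      exact h
  classical
  obtain ⟨φ, hφ, hφ0, hTφ⟩ := exists_modp_eigenclass hp hf hmax hpm
    ({ℓ | W.IsGoodPrimeFor ℓ ∧ ¬ ℓ ∣ N ∧ ℓ ≠ p ∧ ℓ ≠ q} ∪ {q})
    (fun ℓ => if ℓ = q then ε * (q + 1) else W.apOfModel ℓ)
    (fun ℓ hℓ hℓprime => by
      by_cases h : ℓ = q
      · subst h; simp only [if_true]; exact ⟨a, ha, hεa⟩
      · simp only [if_neg h]
        obtain ⟨h1, h2, h3, h4⟩ := hℓ.resolve_right h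
        exact hcong ℓ hℓprime h1 h2 h3 h4)
  obtain ⟨ℓ₀, hℓ₀, hgood₀, hℓ₀p, hℓ₀M, hℓ₀1, hne₀⟩ :=
    exists_good_prime_not_eisenstein (W.map (Int.castRingHom ℚ)) ⟨1, one_smul _ _⟩ hp hp2 hirr
      (N * q)
  have hℓ₀q : ℓ₀ ≠ q := fun h => hℓ₀M (h ▸ dvd_mul_left q N)
  have hℓ₀N : ¬ ℓ₀ ∣ N := fun h => hℓ₀M (h.mul_right q)
  have hℓ₀1' : (ℓ₀ : ZMod N) = 1 := by
    simpa using congrArg (ZMod.castHom (dvd_mul_right N q) (ZMod N)) hℓ₀1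
  obtain ⟨x, hx, hU, hx0, hT⟩ := exists_new_class hp hp2 hq hqN hφ hφ0 hε
    (by simpa using hTφ q (Or.inr rfl) hq) hℓ₀ hℓ₀q hℓ₀N hℓ₀1' (a₀ := W.apOfModel ℓ₀)
    (by exact_mod_cast hne₀)
    (by simpa [hℓ₀q] using hTφ ℓ₀ (Or.inl ⟨hgood₀, hℓ₀N, hℓ₀p, hℓ₀q⟩) hℓ₀)
  obtain ⟨g, 𝔪', hg, hmax', hpm', hnew, hg'⟩ :=
    exists_newAt_eigenform hp hq (dvd_mul_left q N) x hx hx0 hU
      {ℓ | W.IsGoodPrimeFor ℓ ∧ ¬ ℓ ∣ N * q ∧ ℓ ≠ p} W.apOfModel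
      (fun ℓ hℓ hℓprime => by
        have hne : ℓ ≠ q := fun h => hℓ.2.1 (h ▸ dvd_mul_left q N)
        exact hT ℓ hℓprime (W.apOfModel ℓ) hne (by
          simpa [hne] using
            hTφ ℓ (Or.inl ⟨hℓ.1, fun h => hℓ.2.1 (h.mul_right q), hℓ.2.2, hne⟩) hℓprime))
  exact ⟨g, 𝔪', hg, hmax', hpm', fun ℓ hℓ h1 h2 h3 => hg' ℓ ⟨h1, h2, h3⟩ hℓ, hnew⟩

/-- The descended newform keeps a prime with `a_q² = 1` exactly dividing the level. -/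
theorem exists_residualNewform_dvd (hN : 0 < N) (hq : q.Prime) (hqN : ¬ q ∣ N)
    (hbad : ∀ ℓ : ℕ, ℓ.Prime → ℓ ∣ N * q → ℓ ≠ p → ¬ W.IsGoodPrimeFor ℓ)
    {g : CuspForm (CongruenceSubgroup.Gamma0 (N * q)) 2} {𝔪 : Ideal (integralClosure ℤ ℂ)}
    (hg : g.IsNormalizedEigenform) (hmax : 𝔪.IsMaximal) (hpm : (p : integralClosure ℤ ℂ) ∈ 𝔪)
    (hcong : ∀ ℓ : ℕ, ℓ.Prime → W.IsGoodPrimeFor ℓ → ¬ ℓ ∣ N * q → ℓ ≠ p →
      ∃ a : integralClosure ℤ ℂ, (a : ℂ) = qCoeff g ℓ ∧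
        a - ((W.apOfModel ℓ : ℤ) : integralClosure ℤ ℂ) ∈ 𝔪)
    (hnew : g.IsNewAt q) :
    ∃ L : ℕ, L ∣ N * q ∧ q ∣ L ∧ ResidualNewformAt W p L := by
  have : NeZero N := ⟨hN.ne'⟩
  have : NeZero (N * q) := ⟨Nat.mul_ne_zero hN.ne' hq.ne_zero⟩
  have h2 : ¬ q ^ 2 ∣ N * q := fun h => by
    rw [pow_two, mul_comm N] at h
    exact hqN ((mul_dvd_mul_iff_left hq.ne_zero).1 h)
  obtain ⟨L, hL, h, hh, hhg⟩ :=
    RT.exists_newform_goodEigensystem hg (Nat.pos_of_ne_zero (NeZero.ne (N * q)))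
  have hqL : q ∣ L := by
    by_contra hqL
    have hLN : L ∣ N := ((hq.coprime_iff_not_dvd.2 hqL).symm).dvd_of_dvd_mul_right hL
    have : NeZero L := ⟨(Nat.pos_of_dvd_of_pos hLN hN).ne'⟩
    obtain ⟨f, hf, hfh⟩ := BadPrime.exists_eigenform_level_of_dvd hLN hh.1
    refine (TwoAdic.Count.isNewformAt_of_sq_eq_one hq (dvd_mul_left q N) h2 hg hnew).2.2 ?_
    rw [Nat.mul_div_cancel _ hq.pos]
    exact ⟨f, hf, fun ℓ hℓ hℓN => by rw [hfh ℓ hℓ fun hd => hℓN (hd.mul_right q), hhg ℓ hℓ hℓN]⟩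
  refine ⟨L, hL, hqL, h, 𝔪, hh, hmax, hpm, fun ℓ hℓ hgood hℓL hℓp => ?_⟩
  have hℓN : ¬ ℓ ∣ N * q := fun hd => hbad ℓ hℓ hd hℓp hgood
  obtain ⟨a, ha, ham⟩ := hcong ℓ hℓ hgood hℓN hℓp
  exact ⟨a, by rw [ha, hhg ℓ hℓ hℓN], ham⟩

end Fermat.Agent.Lifting
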