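import Fermat.Agent.Lifting.Squarefree.Contracts
import Fermat.Agent.Lifting.Squarefree.RaiseAtP
import Fermat.Agent.Lifting.Squarefree.MazurGeneral
import Fermat.Agent.Lifting.Minimal.Newform
import Fermat.Agent.EC.Mult.FixedLine
import Fermat.Agent.Galois.Frobenius

/-!
# The base of the raising argument

* `not_residuallyUnramifiedAt_of_mult`: at a multiplicative `q ≠ p` with `p ∤ ord_q Δ`, `E[p]` is
  ramified;
* `raisingBaseExists`: a minimal residual level, raised at a peu ramifiée multiplicative `5`,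
  is a base.
-/

set_option autoImplicit false

noncomputable section

open WeierstrassCurve
open ModularFormClass

namespace Fermat.Agent.Lifting

local notation "ℚ̄" => AlgebraicClosure ℚ

variable {W : WeierstrassCurve ℤ} {p : ℕ}

/-- At a multiplicative `q ≠ p` with `p ∤ ord_q Δ`, `E[p]` is ramified. -/
theorem not_residuallyUnramifiedAt_of_mult (hΔ : W.Δ ≠ 0) (hW : W.IsSemistableModel) (hp : p.Prime)
    {q : ℕ} (hq : q.Prime) (hpq : p ≠ q) (hqΔ : (q : ℤ) ∣ W.Δ) (hv : ¬ p ∣ padicValInt q W.Δ) :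
    ¬ ResiduallyUnramifiedAt W p q := by
  intro hu
  obtain ⟨A, hA⟩ := Galois.exists_valuationSubring_liesOverPrime (L := ℚ̄) hq
  obtain ⟨σ, hσ, x, hx⟩ := EC.Mult.exists_inertia_moving hq hA hΔ hqΔ (hW q hq hqΔ) hp hpq hv
  exact hx (hu A hA σ hσ x)

theorem ResidualNewformAt.residual {L : ℕ} (h : ResidualNewformAt W p L) :
    W.IsResiduallyModularOfLevel p L :=
  let ⟨g, 𝔪, hg, hmax, hpm, hc⟩ := h
  ⟨g, 𝔪, hg.1, hmax, hpm, hc⟩

/-- The ramified primes divide every admissible level with a congruent newform. -/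
theorem ResidualNewformAt.dvd_of_ramified (hS29 : RT.EigenformResidualRep) {L : ℕ}
    (h : ResidualNewformAt W p L) (hL : 0 < L) (hsf : Squarefree L)
    (hpL : p ∣ L → (p : ℤ) ∣ W.Δ) (hΔ : W.Δ ≠ 0) (hp : p.Prime) (hp2 : p ≠ 2)
    (hirr : W.ModRepIsIrreducible p) {q : ℕ} (hq : q.Prime) (hqp : q ≠ p)
    (hram : ¬ ResiduallyUnramifiedAt W p q) : q ∣ L := by
  have : Fact p.Prime := ⟨hp⟩
  obtain ⟨L₀, hd, hL₀⟩ := Minimal.exists_minimalResidualLevel hL hsf hpL h.residual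
  exact (hL₀.dvd_of_ramified hΔ hS29 hp2 hirr hq hqp hram).trans hd

section

variable (hS29 : RT.EigenformResidualRep) (hG2 : MazurLowering)
  (hTW : Minimal.NoMinimalTWLevel)

include hS29 hG2 hTW

/-- A residually unramified prime `q ≠ p` of a minimal level is `2` or `3`, and then `p = 5`. -/
theorem eq_two_or_three_of_minimal (hp : p = 3 ∨ p = 5) (hΔ : W.Δ ≠ 0) (hW : W.IsSemistableModel)
    (hirr : W.ModRepIsIrreducible p) (hlift : IsLiftableAt W p) {M : ℕ}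
    (hM : Minimal.IsMinimalResidualLevel W p M) {q : ℕ} (hq : q.Prime) (hqp : q ≠ p) (hqM : q ∣ M)
    (hu : ResiduallyUnramifiedAt W p q) : p = 5 ∧ (q = 2 ∨ q = 3) := by
  have hp' : p.Prime := by rcases hp with rfl | rfl <;> norm_num
  have hp2 : p ≠ 2 := by rcases hp with rfl | rfl <;> norm_num
  have : Fact p.Prime := ⟨hp'⟩
  have hram2 : p = 3 → ¬ ResiduallyUnramifiedAt W p 2 := by
    intro h3
    subst h3
    exact not_residuallyUnramifiedAt_of_mult hΔ hW hp' Nat.prime_two (by norm_num)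
      (by exact_mod_cast hlift.two_dvd rfl) (hlift.2 rfl).1
  have h2M : p = 3 → 2 ∣ M := fun h3 =>
    hM.dvd_of_ramified hΔ hS29 hp2 hirr Nat.prime_two (by omega) (hram2 h3)
  have hbig : ∀ r : ℕ, r.Prime → r ∣ M → r ≠ p → ResiduallyUnramifiedAt W p r → 5 ≤ r →
      (r : ZMod p) = 1 := by
    intro r hr hrM hrp hru h5
    by_contra h1
    have hlow := hG2 p hp' hp2 W hΔ hirr M r hM.pos hr h5 hrp hrM (hM.sq_not_dvd hr) h2M h1 hru
      hM.residual
    have := hM.minimal (M / r) (Nat.div_dvd_of_dvd hrM) hlow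
    exact (Nat.div_lt_self hM.pos hr.one_lt).ne this
  have hsmall : ∀ r : ℕ, r.Prime → r ≠ p → ResiduallyUnramifiedAt W p r → ¬ 5 ≤ r →
      p = 5 ∧ (r = 2 ∨ r = 3) := by
    intro r hr hrp hru h5
    have := hr.two_le
    have hr4 : r ≠ 4 := by rintro rfl; exact absurd hr (by norm_num)
    obtain rfl | rfl : r = 2 ∨ r = 3 := by omega
    · exact ⟨hp.resolve_left fun h3 => hram2 h3 hru, Or.inl rfl⟩
    · exact ⟨hp.resolve_left hrp.symm, Or.inr rfl⟩
  by_contra hne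
  have h5 : 5 ≤ q := by
    by_contra h5
    exact hne (hsmall q hq hqp hu h5)
  refine hTW p hp' hp2 W hΔ hW hirr M hM ?_ q hq hqM hqp hu
    (hbig q hq hqM hqp hu h5)
  intro r hr hrM hrp hru
  by_cases h5r : 5 ≤ r
  · exact Or.inl (hbig r hr hrM hrp hru h5r)
  · obtain ⟨rfl, rfl | rfl⟩ := hsmall r hr hrp hru h5r <;> exact Or.inr (by decide)

/-- **Existence of a base of the raising argument.** -/
theorem raisingBaseExists (htres : TresPrimeInLevel) (hord : OrdinaryTpFive) :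
    RaisingBaseExists := by
  intro p hp W hΔ hW hirr hlift M hM hsf hres hgood hextra
  classical
  have hp' : p.Prime := by rcases hp with rfl | rfl <;> norm_num
  have hp2 : p ≠ 2 := by rcases hp with rfl | rfl <;> norm_num
  have : Fact p.Prime := ⟨hp'⟩
  obtain ⟨M₀, hM₀M, hM₀⟩ := Minimal.exists_minimalResidualLevel hM hsf
    (fun h => by_contra fun hn => hgood hn h) hres
  have hsmall : ∀ {q : ℕ}, q.Prime → q ≠ p → q ∣ M₀ → ResiduallyUnramifiedAt W p q →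
      p = 5 ∧ (q = 2 ∨ q = 3) := fun hq hqp hqM hu =>
    eq_two_or_three_of_minimal hS29 hG2 hTW hp hΔ hW hirr hlift hM₀ hq hqp hqM hu
  have hbad : ∀ q : ℕ, q.Prime → q ∣ M₀ → q ≠ p → (q : ℤ) ∣ W.Δ := by
    intro q hq hqM hqp
    by_contra hg
    have h5 := hextra q hq (hqM.trans hM₀M) hg hqp
    have hu : ResiduallyUnramifiedAt W p q :=
      EC.galoisRepUnramifiedAt_of_isGoodPrimeFor W hq hg
        fun h => hqp ((Nat.prime_dvd_prime_iff_eq hq hp').1 h)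
    obtain ⟨-, h⟩ := hsmall hq hqp hqM hu
    omega
  -- the base level: `M₀`, or one containing `p` inside `M₀ p`
  obtain ⟨L, hLM, hLsf, hL, hpL, hmin⟩ : ∃ L : ℕ, L ∣ M₀ * p ∧ Squarefree L ∧
      ResidualNewformAt W p L ∧
      (p ∣ L ↔ (p : ℤ) ∣ W.Δ) ∧
      ∀ L' : ℕ, L' ∣ L → (p ∣ L → p ∣ L') → ResidualNewformAt W p L' → L' = L := by
    have hN₀ : ResidualNewformAt W p M₀ := hM₀.exists_newform hS29 hΔ hp'
    by_cases hpM : p ∣ M₀
    · exact ⟨M₀, dvd_mul_right _ _, hM₀.squarefree, hN₀, iff_of_true hpM (hM₀.mult_of_dvd hpM),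
        fun L' hd _ h => hM₀.minimal L' hd h.residual⟩
    by_cases hpΔ : (p : ℤ) ∣ W.Δ
    swap
    · exact ⟨M₀, dvd_mul_right _ _, hM₀.squarefree, hN₀, iff_of_false hpM hpΔ,
        fun L' hd _ h => hM₀.minimal L' hd h.residual⟩
    have hpeu : p ∣ padicValInt p W.Δ := by
      by_contra hv
      exact hpM (htres p hp' hp2 W hΔ hW hpΔ hv hirr M₀ hM₀.pos hM₀.residual)
    obtain rfl : p = 5 := by
      refine hp.resolve_left fun h3 => ?_
      subst h3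
      exact (hlift.2 rfl).2 hpΔ hpeu
    obtain ⟨f, 𝔪, hf, hmax, hpm, hc⟩ := hN₀.residual
    obtain ⟨a, ha, ha1⟩ := hord W hΔ hW hpΔ hirr M₀ f 𝔪 hM₀.pos hpM hf hmax hpm hc
    have haLR : a ^ 2 - (((5 : ℕ) : integralClosure ℤ ℂ) + 1) ^ 2 ∈ 𝔪 := by
      rw [show a ^ 2 - (((5 : ℕ) : integralClosure ℤ ℂ) + 1) ^ 2 =
        (a ^ 2 - 1) - ((5 : ℕ) : integralClosure ℤ ℂ) * (((5 : ℕ) : integralClosure ℤ ℂ) + 2) by
          ring]
      exact 𝔪.sub_mem ha1 (𝔪.mul_mem_right _ hpm)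
    obtain ⟨g, 𝔪', hg, hmax', hpm', hc', hnew⟩ := exists_newAt_of_sq_congr hΔ hp' hp2 hM₀.pos hp'
      hpM hirr hf hmax hpm (fun ℓ hℓ h1 h2 h3 _ => hc ℓ hℓ h1 h2 h3) ⟨a, ha, haLR⟩
    obtain ⟨L₁, hL₁, hpL₁, hN₁⟩ := exists_residualNewform_dvd hM₀.pos hp' hpM
      (fun ℓ hℓ hd hℓp hgd => hgd (hbad ℓ hℓ ((hℓ.dvd_mul.1 hd).resolve_right fun h =>
        hℓp ((Nat.prime_dvd_prime_iff_eq hℓ hp').1 h)) hℓp))
      hg hmax' hpm' hc' hnew
    have hex : ∃ L, L ∣ M₀ * 5 ∧ 5 ∣ L ∧ ResidualNewformAt W 5 L := ⟨L₁, hL₁, hpL₁, hN₁⟩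
    obtain ⟨h1, h2, h3⟩ := Nat.find_spec hex
    exact ⟨_, h1, ((Nat.squarefree_mul ((hp'.coprime_iff_not_dvd.2 hpM).symm)).2
      ⟨hM₀.squarefree, hp'.prime.squarefree⟩).squarefree_of_dvd h1, h3, iff_of_true h2 hpΔ, fun L' hd hpd h =>
      (Nat.le_of_dvd (Nat.pos_of_dvd_of_pos h1 (Nat.mul_pos hM₀.pos hp'.pos)) hd).antisymm
        (Nat.find_min' hex ⟨hd.trans h1, hpd h2, h⟩)⟩
  have hpos : 0 < L := Nat.pos_of_dvd_of_pos hLM (Nat.mul_pos hM₀.pos hp'.pos)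
  have hdvdM₀ : ∀ {q : ℕ}, q.Prime → q ≠ p → q ∣ L → q ∣ M₀ := fun hq hqp hqL =>
    (hq.dvd_mul.1 (hqL.trans hLM)).resolve_right fun h =>
      hqp ((Nat.prime_dvd_prime_iff_eq hq hp').1 h)
  refine ⟨L, hpos, hLsf, hL, hpL, ?_, ?_, ?_, hmin⟩
  · intro q hq hqL
    by_cases hqp : q = p
    · exact hqp ▸ hpL.1 (hqp ▸ hqL)
    · exact hbad q hq (hdvdM₀ hq hqp hqL) hqp
  · exact fun q hq hqp hram => hL.dvd_of_ramified hS29 hpos hLsf hpL.1 hΔ hp' hp2 hirr hq hqp hram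
  · intro q hq hqp hqL hu
    obtain ⟨rfl, rfl | rfl⟩ := hsmall hq hqp (hdvdM₀ hq hqp hqL) hu <;> decide

end

end Fermat.Agent.Lifting
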