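import Mathlib.NumberTheory.Real.Irrational
import Mathlib.Data.Rat.Lemmas
import Mathlib.Data.Nat.Squarefree
import Mathlib.Tactic

/-!
# The rational points of `y² = h (h² + 22 h + 125)`

An elementary descent: the only rational point with finite `h` is `h = 0`.
-/

set_option autoImplicit false

namespace Fermat.Agent.Lifting.FiveSquare

theorem pos_eq_pow_four {X Y c : ℤ} (hX : 0 < X) (hXY : IsCoprime X Y) (h : X * Y = c ^ 4) :
    ∃ m : ℤ, X = m ^ 4 := by
  obtain ⟨m, hm⟩ := exists_associated_pow_of_mul_eq_pow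
    (gcd_isUnit_iff_isRelPrime.2 hXY.isRelPrime) h
  rcases Int.associated_iff.1 hm with e | e
  · exact ⟨m, e.symm⟩
  · exfalso
    nlinarith [sq_nonneg (m ^ 2)]

/-- `X * Y = 125 q⁴` with `X, Y` coprime and positive. -/
theorem split_125 {X Y q : ℤ} (hX : 0 < X) (hY : 0 < Y) (hXY : IsCoprime X Y)
    (h : X * Y = 125 * q ^ 4) :
    ∃ m n : ℤ, X + Y = m ^ 4 + 125 * n ^ 4 ∧ m ^ 2 * n ^ 2 = q ^ 2 ∧ IsCoprime m n := by
  have h5 : Prime (5 : ℤ) := Int.prime_ofNat_iff.2 (by norm_num)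
  have key : ∀ {A B : ℤ}, 0 < A → 0 < B → IsCoprime A B → A * B = 125 * q ^ 4 → (5 : ℤ) ∣ A →
      ∃ m n : ℤ, A + B = m ^ 4 + 125 * n ^ 4 ∧ m ^ 2 * n ^ 2 = q ^ 2 ∧ IsCoprime m n := by
    intro A B hA hB hAB hmul h5A
    have hcop : IsCoprime (125 : ℤ) B := by
      rw [show (125 : ℤ) = 5 ^ 3 by norm_num]
      exact (hAB.of_isCoprime_of_dvd_left h5A).pow_left
    obtain ⟨C, rfl⟩ : (125 : ℤ) ∣ A := hcop.dvd_of_dvd_mul_right ⟨_, hmul⟩
    have hCB : IsCoprime C B := hAB.of_mul_left_right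
    have hmul' : C * B = q ^ 4 := by
      apply mul_left_cancel₀ (show (125 : ℤ) ≠ 0 by norm_num)
      linear_combination hmul
    obtain ⟨n, rfl⟩ := pos_eq_pow_four (by omega) hCB hmul'
    obtain ⟨m, rfl⟩ := pos_eq_pow_four hB hCB.symm ((mul_comm _ _).trans hmul')
    refine ⟨m, n, by ring, ?_, ?_⟩
    · have h1 : (m ^ 2 * n ^ 2) ^ 2 = (q ^ 2) ^ 2 := by linear_combination hmul'
      exact (pow_left_inj₀ (by positivity) (by positivity) two_ne_zero).1 h1
    · exact ((IsCoprime.pow_iff (by norm_num) (by norm_num)).1 hCB).symm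
  rcases h5.dvd_or_dvd (show (5 : ℤ) ∣ X * Y from ⟨25 * q ^ 4, by rw [h]; ring⟩) with h' | h'
  · exact key hX hY hXY h h'
  · rw [add_comm]
    exact key hY hX hXY.symm ((mul_comm _ _).trans h) h'

theorem not_both_odd {w v z : ℤ} (hw : Odd w) (hv : Odd v) :
    w ^ 4 + 22 * w ^ 2 * v ^ 2 + 125 * v ^ 4 ≠ z ^ 2 := by
  intro h
  obtain ⟨a, ha⟩ : ∃ a, w ^ 2 = 8 * a + 1 := by
    obtain ⟨t, rfl⟩ := hw
    obtain ⟨u, hu⟩ := Int.two_dvd_mul_add_one t
    exact ⟨u, by linear_combination 4 * hu⟩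
  obtain ⟨b, hb⟩ : ∃ b, v ^ 2 = 8 * b + 1 := by
    obtain ⟨t, rfl⟩ := hv
    obtain ⟨u, hu⟩ := Int.two_dvd_mul_add_one t
    exact ⟨u, by linear_combination 4 * hu⟩
  have hz : ((z : ZMod 32)) ^ 2 = 20 := by
    have h' : z ^ 2 = 20 + 32 * (4 + 6 * a + 68 * b + 2 * a ^ 2 + 44 * a * b + 250 * b ^ 2) := by
      rw [← h]
      linear_combination (w ^ 2 + 8 * a + 1 + 22 * v ^ 2) * ha
        + (22 * (8 * a + 1) + 125 * (v ^ 2 + 8 * b + 1)) * hb
    have := congrArg (fun x : ℤ => (x : ZMod 32)) h'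
    push_cast at this
    rw [this, show (32 : ZMod 32) = 0 from rfl, zero_mul, add_zero]
  exact (by decide : ∀ x : ZMod 32, x ^ 2 ≠ 20) _ hz

/-- The descent. -/
theorem quartic_coprime {w v z : ℤ} (hwv : IsCoprime w v)
    (h : w ^ 4 + 22 * w ^ 2 * v ^ 2 + 125 * v ^ 4 = z ^ 2) : v = 0 := by
  induction hn : v.natAbs using Nat.strong_induction_on generalizing w v z with
  | _ n ih =>
  subst hn
  by_contra hv
  wlog hz : 0 ≤ z generalizing z
  · exact this (z := -z) (by linear_combination h) (by omega)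
  have hv2 : 0 < v ^ 2 := by positivity
  obtain ⟨T, hT⟩ : ∃ T, T = w ^ 2 + 11 * v ^ 2 := ⟨_, rfl⟩
  have hT0 : 0 < T := by nlinarith [sq_nonneg w]
  have hTodd : Odd T := by
    rcases Int.even_or_odd w with hw | hw <;> rcases Int.even_or_odd v with hv' | hv'
    · exfalso
      have hu := hwv.isUnit_of_dvd' hw.two_dvd hv'.two_dvd
      norm_num [Int.isUnit_iff] at hu
    · subst hT
      simp [parity_simps, Int.not_odd_iff_even.2 hw, Int.not_even_iff_odd.2 hv',
        show ¬ Even (11 : ℤ) by decide]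
    · subst hT; simp [parity_simps, hw, hv']
    · exact absurd h (not_both_odd hw hv')
  have hzT : z ^ 2 = T ^ 2 + 4 * v ^ 4 := by subst hT; linear_combination -h
  have hzgt : T < z := by nlinarith [pow_pos hv2 2]
  obtain ⟨Q, hQ⟩ : (2 : ℤ) ∣ z - T := by
    rcases Int.prime_two.dvd_or_dvd (⟨2 * v ^ 4, by linear_combination hzT⟩ :
      (2 : ℤ) ∣ (z - T) * (z + T)) with h2 | h2
    · exact h2
    · omega
  obtain rfl : z = T + 2 * Q := by omega
  have hPQ : (Q + T) * Q = v ^ 4 := by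
    apply mul_left_cancel₀ (show (4 : ℤ) ≠ 0 by norm_num)
    linear_combination hzT
  have hTv : IsCoprime T (v ^ 4) := by
    apply IsCoprime.pow_right
    subst hT
    have := (hwv.pow_left (m := 2)).add_mul_right_left (11 * v)
    rwa [show w ^ 2 + 11 * v * v = w ^ 2 + 11 * v ^ 2 by ring] at this
  have hcop : IsCoprime (Q + T) Q := by
    have h1 : IsCoprime T Q := hTv.of_isCoprime_of_dvd_right ⟨Q + T, by linear_combination -hPQ⟩
    simpa [add_comm] using h1.add_mul_right_left 1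
  obtain ⟨p, hp⟩ := pos_eq_pow_four (by omega) hcop hPQ
  obtain ⟨q, hq⟩ := pos_eq_pow_four (by omega) hcop.symm ((mul_comm _ _).trans hPQ)
  have hpqv : p ^ 2 * q ^ 2 = v ^ 2 := by
    have h1 : (p ^ 2 * q ^ 2) ^ 2 = (v ^ 2) ^ 2 := by
      rw [hp, hq] at hPQ; linear_combination hPQ
    exact (pow_left_inj₀ (by positivity) (by positivity) two_ne_zero).1 h1
  have hpq : IsCoprime p q := by
    rw [hp, hq] at hcop
    exact (IsCoprime.pow_iff (by norm_num) (by norm_num)).1 hcop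
  have hp0 : p ≠ 0 := fun e => by subst e; norm_num at hpqv; exact hv ((pow_eq_zero_iff two_ne_zero).1 hpqv.symm)
  have hq0 : q ≠ 0 := fun e => by subst e; norm_num at hpqv; exact hv ((pow_eq_zero_iff two_ne_zero).1 hpqv.symm)
  have hw2 : w ^ 2 + 11 * p ^ 2 * q ^ 2 = p ^ 4 - q ^ 4 := by
    linear_combination hp - hq - hT + 11 * hpqv
  -- `q` is even
  rcases Int.even_or_odd q with hqe | hqo
  swap
  · rcases Int.even_or_odd p with ⟨p', rfl⟩ | hpo
    · have hmod : ((w : ZMod 4)) ^ 2 = -((q : ZMod 4)) ^ 4 := by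
        have := congrArg (fun x : ℤ => (x : ZMod 4)) hw2
        push_cast at this
        have h4 : (4 : ZMod 4) = 0 := rfl
        linear_combination this
          + (4 * (p' : ZMod 4) ^ 4 - 11 * (q : ZMod 4) ^ 2 * (p' : ZMod 4) ^ 2) * h4
      obtain ⟨t, rfl⟩ := hqo
      have key : ∀ x y : ZMod 4, x ^ 2 ≠ -(2 * y + 1) ^ 4 := by decide
      exact key _ _ (by simpa using hmod)
    · have h1 : Odd (q ^ 4 + T) := by
        rw [← hq, hp]
        exact hpo.pow
      simp [parity_simps, hqo] at h1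
      exact Int.not_even_iff_odd.2 hTodd h1
  obtain ⟨s, rfl⟩ := hqe.two_dvd
  have hpo : Odd p := by
    rcases Int.even_or_odd p with hp' | hp'
    · exfalso
      have hu := hpq.isUnit_of_dvd' hp'.two_dvd (dvd_mul_right 2 s)
      norm_num [Int.isUnit_iff] at hu
    · exact hp'
  have hwo : Odd w := by
    have h1 : Odd (w ^ 2 + 11 * p ^ 2 * (2 * s) ^ 2) := by
      rw [hw2]; simp [parity_simps, hpo]
    simpa [parity_simps] using h1
  obtain ⟨U, hU⟩ : ∃ U, U = p ^ 2 - 22 * s ^ 2 := ⟨_, rfl⟩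
  have hUw : (U - w) * (U + w) = 500 * s ^ 4 := by subst hU; linear_combination -hw2
  obtain ⟨X, hX⟩ : (2 : ℤ) ∣ U - w := by
    subst hU
    rw [← even_iff_two_dvd]
    simp [parity_simps, Int.not_even_iff_odd.2 hpo, Int.not_even_iff_odd.2 hwo,
      show Even (22 : ℤ) by decide]
  obtain rfl : U = w + 2 * X := by omega
  have hXY : X * (X + w) = 125 * s ^ 4 := by linarith
  have hcopXY : IsCoprime X (X + w) := by
    rw [Int.isCoprime_iff_gcd_eq_one]
    by_contra hg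
    obtain ⟨r, hr, hrd⟩ := Nat.exists_prime_and_dvd hg
    have hr' : Prime (r : ℤ) := Nat.prime_iff_prime_int.1 hr
    have hrX : (r : ℤ) ∣ X := (Int.natCast_dvd_natCast.2 hrd).trans (Int.gcd_dvd_left _ _)
    have hrY : (r : ℤ) ∣ X + w := (Int.natCast_dvd_natCast.2 hrd).trans (Int.gcd_dvd_right _ _)
    have hrU : (r : ℤ) ∣ p ^ 2 - 22 * s ^ 2 := by
      rw [← hU, show w + 2 * X = X + (X + w) by ring]
      exact dvd_add hrX hrY
    have hrp : (r : ℤ) ∣ s → False := fun hs => by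
      have h1 : (r : ℤ) ∣ p ^ 2 := by
        have := dvd_add hrU (dvd_mul_of_dvd_right (dvd_pow hs two_ne_zero) 22)
        simpa using this
      exact hr'.not_isUnit (hpq.isUnit_of_dvd' (hr'.dvd_of_dvd_pow h1) (hs.mul_left 2))
    have hr125 : (r : ℤ) ∣ 125 * s ^ 4 := hXY ▸ hrX.mul_right _
    rcases hr'.dvd_or_dvd hr125 with h125 | hs
    · have hr5 : r = 5 := by
        have h3 : r ∣ 5 ^ 3 := Int.natCast_dvd_natCast.1 (by norm_num; exact h125)
        exact (Nat.prime_dvd_prime_iff_eq hr (by norm_num)).1 (hr.dvd_of_dvd_pow h3)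
      subst hr5
      have h5 : ((p ^ 2 - 22 * s ^ 2 : ℤ) : ZMod 5) = 0 :=
        (ZMod.intCast_zmod_eq_zero_iff_dvd _ 5).2 hrU
      have key : ∀ x y : ZMod 5, x ^ 2 - 22 * y ^ 2 = 0 → y = 0 := by decide
      exact hrp ((ZMod.intCast_zmod_eq_zero_iff_dvd s 5).1
        (key (p : ZMod 5) (s : ZMod 5) (by simpa using h5)))
    · exact hrp (hr'.dvd_of_dvd_pow hs)
  have hs0 : s ≠ 0 := fun e => hq0 (by rw [e, mul_zero])
  have hs4 : 0 < s ^ 4 := by positivity
  rcases lt_trichotomy X 0 with hX0 | hX0 | hX0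
  · have hY0 : X + w < 0 := by nlinarith
    obtain ⟨m, k, hsum, hmn, -⟩ := split_125 (X := -X) (Y := -(X + w)) (q := s) (by omega)
      (by omega) hcopXY.neg_neg (by linear_combination hXY)
    have hk : k ≠ 0 := fun e => by subst e; norm_num at hmn; exact hs0 ((pow_eq_zero_iff two_ne_zero).1 hmn.symm)
    have : p ^ 2 + ((m ^ 2 - 11 * k ^ 2) ^ 2 + 4 * k ^ 4) = 0 := by
      linear_combination -hU - hsum - 22 * hmn
    nlinarith [sq_nonneg p, sq_nonneg (m ^ 2 - 11 * k ^ 2), pow_pos (sq_pos_of_ne_zero hk) 2]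
  · subst hX0; rw [zero_mul] at hXY; omega
  · have hY0 : 0 < X + w := by nlinarith
    obtain ⟨m, k, hsum, hmn, hmk⟩ := split_125 hX0 hY0 hcopXY hXY
    have hk : k ≠ 0 := fun e => by subst e; norm_num at hmn; exact hs0 ((pow_eq_zero_iff two_ne_zero).1 hmn.symm)
    refine hk (ih k.natAbs ?_ hmk (z := p) ?_ rfl)
    · zify
      rw [← sq_lt_sq]
      have hm : m ≠ 0 := fun e => by subst e; norm_num at hmn; exact hs0 ((pow_eq_zero_iff two_ne_zero).1 hmn.symm)
      have h1 : k ^ 2 ≤ s ^ 2 := by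
        rw [← hmn]; nlinarith [sq_pos_of_ne_zero hm, sq_nonneg k]
      have h2 : 1 ≤ p ^ 2 := sq_pos_of_ne_zero hp0
      have hs2 : 0 < s ^ 2 := by nlinarith [sq_nonneg (s ^ 2)]
      nlinarith
    · linear_combination hU - hsum + 22 * hmn

/-- No rational point with square `h`. -/
theorem quartic_rational {r z : ℚ} : r ^ 4 + 22 * r ^ 2 + 125 ≠ z ^ 2 := by
  intro h
  obtain ⟨a, b, hb, hab, rfl⟩ : ∃ a b : ℤ, b ≠ 0 ∧ IsCoprime a b ∧ r = a / b :=
    ⟨r.num, r.den, by exact_mod_cast r.den_nz,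
      Int.isCoprime_iff_nat_coprime.2 (by simpa using r.reduced),
      by exact_mod_cast (Rat.num_div_den r).symm⟩
  have hbq : (b : ℚ) ≠ 0 := by exact_mod_cast hb
  obtain ⟨M, hM⟩ : IsSquare (a ^ 4 + 22 * a ^ 2 * b ^ 2 + 125 * b ^ 4) := by
    rw [← Rat.isSquare_intCast_iff]
    refine ⟨z * (b : ℚ) ^ 2, ?_⟩
    field_simp at h
    push_cast
    linear_combination h
  exact hb (quartic_coprime hab (z := M) (by linear_combination hM))

/-- No rational `h ≠ 0` has `h (h² + 22 h + 125)` a square. -/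
theorem cubic_rational {h t : ℚ} (hh : h ≠ 0) : t ^ 2 * h ≠ h ^ 2 + 22 * h + 125 := by
  intro ht
  have hQpos : 0 < h ^ 2 + 22 * h + 125 := by nlinarith [sq_nonneg (h + 11)]
  have hpos : 0 < h := by
    by_contra hneg
    nlinarith [sq_nonneg t]
  obtain ⟨a, b, hb, hab, rfl⟩ : ∃ a b : ℤ, 0 < b ∧ IsCoprime a b ∧ h = a / b :=
    ⟨h.num, h.den, by exact_mod_cast h.den_pos,
      Int.isCoprime_iff_nat_coprime.2 (by simpa using h.reduced),
      by exact_mod_cast (Rat.num_div_den h).symm⟩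
  have hbq : (0 : ℚ) < b := by exact_mod_cast hb
  have ha : 0 < a := by
    have := (div_pos_iff_of_pos_right hbq).1 hpos
    exact_mod_cast this
  have ht' : t ^ 2 * (a * b) = (a : ℚ) ^ 2 + 22 * a * b + 125 * b ^ 2 := by
    field_simp at ht
    linear_combination ht
  obtain ⟨d, w, hdw, hd⟩ := Nat.sq_mul_squarefree (a * b).natAbs
  have hab0 : 0 < a * b := mul_pos ha hb
  have hdwZ : (w : ℤ) ^ 2 * d = a * b := by
    rw [← abs_of_pos hab0, ← Int.natCast_natAbs]
    exact_mod_cast hdw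
  have hw : (w : ℤ) ≠ 0 := fun e => by rw [e] at hdwZ; norm_num at hdwZ; omega
  -- `d` divides the quadratic form
  set Q := a ^ 2 + 22 * a * b + 125 * b ^ 2 with hQ
  obtain ⟨k, hk⟩ : IsSquare ((d : ℤ) * Q) := by
    rw [← Rat.isSquare_intCast_iff]
    refine ⟨t * w * d, ?_⟩
    have hdwQ : (w : ℚ) ^ 2 * d = a * b := by exact_mod_cast hdwZ
    rw [hQ]
    push_cast
    linear_combination -(d : ℚ) * ht' - (d : ℚ) * t ^ 2 * hdwQ
  have hdQ : (d : ℤ) ∣ Q := by
    have hsq : Squarefree (d : ℤ) := Int.squarefree_natCast.2 hd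
    have hdk : (d : ℤ) ∣ k := (hsq.dvd_pow_iff_dvd two_ne_zero).1 ⟨Q, by rw [hk]; ring⟩
    obtain ⟨e, rfl⟩ := hdk
    exact ⟨e ^ 2, mul_left_cancel₀ (Int.natCast_ne_zero.2 hd.ne_zero) (by linear_combination hk)⟩
  have hdvd : d ∣ 5 := by
    rw [← Nat.prod_primeFactors_of_squarefree hd]
    refine Nat.dvd_trans (Finset.prod_dvd_prod_of_subset _ {5} _ fun p hp => ?_) (by simp)
    obtain ⟨hpp, hpd, -⟩ := Nat.mem_primeFactors.1 hp
    have hp' : Prime (p : ℤ) := Nat.prime_iff_prime_int.1 hpp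
    have hpdZ : (p : ℤ) ∣ d := Int.natCast_dvd_natCast.2 hpd
    have hpQ : (p : ℤ) ∣ Q := hpdZ.trans hdQ
    have hpab : (p : ℤ) ∣ a * b := hdwZ ▸ hpdZ.mul_left _
    rw [Finset.mem_singleton]
    rcases hp'.dvd_or_dvd hpab with hpa | hpb
    · have h125 : (p : ℤ) ∣ 125 * b ^ 2 := by
        have := dvd_sub hpQ (hpa.mul_right (a + 22 * b))
        rwa [hQ, show a ^ 2 + 22 * a * b + 125 * b ^ 2 - a * (a + 22 * b) = 125 * b ^ 2 by ring]
          at this
      rcases hp'.dvd_or_dvd h125 with h5 | hpb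
      · have h3 : p ∣ 5 ^ 3 := Int.natCast_dvd_natCast.1 (by norm_num; exact h5)
        exact (Nat.prime_dvd_prime_iff_eq hpp (by norm_num)).1 (hpp.dvd_of_dvd_pow h3)
      · exact absurd (hab.isUnit_of_dvd' hpa (hp'.dvd_of_dvd_pow hpb)) hp'.not_isUnit
    · have ha2 : (p : ℤ) ∣ a ^ 2 := by
        have := dvd_sub hpQ (hpb.mul_right (22 * a + 125 * b))
        rwa [hQ, show a ^ 2 + 22 * a * b + 125 * b ^ 2 - b * (22 * a + 125 * b) = a ^ 2 by ring]
          at this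
      exact absurd (hab.isUnit_of_dvd' (hp'.dvd_of_dvd_pow ha2) hpb) hp'.not_isUnit
  have hdwQ : (w : ℚ) ^ 2 * d = a * b := by exact_mod_cast hdwZ
  rcases (Nat.dvd_prime (by norm_num)).1 hdvd with rfl | rfl
  · refine quartic_rational (r := (w : ℚ) / b) (z := t * (w / b)) ?_
    push_cast at hdwQ
    field_simp
    linear_combination -(b : ℚ) ^ 2 * ht'
      + ((w : ℚ) ^ 2 + a * b + 22 * b ^ 2 - t ^ 2 * b ^ 2) * hdwQ
  · refine quartic_rational (r := 5 * b / (w : ℚ)) (z := 5 * t * b / w) ?_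
    have hwq : (w : ℚ) ≠ 0 := by exact_mod_cast hw
    push_cast at hdwQ
    field_simp
    linear_combination -5 * (b : ℚ) ^ 2 * ht'
      + (5 * (5 * (w : ℚ) ^ 2 + a * b) + 110 * b ^ 2 - 5 * t ^ 2 * b ^ 2) * hdwQ

end Fermat.Agent.Lifting.FiveSquare
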