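import Fermat.Agent.Lifting.Squarefree.Contracts
import Fermat.Agent.Lifting.Squarefree.FiveCubic
import Fermat.Agent.EC.Fifteen.Extract

/-!
# A curve with square discriminant has irreducible `E[5]`

A stable `5`-line gives a rational `S` with `c₄³ (S - 11) = Δ (S² - 12 S + 16)³`, hence
`c₆² h = Δ (h² + 22 h + 125) (h² + 4 h - 1)²` for `h = S - 11`; a square `Δ` gives a point on
`y² = h (h² + 22 h + 125)`, of which there is none with `h ≠ 0`.
-/

set_option autoImplicit false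

namespace Fermat.Agent.Lifting.FiveSquare

open WeierstrassCurve.Affine Fermat.Agent.EC.Fifteen Polynomial
open scoped WeierstrassCurve.Affine

local notation "Qbar" => AlgebraicClosure ℚ

/-- The `j`-relation of a rational stable `5`-line. -/
theorem exists_S (W : WeierstrassCurve ℚ) [W.IsElliptic]
    (h : ¬ Point.GaloisRepIsIrreducible (K := Qbar) ℚ W.toAffine 5) :
    ∃ S : ℚ, W.c₄ ^ 3 * (S - 11) = W.Δ * (S ^ 2 - 12 * S + 16) ^ 3 := by
  obtain ⟨x₁, x₂, hne, hψ, h12, h21, hpair⟩ := exists_fivePair W h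
  have hdeg : (W⁄Qbar).Ψ₃.degree ≠ 0 := by
    intro h0
    have h1 := natDegree_eq_of_degree_eq_some h0
    rw [WeierstrassCurve.natDegree_Ψ₃ _ (by norm_num)] at h1
    exact absurd h1 (by norm_num)
  obtain ⟨x₀, hx₀⟩ := IsAlgClosed.exists_root _ hdeg
  rw [IsRoot.def, eval_Ψ₃_eq_psiThree] at hx₀
  obtain ⟨-, -, -, hj⟩ := fifteen_relations (W⁄Qbar) hne hx₀ hψ h12 h21
  have hb2 : ∀ σ : Qbar ≃ₐ[ℚ] Qbar, σ (W⁄Qbar).b₂ = (W⁄Qbar).b₂ := fun σ => by
    rw [show (W⁄Qbar).b₂ = algebraMap ℚ Qbar W.b₂ from W.map_b₂ _, AlgEquiv.commutes]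
  have hb4 : ∀ σ : Qbar ≃ₐ[ℚ] Qbar, σ (W⁄Qbar).b₄ = (W⁄Qbar).b₄ := fun σ => by
    rw [show (W⁄Qbar).b₄ = algebraMap ℚ Qbar W.b₄ from W.map_b₄ _, AlgEquiv.commutes]
  obtain ⟨S, hS⟩ : ∃ S : ℚ, algebraMap ℚ Qbar S = invS (W⁄Qbar) x₁ x₂ :=
    mem_range_of_fixed fun σ => by
      rcases hpair σ with ⟨e₁, e₂⟩ | ⟨e₁, e₂⟩ <;>
        simp only [invS, map_div₀, map_mul, map_add, map_sub, map_neg, map_pow, map_ofNat,
          hb2, hb4, e₁, e₂] <;> ring
  rw [← hS, show (W⁄Qbar).c₄ = algebraMap ℚ Qbar W.c₄ from W.map_c₄ _,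
    show (W⁄Qbar).Δ = algebraMap ℚ Qbar W.Δ from W.map_Δ _] at hj
  exact ⟨S, (algebraMap ℚ Qbar).injective (by simpa using hj)⟩

end Fermat.Agent.Lifting.FiveSquare

namespace Fermat.Agent.Lifting

/-- A curve with square discriminant has irreducible `E[5]`. -/
theorem fiveIrreducibleOfSquare : FiveIrreducibleOfSquare := by
  intro W hΔ hsq
  by_contra h5
  have : (W.map (Int.castRingHom ℚ)).IsElliptic := ⟨by
    rw [WeierstrassCurve.map_Δ]
    simpa using hΔ⟩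
  obtain ⟨S, hj⟩ := FiveSquare.exists_S (W.map (Int.castRingHom ℚ)) h5
  simp only [WeierstrassCurve.map_c₄, WeierstrassCurve.map_Δ, eq_intCast] at hj
  obtain ⟨s, hs⟩ := hsq
  have hΔq : (W.Δ : ℚ) = s * s := by exact_mod_cast hs
  have hs0 : (s : ℚ) ≠ 0 := by
    intro e
    apply hΔ
    have : (W.Δ : ℚ) = 0 := by rw [hΔq, e, mul_zero]
    exact_mod_cast this
  obtain ⟨h, rfl⟩ : ∃ h, S = h + 11 := ⟨S - 11, by ring⟩
  have h0 : h ≠ 0 := by
    rintro rfl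
    norm_num at hj
    exact hΔ (by exact_mod_cast hj)
  have h6 : (W.c₆ : ℚ) ^ 2 * h
      = W.Δ * (h ^ 2 + 22 * h + 125) * (h ^ 2 + 4 * h - 1) ^ 2 := by
    have hrel : (1728 * W.Δ : ℚ) = W.c₄ ^ 3 - W.c₆ ^ 2 := by exact_mod_cast W.c_relation
    linear_combination h * hrel + hj
  have hq : h ^ 2 + 4 * h - 1 ≠ 0 := by
    intro e
    have h5sq : IsSquare ((5 : ℕ) : ℚ) := ⟨h + 2, by push_cast; linear_combination -e⟩
    rw [Rat.isSquare_natCast_iff] at h5sq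
    exact (Nat.prime_five.not_isSquare) h5sq
  refine FiveSquare.cubic_rational (t := W.c₆ / (s * (h ^ 2 + 4 * h - 1))) h0 ?_
  rw [hΔq] at h6
  generalize h ^ 2 + 4 * h - 1 = q at h6 hq ⊢
  field_simp
  linear_combination h6

end Fermat.Agent.Lifting
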