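import Fermat.Agent.Lifting.Squarefree.MazurGeneral
import Fermat.Agent.BadPrime.Mazur.Local.Main

/-!
# The local inputs of Mazur's principle at `q ≥ 5` for an odd prime `p`

The bounded factor is `12`, prime to `p ≥ 5`; at `p = 3` and even level it is `4`.
-/

set_option autoImplicit false

noncomputable section

namespace Fermat.Agent.Lifting

open BadPrime.Mazur BadPrime.Mazur.Local

theorem mazurLocalInputs : MazurLocalInputs := by
  intro q p M _ _ hq hq5 hp hp2 hqp hqM h23
  have : Fact q.Prime := ⟨hq⟩
  have : NeZero p := ⟨hp.ne_zero⟩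
  rcases eq_or_ne p 3 with rfl | hp3
  · exact (localInputsMod_four hq5 hqM (h23 rfl) fun h =>
      hqp ((Nat.prime_dvd_prime_iff_eq hq hp).1 h)).localInputs (by decide)
  · have hp4 : p ≠ 4 := fun h => absurd (h ▸ hp) (by decide)
    have := hp.two_le
    exact Local.localInputs hp (by omega) (fun h => hqp h.symm)
      ⟨fun h => absurd h (by omega), fun h => absurd h (by omega)⟩ hqM

theorem mazurLowering : MazurLowering := mazurLowering_of_inputs mazurLocalInputs

end Fermat.Agent.Lifting
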