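import Fermat.Agent.LevelRaise.Eigen
import Mathlib.Algebra.Polynomial.AlgebraMap
import Mathlib.FieldTheory.Minpoly.Field

/-!
# A mod `p` class killed by a polynomial in `T_p`

An eigenform with `a_p` in a given class modulo `𝔪` gives a nonzero class with values in `ZMod p`
which is an eigen class at the primes with rational residual eigenvalue, and is killed by every
integral polynomial in `T_p` with `h (a_p) ∈ 𝔪`.
-/

set_option autoImplicit false

noncomputable section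

open CongruenceSubgroup ModularCurve.Period
open Fermat.Agent.Periods Fermat.Agent.LevelRaise
open scoped MatrixGroups IsMulCommutative Polynomial

namespace Fermat.Agent.Lifting.OrdinaryFive

/-- A polynomial in intertwined endomorphisms is intertwined. -/
theorem aeval_apply_of_intertwine {A B : Type*} [AddCommGroup A] [AddCommGroup B]
    (T : Module.End ℤ A) (T' : Module.End ℤ B) (F : A →+ B) (h : ∀ x, F (T x) = T' (F x))
    (P : ℤ[X]) (x : A) : F (Polynomial.aeval T P x) = Polynomial.aeval T' P (F x) := by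
  induction P using Polynomial.induction_on' with
  | add a b ha hb =>
    rw [map_add, map_add, LinearMap.add_apply, LinearMap.add_apply, map_add, ha, hb]
  | monomial n a =>
    have hn : ∀ n : ℕ, F ((T ^ n) x) = (T' ^ n) (F x) := by
      intro n
      induction n with
      | zero => rfl
      | succ n ih => rw [pow_succ', pow_succ', Module.End.mul_apply, Module.End.mul_apply, h, ih]
    rw [Polynomial.aeval_monomial, Polynomial.aeval_monomial, Module.End.mul_apply,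
      Module.End.mul_apply, Module.algebraMap_end_apply, Module.algebraMap_end_apply, map_zsmul,
      hn]

/-- An integral polynomial whose integral roots mod `p` are the residues of `a` modulo `𝔪`. -/
theorem exists_intPoly {p : ℕ} [Fact p.Prime] {𝔪 : Ideal (integralClosure ℤ ℂ)}
    (hmax : 𝔪.IsMaximal) (hpm : (p : integralClosure ℤ ℂ) ∈ 𝔪) (a : integralClosure ℤ ℂ) :
    ∃ h : ℤ[X], Polynomial.aeval a h ∈ 𝔪 ∧
      ∀ e : ℤ, (p : ℤ) ∣ h.eval e → a - (e : integralClosure ℤ ℂ) ∈ 𝔪 := by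
  let : Field (integralClosure ℤ ℂ ⧸ 𝔪) := Ideal.Quotient.field 𝔪
  have hp0 : (p : integralClosure ℤ ℂ ⧸ 𝔪) = 0 := by
    rw [← map_natCast (Ideal.Quotient.mk 𝔪), Ideal.Quotient.eq_zero_iff_mem]
    exact hpm
  have : CharP (integralClosure ℤ ℂ ⧸ 𝔪) p :=
    (CharP.charP_iff_prime_eq_zero (Fact.out : p.Prime)).2 hp0
  let : Algebra (ZMod p) (integralClosure ℤ ℂ ⧸ 𝔪) := ZMod.algebra _ p
  set x : integralClosure ℤ ℂ ⧸ 𝔪 := Ideal.Quotient.mk 𝔪 a with hxdef
  have : IsScalarTower ℤ (ZMod p) (integralClosure ℤ ℂ ⧸ 𝔪) :=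
    IsScalarTower.of_algebraMap_eq' (RingHom.ext_int _ _)
  have hx : IsIntegral (ZMod p) x :=
    ((Algebra.IsIntegral.isIntegral (R := ℤ) a).map
      (Ideal.Quotient.mk 𝔪).toIntAlgHom).tower_top
  obtain ⟨h, hh⟩ := Polynomial.map_surjective (Int.castRingHom (ZMod p))
    ZMod.intCast_surjective (minpoly (ZMod p) x)
  refine ⟨h, ?_, fun e he => ?_⟩
  · rw [← Ideal.Quotient.eq_zero_iff_mem]
    have h1 := Polynomial.aeval_algHom_apply (Ideal.Quotient.mk 𝔪).toIntAlgHom a h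
    have h2 : Polynomial.aeval x h = 0 := by
      rw [← Polynomial.aeval_map_algebraMap (ZMod p) x h,
        show algebraMap ℤ (ZMod p) = Int.castRingHom (ZMod p) from RingHom.ext_int _ _, hh,
        minpoly.aeval]
    exact h1.symm.trans h2
  · have h3 : (minpoly (ZMod p) x).IsRoot (e : ZMod p) := by
      rw [Polynomial.IsRoot, ← hh, Polynomial.eval_map, ← eq_intCast (Int.castRingHom (ZMod p)) e,
        Polynomial.eval₂_at_apply, eq_intCast, ZMod.intCast_zmod_eq_zero_iff_dvd]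
      exact he
    have h4 := minpoly.root hx h3
    rw [map_intCast, hxdef, ← map_intCast (Ideal.Quotient.mk 𝔪)] at h4
    exact Ideal.Quotient.eq.1 h4.symm

variable {N p : ℕ} [NeZero N]

/-- A nonzero class killed by everything whose eigenvalue lies in `𝔪`. -/
theorem exists_class_killed (hp : p.Prime) {𝔪 : Ideal (integralClosure ℤ ℂ)}
    (hmax : 𝔪.IsMaximal) (hpm : (p : integralClosure ℤ ℂ) ∈ 𝔪)
    (χ : CuspForm.heckeAlgebra N 2 (∅ : Set ℕ) →+* integralClosure ℤ ℂ) :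
    ∃ v : cuspidalHoms ℤ (Gamma0 N) ℤ,
      (Int.castAddHom (ZMod p)).comp (v : Additive (Gamma0 N) →+ ℤ) ≠ 0 ∧
      ∀ t : CuspForm.heckeAlgebra N 2 (∅ : Set ℕ), χ t ∈ 𝔪 →
        (Int.castAddHom (ZMod p)).comp
          (((toOpAlg N t : Module.End ℤ (cuspidalHoms ℤ (Gamma0 N) ℤ)) v :
            cuspidalHoms ℤ (Gamma0 N) ℤ) : Additive (Gamma0 N) →+ ℤ) = 0 := by
  have : NeZero p := ⟨hp.ne_zero⟩
  let T := CuspForm.heckeAlgebra N 2 (∅ : Set ℕ)
  let V := cuspidalHoms ℤ (Gamma0 N) ℤ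
  let Q : Ideal T := 𝔪.comap χ
  let : Module T V := Module.compHom V
    ((opAlg N).val.toRingHom.comp (toOpAlg N) : T →+* Module.End ℤ V)
  have hsmul : ∀ (t : T) (v : V), t • v = (toOpAlg N t : Module.End ℤ V) v := fun _ _ => rfl
  obtain ⟨-, hVfin⟩ := free_finite_cuspidalHoms_int N
  have : Module.Finite T V := by
    obtain ⟨s, hs⟩ := hVfin.fg_top
    refine ⟨⟨s, eq_top_iff.mpr fun v hv0 => ?_⟩⟩
    clear hv0
    have hv : v ∈ Submodule.span ℤ (s : Set V) := by rw [hs]; trivial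
    induction hv using Submodule.span_induction with
    | mem x hx => exact Submodule.subset_span hx
    | zero => exact zero_mem _
    | add x y _ _ hx hy => exact add_mem hx hy
    | smul n x _ hx => exact zsmul_mem hx n
  have hQV : Q • (⊤ : Submodule T V) ≠ ⊤ := fun h => by
    obtain ⟨t, ht1, ht⟩ := Submodule.exists_sub_one_mem_and_smul_eq_zero_of_fg_of_le_smul Q
      (⊤ : Submodule T V) Module.Finite.fg_top h.ge
    have ht0 : t = 0 := toOpAlg_injective (by
      rw [map_zero]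
      exact Subtype.ext (LinearMap.ext fun v => ht v trivial))
    have h1 : χ (0 - 1) ∈ 𝔪 := ht0 ▸ ht1
    rw [zero_sub, map_neg, map_one, Submodule.neg_mem_iff] at h1
    exact hmax.ne_top ((Ideal.eq_top_iff_one 𝔪).mpr h1)
  let P : Submodule T V :=
    { carrier := {v | ∃ w : V, v = (p : ℤ) • w}
      zero_mem' := ⟨0, (smul_zero _).symm⟩
      add_mem' := by
        rintro a b ⟨w, rfl⟩ ⟨w', rfl⟩
        exact ⟨w + w', (smul_add _ _ _).symm⟩
      smul_mem' := by
        rintro t _ ⟨w, rfl⟩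
        exact ⟨t • w, by rw [hsmul, map_zsmul, hsmul]⟩ }
  have hpQ : (p : T) ∈ Q := by
    show χ (p : T) ∈ 𝔪
    rwa [map_natCast]
  have hfin : Finite (V ⧸ P) := by
    have : AddGroup.FG (V ⧸ P) := by
      have : AddGroup.FG V := Module.Finite.iff_addGroup_fg.mp hVfin
      exact AddGroup.fg_of_surjective (f := P.mkQ.toAddMonoidHom) P.mkQ_surjective
    refine AddCommGroup.finite_of_fg_isAddTorsion _ fun x => ?_
    obtain ⟨v, rfl⟩ := P.mkQ_surjective x
    refine isOfFinAddOrder_iff_nsmul_eq_zero.mpr ⟨p, hp.pos, ?_⟩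
    rw [← map_nsmul]
    exact (Submodule.Quotient.mk_eq_zero P).mpr ⟨v, (natCast_zsmul v p).symm⟩
  obtain ⟨w, hw0, hw⟩ := exists_ne_zero_killed (W := V ⧸ P) Q fun h => hQV (by
    refine eq_top_iff.mpr fun v _ => ?_
    have hv : P.mkQ v ∈ Submodule.map P.mkQ (Q • (⊤ : Submodule T V)) := by
      rw [Submodule.map_smul'', Submodule.map_top, Submodule.range_mkQ, h]; trivial
    obtain ⟨u, hu, huv⟩ := hv
    obtain ⟨z, hz⟩ : v - u ∈ P := (Submodule.Quotient.eq P).mp huv.symm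
    rw [← sub_add_cancel v u, hz]
    refine add_mem ?_ hu
    have := Submodule.smul_mem_smul hpQ (Submodule.mem_top (R := T) (x := z))
    rwa [Nat.cast_smul_eq_nsmul T, ← natCast_zsmul] at this)
  obtain ⟨v, rfl⟩ := P.mkQ_surjective w
  refine ⟨v, fun h0 => hw0 ((Submodule.Quotient.mk_eq_zero P).mpr
    (exists_eq_smul_of_cast_eq_zero v h0)), fun t ht => ?_⟩
  obtain ⟨z, hz⟩ : t • v ∈ P := (Submodule.Quotient.mk_eq_zero P).mp
    ((Submodule.Quotient.mk_smul P t v).trans (hw t ht))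
  rw [← hsmul t v, hz]
  ext g
  simp

/-- An eigenform gives a class which is an eigen class at the good primes and killed by the
polynomials in `T_p` vanishing at `a_p` modulo `𝔪`. -/
theorem exists_eigenclass_aeval (hp : p.Prime) (hpN : ¬ p ∣ N)
    {f : CuspForm (Gamma0 N) 2} (hf : f.IsNormalizedEigenform)
    {𝔪 : Ideal (integralClosure ℤ ℂ)} (hmax : 𝔪.IsMaximal) (hpm : (p : integralClosure ℤ ℂ) ∈ 𝔪)
    (G : Set ℕ) (c : ℕ → ℤ)
    (hc : ∀ ℓ ∈ G, ℓ.Prime → ∃ a : integralClosure ℤ ℂ,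
      (a : ℂ) = ModularFormClass.qCoeff f ℓ ∧ a - (c ℓ : integralClosure ℤ ℂ) ∈ 𝔪) :
    ∃ (φ : Additive (Gamma0 N) →+ ZMod p) (a : integralClosure ℤ ℂ),
      φ ∈ cuspidalHoms ℤ (Gamma0 N) (ZMod p) ∧ φ ≠ 0 ∧
      (a : ℂ) = ModularFormClass.qCoeff f p ∧
      (∀ ℓ ∈ G, ∀ hℓ : ℓ.Prime, heckeHom ℤ (ZMod p) hℓ φ = c ℓ • φ) ∧
      ∀ h : ℤ[X], Polynomial.aeval a h ∈ 𝔪 →
        Polynomial.aeval (heckeHom (N := N) ℤ (ZMod p) hp) h φ = 0 := by
  obtain ⟨χ, hχT, hχU⟩ := exists_hecke_char hf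
  obtain ⟨v, hv0, hv⟩ := exists_class_killed hp hmax hpm χ
  let tp := CuspForm.heckeAlgebra.T (k := 2) (S := (∅ : Set ℕ)) hp hpN (Set.notMem_empty p)
  let F : cuspidalHoms ℤ (Gamma0 N) ℤ →+ (Additive (Gamma0 N) →+ ZMod p) :=
    { toFun := fun u => (Int.castAddHom (ZMod p)).comp (u : Additive (Gamma0 N) →+ ℤ)
      map_zero' := by ext g; simp
      map_add' := fun u u' => by ext g; simp }
  have hF : ∀ (ℓ : ℕ) (hℓ : ℓ.Prime) u,
      F (heckeOp N hℓ u) = heckeHom ℤ (ZMod p) hℓ (F u) :=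
    fun ℓ hℓ u => (intCast_comp_heckeOp_zmod hℓ u).symm
  refine ⟨F v, χ tp, fun γ hγ => ?_, hv0, hχT p hp hpN, fun ℓ hℓG hℓ => ?_, fun h hh => ?_⟩
  · show (Int.castAddHom (ZMod p)) ((v : Additive (Gamma0 N) →+ ℤ) (Additive.ofMul γ)) = 0
    rw [v.2 γ hγ, map_zero]
  · obtain ⟨t, ht, htχ⟩ : ∃ t, (toOpAlg N t : Module.End ℤ (cuspidalHoms ℤ (Gamma0 N) ℤ)) =
        heckeOp N hℓ ∧ (χ t : ℂ) = ModularFormClass.qCoeff f ℓ := by
      by_cases hℓN : ℓ ∣ N
      · exact ⟨_, by rw [coe_toOpAlg]; exact shadowOf_U hℓ hℓN, hχU ℓ hℓ hℓN⟩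
      · exact ⟨_, by rw [coe_toOpAlg]; exact shadowOf_T hℓ hℓN, hχT ℓ hℓ hℓN⟩
    obtain ⟨b, hb, hbm⟩ := hc ℓ hℓG hℓ
    have h1 : F ((toOpAlg N (t - (c ℓ : CuspForm.heckeAlgebra N 2 (∅ : Set ℕ))) :
        Module.End ℤ (cuspidalHoms ℤ (Gamma0 N) ℤ)) v) = 0 := hv _ (by
      rw [map_sub, map_intCast, show χ t = b from Subtype.ext (htχ.trans hb.symm)]
      exact hbm)
    rw [map_sub, map_intCast, AddSubgroupClass.coe_sub, SubringClass.coe_intCast, LinearMap.sub_apply, map_sub,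
      sub_eq_zero, ht, hF, Module.End.intCast_apply, map_zsmul] at h1
    exact h1
  · rw [← aeval_apply_of_intertwine (heckeOp N hp) (heckeHom ℤ (ZMod p) hp) F (hF p hp) h v]
    have h1 := Polynomial.aeval_algHom_apply
      (((opAlg N).val.toRingHom.comp (toOpAlg N)).toIntAlgHom) tp h
    have h2 : ((opAlg N).val.toRingHom.comp (toOpAlg N)).toIntAlgHom tp = heckeOp N hp :=
      (coe_toOpAlg _).trans (shadowOf_T hp hpN)
    rw [h2] at h1
    rw [h1]
    refine hv _ ?_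
    have h3 := Polynomial.aeval_algHom_apply χ.toIntAlgHom tp h
    exact (show χ (Polynomial.aeval tp h) = Polynomial.aeval (χ tp) h from h3.symm) ▸ hh

end Fermat.Agent.Lifting.OrdinaryFive
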