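import Fermat.Agent.LevelP.Embedding
import Fermat.Agent.EichlerShimura.Inputs
import Fermat.Agent.Lifting.Squarefree.OrdinaryClass

/-!
# The residual representation inside the Jacobian of level prime to `p`

`E[p]` embeds equivariantly in `J₀(M)`, `p ∤ M`, with image killed by a polynomial in `T_p` whose
roots mod `p` are congruent to `a_p`.
-/

set_option autoImplicit false
set_option synthInstance.maxHeartbeats 400000
set_option maxHeartbeats 8000000

noncomputable section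

open scoped WeierstrassCurve.Affine MatrixGroups Polynomial
open CongruenceSubgroup ModularCurve Matrix
open WeierstrassCurve.Affine.Point
open Fermat.Agent.EichlerShimura Fermat.Agent.LevelP

namespace Fermat.Agent.Lifting.OrdinaryFive

local notation "ℚ̄" => AlgebraicClosure ℚ
local notation "Γℚ" => (AlgebraicClosure ℚ ≃ₐ[ℚ] AlgebraicClosure ℚ)

variable {W : WeierstrassCurve ℤ} {p N : ℕ} [NeZero N] [Fact p.Prime]

/-- The eigen-torsion killed by a polynomial in `T_p`. -/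
def polyEigenTorsion (W : WeierstrassCurve ℤ) (p N : ℕ) [NeZero N] [Fact p.Prime] (h : ℤ[X]) :
    AddSubgroup (JZero N) where
  carrier := {x | (p • x = 0 ∧ ∀ ℓ : Nat.Primes, W.IsGoodPrimeFor ℓ → ¬ (ℓ : ℕ) ∣ N * p →
      heckeOperatorBar N ℓ x = W.apOfModel ℓ • x) ∧
      Polynomial.aeval (heckeOperatorBar N ⟨p, Fact.out⟩) h x = 0}
  zero_mem' := ⟨⟨nsmul_zero p, fun ℓ _ _ => by rw [_root_.map_zero, zsmul_zero]⟩,
    _root_.map_zero _⟩
  add_mem' {x y} hx hy := ⟨⟨by rw [nsmul_add, hx.1.1, hy.1.1, add_zero],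
    fun ℓ hg hn => by rw [map_add, hx.1.2 ℓ hg hn, hy.1.2 ℓ hg hn, zsmul_add]⟩,
    by rw [map_add, hx.2, hy.2, add_zero]⟩
  neg_mem' {x} hx := ⟨⟨by rw [neg_nsmul, hx.1.1, _root_.neg_zero],
    fun ℓ hg hn => by rw [map_neg, hx.1.2 ℓ hg hn, zsmul_neg]⟩,
    by rw [map_neg, hx.2, _root_.neg_zero]⟩

instance (h : ℤ[X]) : Module (ZMod p) (polyEigenTorsion W p N h) :=
  AddCommGroup.zmodModule fun x => Subtype.ext x.2.1.1

theorem smul_mem_polyEigenTorsion {h : ℤ[X]} (σ : Γℚ) {x : JZero N}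
    (hx : x ∈ polyEigenTorsion W p N h) : σ • x ∈ polyEigenTorsion W p N h := by
  refine ⟨⟨?_, fun ℓ hg hn => ?_⟩, ?_⟩
  · have h' := map_nsmul (DistribSMul.toAddMonoidHom (JZero N) σ) p x
    rw [hx.1.1, _root_.map_zero] at h'
    exact h'.symm
  · rw [← galois_smul_heckeOperatorBar ℓ σ x, hx.1.2 ℓ hg hn]
    exact map_zsmul (DistribSMul.toAddMonoidHom (JZero N) σ) _ x
  · have h' := aeval_apply_of_intertwine (heckeOperatorBar N ⟨p, Fact.out⟩)
      (heckeOperatorBar N ⟨p, Fact.out⟩) (DistribSMul.toAddMonoidHom (JZero N) σ)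
      (galois_smul_heckeOperatorBar ⟨p, Fact.out⟩ σ) h x
    rw [hx.2, _root_.map_zero] at h'
    exact h'.symm

/-- Integer scalars on a subgroup which is a `ZMod p`-module. -/
theorem coe_intCast_smul {G : Type*} [AddCommGroup G] {S : AddSubgroup G} {q : ℕ}
    [Module (ZMod q) S] (n : ℤ) (x : S) : (((n : ZMod q) • x : S) : G) = n • (x : G) := by
  rw [Int.cast_smul_eq_zsmul]
  rfl

/-- Natural scalars on a subgroup which is a `ZMod p`-module. -/
theorem coe_natCast_smul {G : Type*} [AddCommGroup G] {S : AddSubgroup G} {q : ℕ}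
    [Module (ZMod q) S] (n : ℕ) (x : S) : (((n : ZMod q) • x : S) : G) = n • (x : G) := by
  rw [Nat.cast_smul_eq_nsmul]
  rfl

/-- A nonzero eigen-torsion contains `E[p]`. -/
theorem exists_embedding_of_ne (hΔ : W.Δ ≠ 0) {h : ℤ[X]}
    (hne : ∃ x ∈ polyEigenTorsion W p N h, x ≠ 0)
    (hp2 : p ≠ 2) (hirr : W.ModRepIsIrreducible p) (hF : FrobeniusOnTorsion N p) :
    ∃ i : Submodule.torsionBy ℤ ((W.map (Int.castRingHom ℚ))⁄ℚ̄).Point p →+ JZero N,
      Function.Injective i ∧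
      (∀ (σ : Γℚ) P, σ • i P =
        i (galoisRepModuleEnd (K := ℚ̄) ℚ (W.map (Int.castRingHom ℚ)) p σ P)) ∧
      ∀ P, i P ∈ polyEigenTorsion W p N h := by
  classical
  have hp : p.Prime := Fact.out
  have : (W.map (Int.castRingHom ℚ)).IsElliptic := EC.isElliptic_map_rat hΔ
  set R := EC.torsionRepRat (W.map (Int.castRingHom ℚ)) p with hR
  have habs : R.IsAbsolutelyIrreducible :=
    EC.residualGaloisRepOf_isAbsolutelyIrreducible hΔ hp2 _ _ hirr
  obtain ⟨x₀, hx₀, hx₀0⟩ := hne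
  have : Nontrivial (polyEigenTorsion W p N h) := ⟨⟨x₀, hx₀⟩, 0, fun h => hx₀0 (congrArg Subtype.val h)⟩
  let act : Γℚ → (polyEigenTorsion W p N h) →+ (polyEigenTorsion W p N h) := fun σ =>
    { toFun := fun x => ⟨σ • (x : JZero N), smul_mem_polyEigenTorsion σ x.2⟩
      map_zero' := Subtype.ext (smul_zero σ)
      map_add' := fun x y => Subtype.ext (smul_add σ (x : JZero N) y) }
  let π : Γℚ →* Module.End (ZMod p) (polyEigenTorsion W p N h) :=
    { toFun := fun σ => (act σ).toZModLinearMap p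
      map_one' := LinearMap.ext fun x => Subtype.ext (one_smul Γℚ (x : JZero N))
      map_mul' := fun σ τ => LinearMap.ext fun x => Subtype.ext (by
        show (σ * τ) • (x : JZero N) = σ • τ • (x : JZero N)
        exact mul_smul σ τ (x : JZero N)) }
  have hπ' : ∀ (σ : Γℚ) (x : (polyEigenTorsion W p N h)), ((DFunLike.coe (π σ) x : (polyEigenTorsion W p N h)) : JZero N) = σ • (x : JZero N) := fun σ x => rfl
  let b := Module.finBasisOfFinrankEq (ZMod p) R.V R.finrank_eq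
  let ρM : Γℚ →* Matrix (Fin 2) (Fin 2) (ZMod p) :=
    (LinearMap.toMatrixAlgEquiv b).toAlgHom.toRingHom.toMonoidHom.comp R.ρ
  have hρM : ∀ σ, ρM σ = LinearMap.toMatrixAlgEquiv b (R.ρ σ) := fun σ => rfl
  have hspan : Submodule.span (ZMod p) (Set.range ρM) = ⊤ := by
    rw [show Set.range ρM = (LinearMap.toMatrixAlgEquiv b).toLinearEquiv.toLinearMap '' Set.range R.ρ
      from by rw [← Set.range_comp]; rfl, Submodule.span_image,
      (Density.isAbsolutelyIrreducible_iff_span R).1 habs, Submodule.map_top]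
    exact LinearMap.range_eq_top.2 (LinearMap.toMatrixAlgEquiv b).surjective
  obtain ⟨L₀, hL₀, hkerρ⟩ := R.factorsThroughFiniteLevel
  have hfrob : ∀ ℓ : ℕ, ℓ.Prime → W.IsGoodPrimeFor ℓ → ¬ ℓ ∣ N * p →
      ∀ A : ValuationSubring ℚ̄, A.LiesOverPrime ℓ → ∀ σ : Γℚ, A.IsFrobeniusAt σ ℓ →
      π σ * π σ - (ρM σ).trace • π σ + (ρM σ).det • (1 : Module.End (ZMod p) (polyEigenTorsion W p N h)) = 0 := by
    intro ℓ hℓ hg hn A hA σ hσ
    have hℓp : ℓ ≠ p := fun h => hn (h ▸ dvd_mul_left p N)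
    have hcp := RT.torsionFrobeniusCharpoly W p ℓ hℓ hℓp hg A hA σ hσ
    obtain ⟨ht, hd⟩ := EichlerShimura.trace_det_of_charpoly_finrank_two R.finrank_eq (R.ρ σ) hcp
    have ht' : (ρM σ).trace = (W.apOfModel ℓ : ZMod p) :=
      (LinearMap.trace_eq_matrix_trace (ZMod p) b (R.ρ σ)).symm.trans ht
    have hd' : (ρM σ).det = (ℓ : ZMod p) :=
      (LinearMap.det_toMatrix b (R.ρ σ)).trans hd
    refine LinearMap.ext fun x => Subtype.ext ?_
    have hh := (hF ℓ hℓ hn A hA).2 σ hσ (x : JZero N) ⟨1, by rw [pow_one]; exact x.2.1.1⟩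
    rw [(smul_mem_polyEigenTorsion σ x.2).1.2 ⟨ℓ, hℓ⟩ hg hn] at hh
    rw [ht', hd', LinearMap.add_apply, LinearMap.sub_apply, Module.End.mul_apply,
      LinearMap.smul_apply, LinearMap.smul_apply, Module.End.one_apply, AddSubgroup.coe_add,
      AddSubgroup.coe_sub, coe_intCast_smul, coe_natCast_smul]
    exact hh
  have hπ : ∀ g, π g * π g - (ρM g).trace • π g + (ρM g).det • (1 : Module.End (ZMod p) (polyEigenTorsion W p N h)) = 0 := by
    intro g
    refine LinearMap.ext fun x => ?_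
    obtain ⟨L₁, hL₁, h₁⟩ := galoisFiniteLevel_x0 N (x : JZero N)
    obtain ⟨L₂, hL₂, h₂⟩ := galoisFiniteLevel_x0 N (g • (x : JZero N))
    let bad : Finset ℕ := (N * p * W.Δ.natAbs).divisors
    obtain ⟨ℓ, hℓ, hℓbad, A, σ, hA, hσ, -, -, c, -, hgσ⟩ :=
      Density.exists_isFrobeniusAt_agree_pow (L₀ ⊔ L₁ ⊔ L₂) g bad
    have hne : N * p * W.Δ.natAbs ≠ 0 :=
      mul_ne_zero (mul_ne_zero (NeZero.ne N) hp.ne_zero) (Int.natAbs_ne_zero.mpr hΔ)
    have hn : ¬ ℓ ∣ N * p := fun h => hℓbad (Nat.mem_divisors.mpr ⟨h.mul_right _, hne⟩)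
    have hg : W.IsGoodPrimeFor ℓ := fun h => hℓbad (Nat.mem_divisors.mpr
      ⟨(Int.natCast_dvd.mp h).mul_left _, hne⟩)
    have hfix : ∀ y ∈ L₀ ⊔ L₁ ⊔ L₂, ((σ ^ c)⁻¹ * g) y = y := fun y hy => by
      rw [AlgEquiv.mul_apply, hgσ y hy]
      exact (σ ^ c).symm_apply_apply y
    have hρeq : ρM g = ρM σ ^ c := by
      have h1 : R.ρ ((σ ^ c)⁻¹ * g) = 1 := hkerρ _ fun y hy =>
        hfix y ((le_sup_left.trans le_sup_left : L₀ ≤ L₀ ⊔ L₁ ⊔ L₂) hy)
      rw [← map_pow, hρM, hρM]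
      congr 1
      rw [← mul_inv_cancel_left (σ ^ c) g, map_mul, h1, mul_one]
    have hx1 : π g x = (π σ ^ c) x := by
      refine Subtype.ext ?_
      rw [← map_pow, hπ', hπ']
      have h := h₁ ((σ ^ c)⁻¹ * g) fun y hy =>
        hfix y ((le_sup_right.trans le_sup_left : L₁ ≤ L₀ ⊔ L₁ ⊔ L₂) hy)
      rw [mul_smul, inv_smul_eq_iff] at h
      exact h
    have hx2 : π g (π g x) = (π σ ^ c) (π g x) := by
      refine Subtype.ext ?_
      rw [← map_pow, hπ', hπ', hπ']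
      have h := h₂ ((σ ^ c)⁻¹ * g) fun y hy =>
        hfix y ((le_sup_right : L₂ ≤ L₀ ⊔ L₁ ⊔ L₂) hy)
      rw [mul_smul, inv_smul_eq_iff] at h
      exact h
    have h := LinearMap.congr_fun
      (quadratic_pow (ρM σ) (π σ) (hfrob ℓ hℓ hg hn A hA σ hσ) c) x
    rw [hρeq, LinearMap.add_apply, LinearMap.sub_apply, Module.End.mul_apply,
      LinearMap.smul_apply, LinearMap.smul_apply, hx2, hx1]
    exact h
  have h2 : (2 : ZMod p) ≠ 0 := by
    rw [show (2 : ZMod p) = ((2 : ℕ) : ZMod p) by norm_num, Ne, ZMod.natCast_eq_zero_iff]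
    intro h
    exact hp2 ((Nat.prime_dvd_prime_iff_eq hp Nat.prime_two).mp h)
  obtain ⟨ι, hι, hιρ⟩ := exists_injective_intertwiner hπ h2 hspan
  refine ⟨(polyEigenTorsion W p N h).subtype.comp (ι.toAddMonoidHom.comp b.equivFun.toLinearMap.toAddMonoidHom),
    Subtype.val_injective.comp (hι.comp b.equivFun.injective), fun σ P => ?_,
    fun P => (ι (b.equivFun P)).2⟩
  show σ • (ι (b.equivFun P) : JZero N) = (ι (b.equivFun (R.ρ σ P)) : JZero N)
  rw [← hπ', ← hιρ]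
  congr 2
  exact (LinearMap.toMatrix_mulVec_repr b b (R.ρ σ) P)

/-- **`E[p]` inside `J₀(M)`, killed by a polynomial in `T_p`.** -/
theorem exists_embedding_aeval (hΔ : W.Δ ≠ 0) (hp2 : p ≠ 2) (hirr : W.ModRepIsIrreducible p)
    (hpN : ¬ p ∣ N) {f : CuspForm (Gamma0 N) 2} (hf : f.IsNormalizedEigenform)
    {𝔪 : Ideal (integralClosure ℤ ℂ)} (hmax : 𝔪.IsMaximal) (hpm : (p : integralClosure ℤ ℂ) ∈ 𝔪)
    (hcong : ∀ ℓ : ℕ, ℓ.Prime → W.IsGoodPrimeFor ℓ → ¬ ℓ ∣ N → ℓ ≠ p →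
      ∃ a : integralClosure ℤ ℂ, (a : ℂ) = ModularFormClass.qCoeff f ℓ ∧
        a - ((W.apOfModel ℓ : ℤ) : integralClosure ℤ ℂ) ∈ 𝔪) :
    ∃ (i : Submodule.torsionBy ℤ ((W.map (Int.castRingHom ℚ))⁄ℚ̄).Point p →+ JZero N)
      (a : integralClosure ℤ ℂ) (h : ℤ[X]),
      (a : ℂ) = ModularFormClass.qCoeff f p ∧
      (∀ e : ℤ, (p : ℤ) ∣ h.eval e → a - (e : integralClosure ℤ ℂ) ∈ 𝔪) ∧
      Function.Injective i ∧
      (∀ (σ : Γℚ) P, σ • i P =
        i (galoisRepModuleEnd (K := ℚ̄) ℚ (W.map (Int.castRingHom ℚ)) p σ P)) ∧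
      ∀ P, Polynomial.aeval (heckeOperatorBar N ⟨p, Fact.out⟩) h (i P) = 0 := by
  have hp : p.Prime := Fact.out
  obtain ⟨e, hT, -, -⟩ := kummerIso_modular N
  obtain ⟨φ, a, hφc, hφ0, ha, hφ, hφp⟩ := exists_eigenclass_aeval hp hpN hf hmax hpm
    {ℓ | W.IsGoodPrimeFor ℓ ∧ ¬ ℓ ∣ N * p} W.apOfModel
    fun ℓ hℓ hℓp => hcong ℓ hℓp hℓ.1 (fun h => hℓ.2 (h.mul_right p))
      fun h => hℓ.2 (h ▸ dvd_mul_left p N)
  obtain ⟨h, hha, hroot⟩ := exists_intPoly hmax hpm a
  set Tp : Module.End ℤ (JZero N) := heckeOperatorBar N ⟨p, hp⟩ with hTp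
  have hne : ∃ x ∈ polyEigenTorsion W p N h, x ≠ 0 := by
    obtain ⟨ι, hι⟩ := exists_zmod_injective_qz p
    have hψc : ι.comp φ ∈ Periods.cuspidalHoms ℤ (Gamma0 N) QZ := fun γ hγ => by
      show ι (φ (Additive.ofMul γ)) = 0
      rw [hφc γ hγ, _root_.map_zero]
    set y := e.symm ⟨_, hψc⟩ with hy
    have hey : ((e y : Periods.cuspidalHoms ℤ (Gamma0 N) QZ) : Additive (Gamma0 N) →+ QZ) =
        ι.comp φ := by rw [hy, e.apply_symm_apply]
    refine ⟨y, ⟨⟨?_, fun ℓ hg hn => ?_⟩, ?_⟩, fun h0 => hφ0 ?_⟩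
    · have : p • y = 0 := by
        refine e.injective (Subtype.ext ?_)
        rw [map_nsmul, _root_.map_zero, Submodule.coe_smul_of_tower, hey]
        ext γ
        show p • ι (φ γ) = 0
        rw [← map_nsmul, nsmul_eq_mul, ZMod.natCast_self, zero_mul, _root_.map_zero]
      simpa using congrArg Subtype.val this
    · have : torsionMap (heckeOperatorBar N ℓ).toAddMonoidHom y = W.apOfModel ℓ • y := by
        refine e.injective (Subtype.ext ?_)
        rw [hT ℓ (fun h => hn (h.mul_right p)), hey, Periods.heckeHom_comp, hφ ℓ ⟨hg, hn⟩ ℓ.2,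
          map_zsmul, Submodule.coe_smul_of_tower, hey]
        ext γ
        exact map_zsmul ι _ _
      simpa using congrArg Subtype.val this
    · let T₁ : Module.End ℤ (torsionPts N) := (torsionMap Tp.toAddMonoidHom).toIntLinearMap
      let F : torsionPts N →+ (Additive (Gamma0 N) →+ QZ) :=
        { toFun := fun x => (e x : Additive (Gamma0 N) →+ QZ)
          map_zero' := by rw [_root_.map_zero]; rfl
          map_add' := fun x x' => by rw [map_add]; rfl }
      have hF : F (Polynomial.aeval T₁ h y) = 0 := by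
        rw [aeval_apply_of_intertwine T₁ (Periods.heckeHom ℤ QZ hp) F (hT ⟨p, hp⟩ hpN) h y,
          show F y = ι.comp φ from hey]
        have h1 := aeval_apply_of_intertwine (Periods.heckeHom (N := N) ℤ (ZMod p) hp)
          (Periods.heckeHom ℤ QZ hp) (AddMonoidHom.compHom ι)
          (fun ψ => (Periods.heckeHom_comp hp ι ψ).symm) h φ
        rw [hφp h hha, _root_.map_zero] at h1
        exact h1.symm
      have h2 : Polynomial.aeval T₁ h y = 0 := e.injective (Subtype.ext (hF.trans (by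
        rw [_root_.map_zero]; rfl)))
      have h3 := aeval_apply_of_intertwine T₁ Tp (torsionPts N).subtype (fun _ => rfl) h y
      rw [h2, _root_.map_zero] at h3
      exact h3.symm
    · have h1 : ι.comp φ = 0 := by
        rw [← hey, show y = 0 from Subtype.ext h0, _root_.map_zero]; rfl
      exact AddMonoidHom.ext fun γ => hι
        ((DFunLike.congr_fun h1 γ).trans (_root_.map_zero ι).symm)
  obtain ⟨i, hi, hiσ, hiS⟩ := exists_embedding_of_ne hΔ hne hp2 hirr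
    (frobeniusOnTorsion_modular N p)
  exact ⟨i, a, h, ha, hroot, hi, hiσ, fun P => (hiS P).2⟩

end Fermat.Agent.Lifting.OrdinaryFive
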