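import Fermat.Agent.EC.Mult.Decomposition
import Fermat.Agent.EC.Det.General
import Fermat.Agent.LevelP.Ordinary.Residual
import Mathlib.LinearAlgebra.Matrix.Basis

/-!
# `E[p]` at a multiplicative `p`

A line stable under the decomposition group, on which inertia acts by the cyclotomic character,
with trivial inertia action and a sign on the quotient, and a point off the line fixed by an
element of inertia moving the `p`-th roots of unity.
-/

set_option autoImplicit false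
set_option synthInstance.maxHeartbeats 400000

noncomputable section

open WeierstrassCurve
open scoped WeierstrassCurve.Affine

namespace Fermat.Agent.Lifting.OrdinaryFive

local notation "Qb" => AlgebraicClosure ℚ
local notation "Γℚ" => (AlgebraicClosure ℚ ≃ₐ[ℚ] AlgebraicClosure ℚ)

/-- Some element of inertia moves the `p`-th roots of unity. -/
theorem exists_inertia_moving_zeta {p : ℕ} (hp : p.Prime) (hp3 : 3 ≤ p)
    {A : ValuationSubring Qb} (hA : A.LiesOverPrime p) {ζ : Qb} (hζ : IsPrimitiveRoot ζ p) :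
    ∃ σ ∈ A.inertiaSubgroupIn ℚ, σ ζ ≠ ζ := by
  by_contra! hall
  have hne : ζ - 1 ≠ 0 := sub_ne_zero.2 (hζ.ne_one hp.one_lt)
  obtain ⟨k, hk⟩ := EC.Mult.exists_zpow_of_inertia_fixed hp hA hne
    fun σ hσ => by rw [map_sub, map_one, hall σ hσ]
  have h := LevelP.valuation_zeta_sub_one_pow hp hA hζ
  rw [hk, ← zpow_natCast, ← zpow_mul] at h
  have hlog : k * ((p - 1 : ℕ) : ℤ) = 1 :=
    zpow_right_injective₀ (zero_lt_iff.2 (EC.Mult.valuation_natCast_ne_zero hp))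
      (EC.Mult.valuation_natCast_lt_one hA).ne
      (h.trans (zpow_one _).symm)
  have := Int.natCast_dvd_natCast.1 (show ((p - 1 : ℕ) : ℤ) ∣ ((1 : ℕ) : ℤ) from
    ⟨k, by rw [mul_comm]; exact_mod_cast hlog.symm⟩)
  have := Nat.le_of_dvd one_pos this
  omega


/-- The shape of `E[p]` at a multiplicative `p`. -/
theorem exists_ordinary_line {W : WeierstrassCurve ℤ} {p : ℕ} [Fact p.Prime] (hp3 : 3 ≤ p)
    (hΔ : W.Δ ≠ 0) (hbad : (p : ℤ) ∣ W.Δ) (hc4 : ¬ (p : ℤ) ∣ W.c₄)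
    {A : ValuationSubring Qb} (hA : A.LiesOverPrime p) {ζ : Qb} (hζ : IsPrimitiveRoot ζ p) :
    ∃ (L : AddSubgroup (Submodule.torsionBy ℤ ((W.map (Int.castRingHom ℚ))⁄Qb).Point (p : ℤ)))
      (P₀ : Submodule.torsionBy ℤ ((W.map (Int.castRingHom ℚ))⁄Qb).Point (p : ℤ)) (σ₀ : Γℚ),
      σ₀ ∈ A.inertiaSubgroupIn ℚ ∧ σ₀ ζ ≠ ζ ∧ σ₀ • P₀ = P₀ ∧ P₀ ∉ L ∧
      (∀ σ ∈ A.inertiaSubgroupIn ℚ, ∀ x, σ • x - x ∈ L) ∧
      (∀ σ ∈ A.inertiaSubgroupIn ℚ, ∀ a : ℕ, σ ζ = ζ ^ a → ∀ x ∈ L, σ • x = a • x) ∧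
      (∀ x ∈ L, ∀ y ∈ L, x ≠ 0 → ∃ n : ℤ, y = n • x) ∧
      ∀ σ ∈ A.decompositionSubgroup ℚ, (∀ x ∈ L, σ • x ∈ L) ∧
        ∃ z : ℤ, z * z = 1 ∧ σ • P₀ - z • P₀ ∈ L := by
  classical
  have hp : p.Prime := Fact.out
  have : NeZero p := ⟨hp.ne_zero⟩
  have := EC.isElliptic_map_rat hΔ
  set V := Submodule.torsionBy ℤ ((W.map (Int.castRingHom ℚ))⁄Qb).Point (p : ℤ)
  have hrk : Module.finrank (ZMod p) V = 2 := EC.finrank_torsion_rat _ p
  obtain ⟨N, hcard, hD, hI, hquot⟩ :=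
    EC.Mult.exists_decomposition_line hp hA hΔ hbad hc4 hp
  have hgen : ∀ x ∈ N, x ≠ 0 → ∀ y ∈ N, ∃ c : ZMod p, c • x = y := by
    intro x hx hx0 y hy
    obtain ⟨n, hn⟩ := AddSubgroup.mem_zmultiples_iff.1 (mem_zmultiples_of_prime_card (G := N)
      hcard (g := ⟨x, hx⟩) (g' := ⟨y, hy⟩) fun h => hx0 (congrArg Subtype.val h))
    refine ⟨n, ?_⟩
    rw [Int.cast_smul_eq_zsmul]
    exact congrArg Subtype.val hn
  obtain ⟨e₁, he₁, he₁0⟩ : ∃ x ∈ N, x ≠ 0 := Submodule.exists_mem_ne_zero_of_ne_bot fun h => by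
    rw [h, Nat.card_eq_one_iff_unique.2 ⟨inferInstance, inferInstance⟩] at hcard
    exact hp.ne_one hcard.symm
  obtain ⟨Q, hQ⟩ : ∃ Q : V, Q ∉ N := by
    by_contra! hall
    have h2 : Nat.card V = p ^ 2 := EC.natCard_torsion_rat _ hp.ne_zero
    rw [← Nat.card_congr (Equiv.subtypeUnivEquiv hall)] at h2
    have := hp.two_le
    have h3 : p = p ^ 2 := hcard.symm.trans h2
    nlinarith
  have hlin : LinearIndependent (ZMod p) ![e₁, Q] :=
    LinearIndependent.pair_iff.2 fun s t hst => by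
      by_cases ht : t = 0
      · subst ht
        rw [zero_smul, add_zero] at hst
        exact ⟨(smul_eq_zero.1 hst).resolve_right he₁0, rfl⟩
      · refine absurd ?_ hQ
        rw [show Q = t⁻¹ • ((-s) • e₁) by
          rw [neg_smul, neg_eq_of_add_eq_zero_right hst, smul_smul, inv_mul_cancel₀ ht, one_smul]]
        exact N.smul_mem _ (N.smul_mem _ he₁)
  let b := basisOfLinearIndependentOfCardEqFinrank hlin (by rw [Fintype.card_fin, hrk])
  have hb : (b : Fin 2 → V) = ![e₁, Q] := coe_basisOfLinearIndependentOfCardEqFinrank _ _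
  let E : Γℚ → Module.End (ZMod p) V := fun σ =>
    Affine.Point.galoisRepModuleEnd (K := Qb) ℚ (W.map (Int.castRingHom ℚ)) p σ
  have hE : ∀ σ x, E σ x = σ • x := fun σ x => rfl
  have hlineval : ∀ σ ∈ A.inertiaSubgroupIn ℚ, ∀ a : ℕ, σ ζ = ζ ^ a → ∀ x ∈ N,
      σ • x = a • x := by
    intro σ hσ a ha x hx
    obtain ⟨c, hc⟩ := hgen e₁ he₁ he₁0 _
      (hD σ (EC.Mult.mem_decompositionSubgroup_of_mem_inertia hσ) e₁ he₁)
    obtain ⟨d, hd⟩ := hgen e₁ he₁ he₁0 _ (hI σ hσ Q)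
    have hdet : LinearMap.det (E σ) = c := by
      rw [← LinearMap.det_toMatrix b, Matrix.det_fin_two]
      have h0 : E σ (b 0) = c • b 0 := by rw [hb, hE]; exact hc.symm
      have h1 : E σ (b 1) = d • b 0 + b 1 := by
        rw [hb, hE]
        exact (sub_eq_iff_eq_add.1 hd.symm)
      simp [LinearMap.toMatrix_apply, h0, h1]
    have hcyc := EC.det_galoisRepModuleEnd_eq_cycloChar_of_isElliptic
      (W.map (Int.castRingHom ℚ)) p σ
    rw [show c = (a : ZMod p) by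
      rw [← hdet]
      refine hcyc.trans ?_
      have h1 := EC.apply_eq_pow_cycloChar p σ hζ.pow_eq_one
      rw [ha, ← pow_mod_orderOf, ← hζ.eq_orderOf] at h1
      rw [← ZMod.natCast_zmod_val ((EC.cycloChar p σ : (ZMod p)ˣ) : ZMod p),
        ← hζ.pow_inj (Nat.mod_lt a hp.pos) (ZMod.val_lt _) h1, ZMod.natCast_mod]] at hc
    obtain ⟨k, hk⟩ := hgen e₁ he₁ he₁0 x hx
    rw [← hk, ← hE, map_smul, hE, ← hc, smul_comm, Nat.cast_smul_eq_nsmul]
  obtain ⟨σ₀, hσ₀, hσ₀ζ⟩ := exists_inertia_moving_zeta hp hp3 hA hζ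
  obtain ⟨a, hap, ha⟩ := hζ.eq_pow_of_pow_eq_one
    (show (σ₀ ζ) ^ p = 1 by rw [← map_pow, hζ.pow_eq_one, map_one])
  have ha1 : (a : ZMod p) - 1 ≠ 0 := fun h => hσ₀ζ (by
    rw [sub_eq_zero, ← Nat.cast_one, ZMod.natCast_eq_natCast_iff] at h
    rw [← ha, Nat.ModEq.eq_of_lt_of_lt h hap hp.one_lt, pow_one])
  set n := σ₀ • Q - Q with hn
  have hnN : n ∈ N := hI σ₀ hσ₀ Q
  have hfix : σ₀ • (Q + (-((a : ZMod p) - 1)⁻¹) • n) = Q + (-((a : ZMod p) - 1)⁻¹) • n := by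
    rw [← hE, map_add, map_smul, hE, hE, hlineval σ₀ hσ₀ a ha.symm n hnN,
      show σ₀ • Q = Q + n by rw [hn, add_sub_cancel], ← Nat.cast_smul_eq_nsmul (ZMod p), smul_smul]
    rw [add_assoc]
    congr 1
    nth_rw 1 [← one_smul (ZMod p) n]
    rw [← add_smul]
    congr 1
    field_simp
    ring
  refine ⟨N.toAddSubgroup, Q + (-((a : ZMod p) - 1)⁻¹) • n, σ₀, hσ₀, hσ₀ζ, hfix,
    fun h => hQ ?_, hI, hlineval, fun x hx y hy hx0 => ?_, fun σ hσ => ⟨hD σ hσ, ?_⟩⟩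
  · exact (add_mem_cancel_right (N.smul_mem _ hnN)).1 h
  · obtain ⟨c, hc⟩ := hgen x hx hx0 y hy
    exact ⟨(c.val : ℤ), by
      rw [← hc, natCast_zsmul, ← Nat.cast_smul_eq_nsmul (ZMod p), ZMod.natCast_zmod_val]⟩
  · obtain ⟨z, hz, h⟩ := hquot σ hσ
    exact ⟨z, hz, h _⟩

end Fermat.Agent.Lifting.OrdinaryFive
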