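import Fermat.Agent.Reduction.S37Assembly
import Fermat.Agent.LevelP.X0.Main
import Fermat.Agent.LevelP.Ordinary.Residual
import Fermat.Agent.FiniteFlat.PicTransfer

/-!
# Specialisation at `p` of `J₀(M)`, `p ∤ M`, and power residues of pullbacks to level `M p`

The specialisation kills the inertia differences and satisfies the congruence relation at `p`. A
`p`-torsion class specialising to zero pulls back to a class with `p`-th power residues along both
components of `X₀(Mp)`.
-/

set_option autoImplicit false
set_option synthInstance.maxHeartbeats 400000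
set_option maxHeartbeats 1000000

noncomputable section

namespace Fermat.Agent.Lifting.OrdinaryFive

open AlgebraicCurve ModularCurve IsLocalRing Fermat.Agent.Curve Fermat.Agent.BadPrime
  Fermat.Agent.Reduction Fermat.Agent.LevelP

local notation "Qb" => AlgebraicClosure ℚ
local notation "Γℚ" => (AlgebraicClosure ℚ ≃ₐ[ℚ] AlgebraicClosure ℚ)

variable (A : ValuationSubring Qb) (p M : ℕ) [Fact p.Prime] [NeZero M]

/-- The specialisation of `J₀(M)` at a place over `p ∤ M`, with the facts used at `p`. -/
theorem exists_specialisation (hp5 : 5 ≤ p) (hpM : ¬ p ∣ M) (hA : A.LiesOverPrime p) :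
    ∃ (r : Place Qb (modularFunctionFieldBar M) →
        Place (ResidueField A) (modularFunctionFieldFullC (ResidueField A) M))
      (spec : JZero M →+ Pic (ResidueField A) (modularFunctionFieldFullC (ResidueField A) M)),
      (gaussDataX0 M hpM A hA).PlaceCompat r ∧
      (∀ D : Divisor.degZero (K := Qb) (F := modularFunctionFieldBar M),
        spec (Pic0.mk D) = 0 →
          Divisor.IsPrincipal (Finsupp.mapDomain r (D : Divisor Qb (modularFunctionFieldBar M)))) ∧
      (∀ σ ∈ A.inertiaSubgroupIn ℚ, ∀ x, spec (σ • x) = spec x) ∧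
      ∀ σ : Γℚ, A.IsFrobeniusAt σ p → ∀ x, spec (σ • σ • x -
        heckeOperatorBar M (⟨p, Fact.out⟩ : Nat.Primes) (σ • x) + p • x) = 0 := by
  have hp : p.Prime := Fact.out
  have : NeZero p := ⟨hp.ne_zero⟩
  have : IsAlgClosed (ResidueField A) := EC.isAlgClosed_residueField A
  have hg := genusFF_le_modL M hpM A hA
    ⟨fun h => absurd h (by omega), fun h => absurd h (by omega)⟩
  obtain ⟨r, hdeg, hr⟩ := (gaussDataX0 M hpM A hA).exists_placeCompat hg
  have hΨ : IsDivisorSpec A (residue A) M M (reductionDivAlong r) :=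
    IsDivisorSpec.of_isPlaceReduction (isPlaceReductionAlong_of_modGraph hdeg hr)
  have hgen := principalGeneratedByIntegral M hpM A hA
  let τA : A.decompositionSubgroup ℚ → (A →+* A) := fun g => MulSemiringAction.toRingHom _ A g
  let αk : A.decompositionSubgroup ℚ → (ResidueField A ≃+* ResidueField A) :=
    fun g => MulSemiringAction.toRingEquiv _ _ g
  have hαk : ∀ (g : A.decompositionSubgroup ℚ) (a : A),
      residue A (τA g a) = αk g (residue A a) :=
    fun g a => ResidueField.residue_smul _ g a
  refine ⟨r, specPic hΨ hgen, hr, fun D hD => (specPic_mk_eq_zero_iff hΨ hgen D).mp hD, ?_, ?_⟩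
  · rintro σ ⟨g, hg', rfl⟩ x
    have hone : ∀ a : A, residue A (τA g a) =
        (RingEquiv.refl (ResidueField A)) (residue A a) := fun a =>
      (hαk g a).trans (congrArg (fun e : ResidueField A ≃+* _ => e (residue A a)) hg')
    have h := specPic_galois_sub_eq_zero one_le_deg weakRiemann hΨ hgen g.1 1
      (τA g) (RingHom.id A) (fun _ => rfl) (fun _ => rfl) _ hone (fun _ => rfl) x
    rw [map_sub, one_smul, sub_eq_zero] at h
    exact h
  · intro σ hσ x
    let g : A.decompositionSubgroup ℚ := ⟨σ, hσ.mem_decompositionSubgroup⟩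
    have hφ : ∀ a, αk g a = a ^ p := fun a => hσ.smul_residue_eq a
    have e : ∀ y, heckeOperatorBar M (⟨p, Fact.out⟩ : Nat.Primes) y =
        heckeOperatorAlong Qb M p y := fun y => by exact heckeOperatorBar_apply M (⟨p, hp⟩ : Nat.Primes) y
    rw [e]
    exact specPic_frobenius_relation one_le_deg weakRiemann hΨ hgen (heckeInputsAlongBar M p)
      (αk g) (normCongruenceModL M p hp hpM A hA (αk g) hφ) σ (τA g) (fun _ => rfl) (hαk g) x

variable {A p M}

/-- Functions with the same divisor differ by a constant. -/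
theorem exists_eq_algebraMap_mul {K F : Type*} [Field K] [IsAlgClosed K] [Field F] [Algebra K F]
    [IsFunctionField1 K F] {f g : F} (hf : f ≠ 0) (hg : g ≠ 0)
    (h : ∀ P : Place K F, P.ord f = P.ord g) : ∃ c : K, f = algebraMap K F c * g := by
  have halg : IsAlgebraic K (f / g) := isAlgebraic_of_forall_ord_nonneg fun P => by
    rw [Fermat.Agent.Curve.ord_div P hf hg, h P, sub_self]
  obtain ⟨c, hc⟩ := minpoly.mem_range_of_degree_eq_one K _
    (IsAlgClosed.degree_eq_one_of_irreducible _ (minpoly.irreducible halg.isIntegral))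
  exact ⟨c, by rw [hc, div_mul_cancel₀ _ hg]⟩

/-- `q ↦ q ^ p` preserves Gauss reductions. -/
theorem hasGaussRed_qExpand {n : ℕ} [NeZero n] {f : LaurentSeries Qb}
    {g : LaurentSeries (ResidueField A)} (h : HasGaussRed (residue A) f g) :
    HasGaussRed (residue A) (qExpand Qb n f) (qExpand (ResidueField A) n g) := by
  obtain ⟨a, b, hb, e₁, e₂⟩ := h
  refine ⟨qExpand A n a, qExpand A n b, ?_, ?_, ?_⟩
  · rw [coeffMap_qExpand]
    exact (map_ne_zero (qExpand (ResidueField A) n)).2 hb
  · rw [coeffMap_qExpand, coeffMap_qExpand, ← map_mul, e₁]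
  · rw [coeffMap_qExpand, coeffMap_qExpand, ← map_mul, e₂]

/-- A `p`-torsion class specialising to zero pulls back to a class with power residues. -/
theorem picPow_pullPic [IsAlgClosed (ResidueField A)]
    [IsFunctionField1 Qb (modularFunctionFieldBar M)]
    [IsFunctionField1 Qb (modularFunctionFieldBar (M * p))]
    (hpM : ¬ p ∣ M) (hA : A.LiesOverPrime p)
    (T : TwoCompData p A (modularFunctionFieldBar (M * p))
      (modularFunctionFieldFullC (ResidueField A) M))
    (hswap : T.swap = X0.swap p M)
    (hT : ∀ (f : modularFunctionFieldBar (M * p))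
      (g : modularFunctionFieldFullC (ResidueField A) M),
      (∃ h : f ∈ T.V false, T.red false ⟨f, h⟩ = g) ↔
        HasGaussRed (residue A) (f : LaurentSeries Qb) (g : LaurentSeries (ResidueField A)))
    {r : Place Qb (modularFunctionFieldBar M) →
      Place (ResidueField A) (modularFunctionFieldFullC (ResidueField A) M)}
    (hr : (gaussDataX0 M hpM A hA).PlaceCompat r)
    (hα : (heckeAlphaBar Qb M p).toRingHom.IsIntegral)
    (D : Divisor.degZero (K := Qb) (F := modularFunctionFieldBar M))
    (hpD : Divisor.IsPrincipal ((p : ℤ) • (D : Divisor Qb (modularFunctionFieldBar M))))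
    (hred : Divisor.IsPrincipal
      (Finsupp.mapDomain r (D : Divisor Qb (modularFunctionFieldBar M)))) :
    T.PicPow (FiniteFlat.pullPic (heckeAlphaBar Qb M p) hα (Pic0.mk D)) p := by
  have hp : p.Prime := Fact.out
  have : NeZero p := ⟨hp.ne_zero⟩
  obtain ⟨f₀, hf₀, hdiv⟩ := hpD
  obtain ⟨c, hc, g, hg, hfg⟩ := (gaussDataX0 M hpM A hA).exists_smul hf₀
  set f := c • f₀ with hfdef
  have hf : f ≠ 0 := smul_ne_zero hc hf₀
  have hford : ∀ P : Place Qb (modularFunctionFieldBar M),
      ((p : ℤ) • (D : Divisor Qb (modularFunctionFieldBar M))) P = P.ord f := fun P => by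
    rw [hfdef, Algebra.smul_def, P.ord_mul ((map_ne_zero _).2 hc) hf₀,
      Fermat.Agent.Curve.ord_algebraMap, zero_add, hdiv P]
  obtain ⟨h, hh, hhdiv⟩ := hred
  have hgord : ∀ Q : Place (ResidueField A) (modularFunctionFieldFullC (ResidueField A) M),
      Q.ord g = Q.ord (h ^ p) := fun Q => by
    rw [← hr f g hfg hg _ hford Q, Fermat.Agent.Curve.ord_pow, Finsupp.mapDomain_smul,
      Finsupp.smul_apply, smul_eq_mul, hhdiv Q]
  obtain ⟨e, he⟩ := exists_eq_algebraMap_mul hg (pow_ne_zero p hh) hgord
  obtain ⟨e', he'⟩ := IsAlgClosed.exists_pow_nat_eq e hp.pos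
  set u := algebraMap (ResidueField A) (modularFunctionFieldFullC (ResidueField A) M) e' * h
    with hudef
  have hgu : g = u ^ p := by rw [he, hudef, mul_pow, ← map_pow, he']
  have hu : u ≠ 0 := fun h0 => hg (by rw [hgu, h0, zero_pow hp.ne_zero])
  -- the divisor of the pulled back function
  have hpullD : Divisor.IsPrincipal ((p : ℤ) •
      ((FiniteFlat.pullDegZero (heckeAlphaBar Qb M p) hα D :
        Divisor.degZero (K := Qb) (F := modularFunctionFieldBar (M * p))) :
          Divisor Qb (modularFunctionFieldBar (M * p)))) ∧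
      ∀ P : Place Qb (modularFunctionFieldBar (M * p)), ((p : ℤ) •
        ((FiniteFlat.pullDegZero (heckeAlphaBar Qb M p) hα D :
          Divisor.degZero (K := Qb) (F := modularFunctionFieldBar (M * p))) :
            Divisor Qb (modularFunctionFieldBar (M * p)))) P =
          P.ord (heckeAlphaBar Qb M p f) := by
    have key : ∀ P : Place Qb (modularFunctionFieldBar (M * p)), ((p : ℤ) •
        Divisor.pullbackAlong (heckeAlphaBar Qb M p) hα
          (D : Divisor Qb (modularFunctionFieldBar M))) P =
          P.ord (heckeAlphaBar Qb M p f) := fun P => by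
      rw [← map_zsmul, Divisor.pullbackAlong_apply, hford, ← Place.ord_restrictAlong]
    exact ⟨⟨heckeAlphaBar Qb M p f, (map_ne_zero _).2 hf, key⟩, key⟩
  have hv : ∀ i {x : modularFunctionFieldBar (M * p)} (hx : x ∈ T.V i),
      T.red i ⟨x, hx⟩ ≠ 0 → (T.V i).valuation x = 1 := fun i x hx hne =>
    le_antisymm ((ValuationSubring.valuation_le_one_iff _ _).2 hx) (not_lt.1 fun hlt =>
      hne ((T.red_eq_zero_iff i ⟨x, hx⟩).2 ((ValuationSubring.mem_nonunits_iff _).2 hlt)))
  rw [FiniteFlat.pullPic_mk]
  refine T.picPow_mk hp.pos hpullD.1 (T.powResidue_of_exists hp.pos fun i => ?_)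
  refine ⟨heckeAlphaBar Qb M p f, (map_ne_zero _).2 hf, hpullD.2, ?_⟩
  have hred0 : HasGaussRed (residue A) ((heckeAlphaBar Qb M p f :
      modularFunctionFieldBar (M * p)) : LaurentSeries Qb)
      (g : LaurentSeries (ResidueField A)) := by
    rw [coe_heckeAlphaBar]
    exact hfg
  cases i
  · obtain ⟨hmem, hval⟩ := (hT _ g).2 hred0
    refine ⟨hv false hmem (by rw [hval]; exact hg), u, ?_⟩
    rw [T.residueAt_of_mem hmem, hval, hgu]
  · obtain ⟨l, hl⟩ := (gaussDataX0 M hpM A hA).exists_lift u
    have hlβ : HasGaussRed (residue A) ((heckeBetaBar Qb M p l :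
        modularFunctionFieldBar (M * p)) : LaurentSeries Qb)
        (qExpand (ResidueField A) p (u : LaurentSeries (ResidueField A))) := by
      rw [coe_heckeBetaBar]
      exact hasGaussRed_qExpand hl
    let w : modularFunctionFieldFullC (ResidueField A) M :=
      ⟨_, X0.hasGaussRed_mem_fullC A p M hpM hA hlβ⟩
    have hredβ : HasGaussRed (residue A) ((heckeBetaBar Qb M p f :
        modularFunctionFieldBar (M * p)) : LaurentSeries Qb)
        ((w ^ p : modularFunctionFieldFullC (ResidueField A) M) :
          LaurentSeries (ResidueField A)) := by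
      rw [coe_heckeBetaBar, SubmonoidClass.coe_pow, ← map_pow, ← SubmonoidClass.coe_pow, ← hgu]
      exact hasGaussRed_qExpand hfg
    have hswf : T.swap (heckeAlphaBar Qb M p f) = heckeBetaBar Qb M p f := by
      rw [hswap]; exact (X0.swap_spec p M hpM).1 f
    rw [← hswf] at hredβ
    obtain ⟨hmem, hval⟩ := (hT _ (w ^ p)).2 hredβ
    have hmemt : heckeAlphaBar Qb M p f ∈ T.V true := (T.swap_mem_iff _).1 hmem
    have hval' : T.red true ⟨_, hmemt⟩ = w ^ p := by rw [← T.red_swap ⟨_, hmemt⟩ hmem, hval]
    have hw : w ≠ 0 := fun h0 => hu (Subtype.ext ((map_eq_zero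
      (qExpand (ResidueField A) p)).1 (congrArg Subtype.val h0)))
    refine ⟨hv true hmemt (by rw [hval']; exact pow_ne_zero p hw), w, ?_⟩
    rw [T.residueAt_of_mem hmemt, hval']

end Fermat.Agent.Lifting.OrdinaryFive
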