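import Fermat.Agent.Lifting.Squarefree.Contracts
import Fermat.Agent.Lifting.Squarefree.OrdinaryEmbed
import Fermat.Agent.Lifting.Squarefree.OrdinaryReduction
import Fermat.Agent.Lifting.Squarefree.OrdinaryLine
import Fermat.Agent.Galois.Frobenius

/-!
# `a_p ≡ ±1` at a multiplicative `p` outside the level

`E[p]` embeds in `J₀(M)[p]`, `p ∤ M`, killed by a polynomial `h` in `T_p` vanishing at `a_p`
modulo `𝔪`. Specialisation at `p` kills the line of `E[p]` on which inertia acts by the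
cyclotomic character; it does not kill a point `P₀` off the line, since otherwise the pullback of
`P₀` to level `M p` would have power residues and so vanish. Frobenius acts on the image of `P₀`
by a sign `z`, hence so does `T_p` by the congruence relation, so `p ∣ h z` and `a_p ≡ z`.
-/

set_option autoImplicit false
set_option synthInstance.maxHeartbeats 400000
set_option maxHeartbeats 2000000

noncomputable section

open scoped WeierstrassCurve.Affine Polynomial
open WeierstrassCurve AlgebraicCurve ModularCurve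

namespace Fermat.Agent.Lifting.OrdinaryFive

local notation "Qb" => AlgebraicClosure ℚ
local notation "Γℚ" => (AlgebraicClosure ℚ ≃ₐ[ℚ] AlgebraicClosure ℚ)

variable {W : WeierstrassCurve ℤ} {p M : ℕ} [Fact p.Prime] [NeZero M]

omit [Fact p.Prime] in
/-- Specialisation of the translates of `P₀` under an equivariant map. -/
theorem spec_translates {H V : Type*} [AddCommGroup H] [AddCommGroup V] [DistribMulAction Γℚ H]
    [DistribMulAction Γℚ V] {Y : Type*} [AddCommGroup Y] (spec : H →+ Y) (j : V →+ H)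
    (hj : ∀ (σ : Γℚ) x, σ • j x = j (σ • x)) (hp : p.Prime) (hpV : ∀ x : V, (p : ℤ) • x = 0)
    {σ₀ : Γℚ} (hσ₀ : ∀ x, spec (σ₀ • x) = spec x) {a : ℕ} (ha : ¬ (p : ℤ) ∣ (a : ℤ) - 1)
    (L : AddSubgroup V) (hσ₀L : ∀ x ∈ L, σ₀ • x = a • x)
    {σ : Γℚ} (hσL : ∀ x ∈ L, σ • x ∈ L) {z : ℤ} (hz : z * z = 1) {P₀ : V}
    (hzP : σ • P₀ - z • P₀ ∈ L) :
    spec (σ • j P₀) = z • spec (j P₀) ∧ spec (σ • σ • j P₀) = spec (j P₀) := by
  have hL : ∀ x ∈ L, spec (j x) = 0 := fun x hx => by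
    have h := hσ₀ (j x)
    rw [hj, hσ₀L x hx, map_nsmul, map_nsmul] at h
    refine LevelP.eq_zero_of_zsmul hp ha ?_ ?_
    · rw [← map_zsmul, ← map_zsmul, hpV, map_zero, map_zero]
    · rw [sub_smul, natCast_zsmul, h, one_smul, sub_self]
  have h1 : spec (σ • j P₀) = z • spec (j P₀) := by
    rw [hj, ← sub_add_cancel (σ • P₀) (z • P₀), map_add, map_add, hL _ hzP, zero_add, map_zsmul,
      map_zsmul]
  refine ⟨h1, ?_⟩
  rw [← sub_eq_zero, hj, hj, ← map_sub, ← map_sub]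
  refine hL _ ?_
  have h2 : σ • σ • P₀ - P₀ = σ • (σ • P₀ - z • P₀) + z • (σ • P₀ - z • P₀) := by
    rw [smul_sub, show σ • (z • P₀) = z • (σ • P₀) from
      map_zsmul (DistribSMul.toAddMonoidHom V σ) z P₀, smul_sub z, smul_smul z z, hz, one_smul]
    abel
  rw [h2]
  exact add_mem (hσL _ hzP) (L.zsmul_mem hzP z)

/-- The core: a sign at which the polynomial vanishes modulo `p`. -/
theorem exists_sign_root (hp5 : 5 ≤ p) (hpM : ¬ p ∣ M) (hΔ : W.Δ ≠ 0) (hbad : (p : ℤ) ∣ W.Δ)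
    (hc4 : ¬ (p : ℤ) ∣ W.c₄)
    (i : Submodule.torsionBy ℤ ((W.map (Int.castRingHom ℚ))⁄Qb).Point (p : ℤ) →+ JZero M)
    (hi : Function.Injective i) (hiσ : ∀ (σ : Γℚ) P, σ • i P = i (σ • P))
    (h : ℤ[X])
    (hker : ∀ P, Polynomial.aeval (heckeOperatorBar M (⟨p, Fact.out⟩ : Nat.Primes)) h (i P) = 0) :
    ∃ z : ℤ, z * z = 1 ∧ (p : ℤ) ∣ h.eval z := by
  have hp : p.Prime := Fact.out
  have : NeZero p := ⟨hp.ne_zero⟩
  have : NeZero (M * p) := ⟨Nat.mul_ne_zero (NeZero.ne M) hp.ne_zero⟩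
  obtain ⟨A, σF, hA, hσF⟩ := Galois.exists_valuationSubring_isFrobeniusAt hp
  have : IsAlgClosed (IsLocalRing.ResidueField A) := EC.isAlgClosed_residueField A
  have : Curve.IsFunctionField1 Qb (modularFunctionFieldBar M) :=
    EichlerShimura.isFunctionField1_level (complexEmbedding : Qb →+* ℂ) M
  have : Curve.IsFunctionField1 Qb (modularFunctionFieldBar (M * p)) :=
    EichlerShimura.isFunctionField1_level (complexEmbedding : Qb →+* ℂ) (M * p)
  obtain ⟨ζ, hζ⟩ := HasEnoughRootsOfUnity.exists_primitiveRoot Qb p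
  obtain ⟨L, P₀, σ₀, hσ₀, hσ₀ζ, hσ₀P, hP₀, hI, hLa, hcyc, hD⟩ :=
    exists_ordinary_line (W := W) (by omega) hΔ hbad hc4 hA hζ
  obtain ⟨hDL, z, hz, hzP⟩ := hD σF hσF.mem_decompositionSubgroup
  have hpV : ∀ x : Submodule.torsionBy ℤ ((W.map (Int.castRingHom ℚ))⁄Qb).Point (p : ℤ),
      (p : ℤ) • x = 0 := fun x => Subtype.ext ((Submodule.mem_torsionBy_iff _ _).1 x.2)
  obtain ⟨a, -, ha⟩ := hζ.eq_pow_of_pow_eq_one
    (show (σ₀ ζ) ^ p = 1 by rw [← map_pow, hζ.pow_eq_one, map_one])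
  have ha1 : ¬ (p : ℤ) ∣ (a : ℤ) - 1 := fun hd => hσ₀ζ (by
    obtain ⟨l, hl⟩ := hd
    rw [← ha, ← zpow_natCast, show (a : ℤ) = p * l + 1 by omega, zpow_add_one₀
      (hζ.ne_zero hp.ne_zero), zpow_mul, zpow_natCast, hζ.pow_eq_one, one_zpow, one_mul])
  obtain ⟨r, spec, hr, hprin, hspecI, hspecF⟩ := exists_specialisation A p M hp5 hpM hA
  refine ⟨z, hz, ?_⟩
  -- the class of `P₀` does not specialise to zero
  have hv : spec (i P₀) ≠ 0 := by
    intro h0
    obtain ⟨T, hact, hswap, hT, -⟩ := LevelP.X0.exists_twoCompData A p M hp5 hpM hA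
    have hα := Curve.isIntegralAlong (heckeAlphaBar Qb M p)
    set pull := FiniteFlat.pullPic (heckeAlphaBar Qb M p) hα
    have hpull : ∀ (σ : Γℚ) (x : JZero M), T.act σ • pull x = pull (σ • x) := fun σ x => by
      rw [hact, galois_smul_pic0_def]
      exact (FiniteFlat.pullPic_semilinear_smul _ _
        (EichlerShimura.heckeAlphaBar_intertwines M p σ) x).symm
    have hact' : ∀ σ x, T.act σ • pull (i x) = pull (i (σ • x)) := fun σ x => by
      rw [hpull, hiσ]
    set y := pull (i P₀) with hy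
    have hpy : (p : ℤ) • y = 0 := by
      rw [hy, ← map_zsmul, ← map_zsmul, hpV, map_zero, map_zero]
    have hW : T.PicPow y p := by
      obtain ⟨D, hDx⟩ := Pic0.mk_surjective (i P₀)
      rw [hy, ← hDx]
      refine picPow_pullPic hpM hA T hswap hT hr hα D ?_ (hprin D (by rw [hDx, h0]))
      show ((p : ℤ) • D : Divisor.degZero (K := Qb) (F := modularFunctionFieldBar M)) ∈
        (Divisor.principal (K := Qb) (F := modularFunctionFieldBar M)).addSubgroupOf _
      refine (QuotientAddGroup.eq_zero_iff ((p : ℤ) • D)).1 ?_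
      refine (map_zsmul (QuotientAddGroup.mk' _) (p : ℤ) D).trans ?_
      show (p : ℤ) • Pic0.mk D = 0
      rw [hDx, ← map_zsmul, hpV, map_zero]
    have hdiff : ∀ σ, T.act σ • y - y = pull (i (σ • P₀ - P₀)) := fun σ => by
      rw [hy, hact', map_sub, map_sub]
    have hfin : ∃ K : IntermediateField ℚ Qb, FiniteDimensional ℚ K ∧
        ∀ σ ∈ A.inertiaSubgroupIn ℚ, (∀ a ∈ K, σ a = a) → T.act σ • y = y := by
      obtain ⟨K, hK, hKx⟩ := EichlerShimura.galoisFiniteLevel_x0 M (i P₀)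
      exact ⟨K, hK, fun σ _ h => by rw [hy, hpull, hKx σ h]⟩
    have hy0 : y = 0 := by
      refine T.eq_zero_of_picPow hp (by omega) hA
        (fun u hu hd => T.not_dvd_r hp5 u hu.1 hu.2 (hd.mul_left 12)) hζ y hpy hW hfin
        ⟨σ₀, hσ₀, hσ₀ζ, by rw [hy, hact', hσ₀P]⟩ (fun σ hσ τ hτ b hb => ?_)
        fun σ hσ τ hτ hne => ?_
      · rw [hdiff, hact', hLa σ hσ b hb _ (hI τ hτ P₀), map_nsmul, map_nsmul]
      · rw [hdiff] at hne
        obtain ⟨n, hn⟩ := hcyc _ (hI τ hτ.1 P₀) _ (hI σ hσ.1 P₀)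
          fun h' => hne (by rw [h', map_zero, map_zero])
        exact ⟨n, by rw [hdiff, hdiff, hn, map_zsmul, map_zsmul]⟩
    have h1 := FiniteFlat.pushPic_pullPic (heckeAlphaBar Qb M p) hα (i P₀)
    change FiniteFlat.pushPic _ hα y = _ at h1
    rw [hy0, map_zero, Reduction.finrankAlong_heckeAlphaBar_of_embedding
      complexEmbedding.toRingHom M p hp hpM, ← natCast_zsmul] at h1
    have hx0 : i P₀ = 0 := LevelP.eq_zero_of_zsmul hp (k := ((p + 1 : ℕ) : ℤ)) (fun hd => by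
        rw [Int.natCast_dvd_natCast, Nat.dvd_add_right dvd_rfl, Nat.dvd_one] at hd
        exact hp.ne_one hd) (by rw [← map_zsmul, hpV, map_zero]) h1.symm
    exact hP₀ (by rw [hi (hx0.trans (map_zero i).symm)]; exact zero_mem L)
  -- `T_p` acts on it by the sign
  set Tp := heckeOperatorBar M (⟨p, Fact.out⟩ : Nat.Primes) with hTp
  have hTσ : ∀ (σ : Γℚ) (x : JZero M), σ • Tp x = Tp (σ • x) :=
    EichlerShimura.galois_smul_heckeOperatorBar ⟨p, hp⟩
  have hrel : ∀ j : Submodule.torsionBy ℤ ((W.map (Int.castRingHom ℚ))⁄Qb).Point (p : ℤ) →+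
      JZero M, (∀ (σ : Γℚ) P, σ • j P = j (σ • P)) →
      spec (Tp (j P₀)) = z • spec (j P₀) := by
    intro j hj
    have hj' : ∀ (σ : Γℚ) P, σ • (Tp.toAddMonoidHom.comp j) P =
        (Tp.toAddMonoidHom.comp j) (σ • P) := fun σ P => by
      show σ • Tp (j P) = Tp (j (σ • P))
      rw [hTσ, hj]
    obtain ⟨-, h2⟩ := spec_translates spec j hj hp hpV (hspecI σ₀ hσ₀) ha1 L
      (hLa σ₀ hσ₀ a ha.symm) hDL hz hzP
    obtain ⟨h3, -⟩ := spec_translates spec _ hj' hp hpV (hspecI σ₀ hσ₀) ha1 L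
      (hLa σ₀ hσ₀ a ha.symm) hDL hz hzP
    have h4 := hspecF σF hσF (j P₀)
    have hp0 : spec (p • j P₀) = 0 := by
      rw [← natCast_zsmul, ← map_zsmul j, hpV, map_zero, map_zero]
    rw [map_add, map_sub, h2, hp0, add_zero, sub_eq_zero,
      ← hTσ] at h4
    have h5 : spec (j P₀) = z • spec (Tp (j P₀)) := h4.trans h3
    rw [h5, smul_smul, hz, one_smul]
  have hpow : ∀ n : ℕ, spec ((Tp ^ n) (i P₀)) = z ^ n • spec (i P₀) := by
    intro n
    induction n with
    | zero => rw [pow_zero, pow_zero, one_smul]; rfl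
    | succ n ih =>
      have hn : ∀ (n : ℕ) (σ : Γℚ) P, σ • (Tp ^ n) (i P) = (Tp ^ n) (i (σ • P)) := by
        intro n σ
        induction n with
        | zero => exact hiσ σ
        | succ n ih2 =>
          intro P
          rw [pow_succ', Module.End.mul_apply, Module.End.mul_apply, hTσ, ih2]
      have h1 := hrel ((Tp ^ n).toAddMonoidHom.comp i) (hn n)
      rw [pow_succ', Module.End.mul_apply, pow_succ', mul_smul, ← ih]
      exact h1
  have heval : ∀ q : ℤ[X], spec (Polynomial.aeval Tp q (i P₀)) = q.eval z • spec (i P₀) := by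
    intro q
    induction q using Polynomial.induction_on' with
    | add u v hu hv => rw [map_add, LinearMap.add_apply, map_add, hu, hv, Polynomial.eval_add,
        add_zsmul]
    | monomial n c =>
      rw [Polynomial.aeval_monomial, Module.End.mul_apply, Module.algebraMap_end_apply, map_zsmul,
        hpow, Polynomial.eval_monomial, mul_smul]
  have hzero : h.eval z • spec (i P₀) = 0 := by rw [← heval, hker, map_zero]
  by_contra hdvd
  exact hv (LevelP.eq_zero_of_zsmul hp hdvd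
    (by rw [← map_zsmul, ← map_zsmul, hpV, map_zero, map_zero]) hzero)

/-- **`a_p ≡ ±1`** for an eigenform of level prime to `p` congruent to a curve multiplicative at
`p ≥ 5`. -/
theorem exists_sq_sub_one_mem (hp5 : 5 ≤ p) (hpM : ¬ p ∣ M) (hΔ : W.Δ ≠ 0)
    (hss : W.IsSemistableModel) (hbad : (p : ℤ) ∣ W.Δ) (hirr : W.ModRepIsIrreducible p)
    {f : CuspForm (CongruenceSubgroup.Gamma0 M) 2} (hf : f.IsNormalizedEigenform)
    {𝔪 : Ideal (integralClosure ℤ ℂ)} (hmax : 𝔪.IsMaximal) (hpm : (p : integralClosure ℤ ℂ) ∈ 𝔪)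
    (hcong : ∀ ℓ : ℕ, ℓ.Prime → W.IsGoodPrimeFor ℓ → ¬ ℓ ∣ M → ℓ ≠ p →
      ∃ a : integralClosure ℤ ℂ, (a : ℂ) = ModularFormClass.qCoeff f ℓ ∧
        a - ((W.apOfModel ℓ : ℤ) : integralClosure ℤ ℂ) ∈ 𝔪) :
    ∃ a : integralClosure ℤ ℂ, (a : ℂ) = ModularFormClass.qCoeff f p ∧ a ^ 2 - 1 ∈ 𝔪 := by
  have hp : p.Prime := Fact.out
  obtain ⟨i, a, h, ha, hroot, hi, hiσ, hker⟩ :=
    exists_embedding_aeval hΔ (by omega) hirr hpM hf hmax hpm hcong
  obtain ⟨z, hz, hdvd⟩ := exists_sign_root hp5 hpM hΔ hbad (hss p hp hbad) i hi hiσ h hker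
  refine ⟨a, ha, ?_⟩
  rw [show a ^ 2 - 1 = (a + (z : integralClosure ℤ ℂ)) * (a - (z : integralClosure ℤ ℂ)) by
    have hzz : (z : integralClosure ℤ ℂ) * z = 1 := by rw [← Int.cast_mul, hz, Int.cast_one]
    linear_combination hzz]
  exact 𝔪.mul_mem_left _ (hroot z hdvd)

end Fermat.Agent.Lifting.OrdinaryFive

namespace Fermat.Agent.Lifting

/-- `OrdinaryTpFive` holds. -/
theorem ordinaryTpFive : OrdinaryTpFive := by
  intro W hΔ hss h5 hirr M f 𝔪 hM h5M hf hmax hm hcong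
  have : NeZero M := ⟨hM.ne'⟩
  have : Fact (Nat.Prime 5) := ⟨by norm_num⟩
  exact OrdinaryFive.exists_sq_sub_one_mem le_rfl h5M hΔ hss (by exact_mod_cast h5) hirr hf hmax hm
    hcong

end Fermat.Agent.Lifting
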