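import Fermat.Agent.Lifting.Squarefree.Contracts
import Fermat.Agent.Lifting.Squarefree.Tres.Curve

/-!
# A très ramifiée multiplicative `p` is in every residual level
-/

set_option autoImplicit false

noncomputable section

namespace Fermat.Agent.Lifting

/-- **`TresPrimeInLevel` holds.** -/
theorem tresPrimeInLevel : TresPrimeInLevel := by
  intro p hp hp2 W hΔ hss hbad hv hirr M hM hmod
  by_contra hpM
  have : Fact p.Prime := ⟨hp⟩
  exact Squarefree.Tres.false_of_model hΔ hp2 hbad (hss p hp hbad) hv
    (Squarefree.Tres.nonempty_model hΔ hp2 hirr hM hpM hmod)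

end Fermat.Agent.Lifting
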