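import Fermat.Agent.Lifting.Squarefree.SiteRep
import Fermat.Agent.Density.CharpolyDetermines

/-!
# The Galois representation of an eigen system of a node

A node has level `L` made of sites, `p` and auxiliary primes `Q`, twisted by a character `θ`
modulo `N` with all primes in `Q`. The representation of a system of exact level `L'` at it is
unramified outside the sites, `Q` and `p`, is of type unramified or special at the sites, and is
flat or strictly ordinary at `p`.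
-/

set_option autoImplicit false
set_option linter.unusedSectionVars false

noncomputable section

open IsLocalRing Polynomial
open Fermat.Agent.Deformation (matOf)

namespace Fermat.Agent.Lifting

open Algebra

local notation "ℚ̄" => AlgebraicClosure ℚ
local notation "Γℚ" => (AlgebraicClosure ℚ ≃ₐ[ℚ] AlgebraicClosure ℚ)

/-- The primes of a node. -/
structure NodeShape (p : ℕ) (S Sig Q : Finset ℕ) (N L : ℕ) : Prop where
  p_mem : p ∈ S
  p_not_mem : p ∉ Q
  sig_prime : ∀ q ∈ Sig, q.Prime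
  sig_ne : ∀ q ∈ Sig, q ≠ p
  sig_mem : ∀ q ∈ Sig, q ∈ S
  sig_not_mem : ∀ q ∈ Sig, q ∉ Q
  aux_mem : ∀ q ∈ Q, q ∈ S
  modulus : ∀ q : ℕ, q.Prime → q ∣ N → q ∈ Q
  level : ∀ q : ℕ, q.Prime → q ∣ L → q ∈ Sig ∨ q = p ∨ q ∈ Q

variable {V : Type} [CommRing V] [IsDomain V] [IsDiscreteValuationRing V]

/-- The local properties at a node of a point of exact level `L'`. -/
structure IsNodePoint (p : ℕ) (S Sig Q : Finset ℕ) {N : ℕ} (θ : MulChar (ZMod N) V) (L L' : ℕ)
    (c : Nat.Primes → V) (ρbar : ResidualGaloisRep (ResidueField V)) (ρ : GaloisRepAdic V) :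
    Prop extends RT.Assembly.IsLocalPoint p S L' c ρbar ρ where
  sq_not_dvd : ∀ q ∈ Sig, ¬ q ^ 2 ∣ L'
  dvd_level : ∀ q ∈ Sig, q ∣ L' → q ∣ L
  unramified_outside : ∀ q : ℕ, q.Prime → q ≠ p → q ∉ Sig → q ∉ Q → ρ.IsUnramifiedAt q
  aux_trivial : ∀ q ∈ Q, q.Prime → ¬ RT.Assembly.NontrivialAt θ q →
    ρ.IsUnipotentOnInertiaAt q
  aux_nontrivial : ∀ q ∈ Q, q.Prime → RT.Assembly.NontrivialAt θ q →
    ∀ A : ValuationSubring ℚ̄, A.LiesOverPrime q →
      ∃ σ ∈ A.inertiaSubgroupIn ℚ, LinearMap.charpoly (ρ.ρ σ) ≠ (X - 1) ^ 2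
  flat_at : ¬ p ∣ L → ρ.IsFlatAt p
  strictOrdinary_at : p ∣ L → ρ.IsStrictOrdinaryAt p

variable [IsAdicComplete (maximalIdeal V) V] [Finite (ResidueField V)] [CharZero V]
  {p : ℕ} [Fact p.Prime] {S Sig Q : Finset ℕ} {N L L' : ℕ} {θ : MulChar (ZMod N) V}
  {c : Nat.Primes → V} {ρbar : ResidualGaloisRep (ResidueField V)}

/-- **The pair at a site** of a node point. -/
theorem IsNodePoint.site {ρ : GaloisRepAdic V} (hρ : IsNodePoint p S Sig Q θ L L' c ρbar ρ)
    (hsh : NodeShape p S Sig Q N L) {O : Type} [CommRing O] [Algebra O V] (σ : Site O)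
    (hσ : σ.q ∈ Sig) (T : RT.TamePair p σ.q)
    (htame : ∀ τ ∈ T.A.inertiaSubgroupIn ℚ, ∃ j : ℕ, ρbar.ρ τ ^ p ^ j = 1)
    (b : Module.Basis (Fin 2) V ρ.V) :
    σ.IsLocalPair (matOf ρ.ρ b T.F, matOf ρ.ρ b T.σ) ∧
      ((¬ σ.q ∣ L ∨ ¬ σ.q ∣ L') → σ.IsType .unram (matOf ρ.ρ b T.F, matOf ρ.ρ b T.σ)) ∧
      (σ.q ∣ L' → σ.IsType .same (matOf ρ.ρ b T.F, matOf ρ.ρ b T.σ) ∨
        σ.IsType .opp (matOf ρ.ρ b T.F, matOf ρ.ρ b T.σ)) := by
  obtain ⟨h1, h2, h3⟩ := IsLocalPoint.site_pair hρ.toIsLocalPoint Fact.out σ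
    (hsh.sig_prime _ hσ) (hsh.sig_ne _ hσ) (hρ.sq_not_dvd _ hσ) T htame b
  refine ⟨h1, fun h => h2 fun hd => ?_, h3⟩
  rcases h with h | h
  exacts [h (hρ.dvd_level _ hσ hd), h hd]

/-- An eigen system of a node has a representation of node type. -/
theorem exists_nodePoint (hp2 : p ≠ 2) (hpV : (p : V) ∈ maximalIdeal V)
    (inputs : RT.Assembly.LocalInputs p) (hso : RT.Assembly.StrictOrdinaryOfNewform p)
    [NeZero L'] (hsh : NodeShape p S Sig Q N L)
    (hex : RT.Assembly.IsExactLevel θ S c L L') (hnew : RT.Assembly.IsNewformSystem S L' c)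
    (habs : ρbar.IsAbsolutelyIrreducible)
    (hbar : ∀ (ℓ : ℕ) (hℓ : ℓ.Prime), ℓ ∉ S → ∀ A : ValuationSubring ℚ̄, A.LiesOverPrime ℓ →
      ∀ σ : Γℚ, A.IsFrobeniusAt σ ℓ → LinearMap.charpoly (ρbar.ρ σ) =
        X ^ 2 - C (residue V (c ⟨ℓ, hℓ⟩)) * X + C (ℓ : ResidueField V))
    (hp1 : p ∣ L → p ∣ L')
    (hord : p ∣ L → (GaloisRepAdic.ofResidualGaloisRep ρbar).IsStrictOrdinaryAt p) :
    ∃ ρ : GaloisRepAdic V, IsNodePoint p S Sig Q θ L L' c ρbar ρ := by
  classical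
  have hp : p.Prime := Fact.out
  have hL'ne : L' ≠ 0 := NeZero.ne L'
  have hsrc : ∀ q : ℕ, q.Prime → q ∣ L' → q ∈ Sig ∨ q = p ∨ q ∈ Q := fun q hq hd =>
    (hq.dvd_mul.mp (hd.trans hex.dvd)).elim (hsh.level q hq)
      fun h => Or.inr (Or.inr (hsh.modulus q hq h))
  have hS : ∀ q : ℕ, q.Prime → q ∣ L' → q ∈ S := fun q hq hd => by
    rcases hsrc q hq hd with h | h | h
    exacts [hsh.sig_mem q h, h ▸ hsh.p_mem, hsh.aux_mem q h]
  have hle1 : ∀ q : ℕ, q.Prime → q ∉ Q → ¬ q ^ 2 ∣ L' := fun q hq hqQ hd => by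
    have := (hq.pow_dvd_iff_le_factorization hL'ne).mp hd
    have := hex.le_one q hq fun h => hqQ (hsh.modulus q hq h.1)
    omega
  obtain ⟨ρ, hρ⟩ := RT.Assembly.exists_localPoint hp2 hpV hsh.p_mem hS inputs hnew ρbar habs hbar
  refine ⟨ρ, { toIsLocalPoint := hρ, sq_not_dvd := ?_, dvd_level := ?_, unramified_outside := ?_,
               aux_trivial := ?_, aux_nontrivial := ?_, flat_at := ?_, strictOrdinary_at := ?_ }⟩
  · exact fun q hq => hle1 q (hsh.sig_prime q hq) (hsh.sig_not_mem q hq)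
  · intro q hq hd
    exact ((hsh.sig_prime q hq).dvd_mul.mp (hd.trans hex.dvd)).resolve_right
      fun h => hsh.sig_not_mem q hq (hsh.modulus q (hsh.sig_prime q hq) h)
  · intro q hq hqp hqS hqQ
    refine hρ.unramified q hq hqp fun hd => ?_
    rcases hsrc q hq hd with h | h | h
    exacts [hqS h, hqp h, hqQ h]
  · intro q hqQ hq hnt
    have hqp : q ≠ p := fun h => hsh.p_not_mem (h ▸ hqQ)
    by_cases hd : q ∣ L'
    · refine hρ.unipotent q hq hqp hd fun h2 => ?_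
      have := (hq.pow_dvd_iff_le_factorization hL'ne).mp h2
      have := hex.le_one q hq hnt
      omega
    · intro P hP τ hτ
      rw [hρ.unramified q hq hqp hd P hP τ hτ, LinearMap.charpoly_one, ρ.finrank_eq]
  · intro q hqQ hq hnt
    exact hρ.not_unipotent q hq (fun h => hsh.p_not_mem (h ▸ hqQ)) (hex.two q hq hnt)
  · intro hpL
    refine hρ.flat fun hd => ?_
    rcases hp.dvd_mul.mp (hd.trans hex.dvd) with h | h
    exacts [hpL h, hsh.p_not_mem (hsh.modulus p hp h)]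
  · intro hpL
    refine hρ.strictOrdinary hso (hp1 hpL) (hle1 p hp hsh.p_not_mem) ?_
    obtain ⟨e⟩ := hρ.residual_isEquiv
    exact Density.adic_isStrictOrdinaryAt_of_isEquiv
      ⟨⟨e.toLinearEquiv.symm, fun σ x => e.symm.map_apply σ x⟩⟩ (hord hpL)

/-- At a node a site whose component through the centre is not `opp` and whose prime divides the
exact level is of type `same`. -/
theorem IsNodePoint.site_same {ρ : GaloisRepAdic V} (hρ : IsNodePoint p S Sig Q θ L L' c ρbar ρ)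
    (hsh : NodeShape p S Sig Q N L) {O : Type} [CommRing O] [IsLocalRing O]
    [IsAdicComplete (maximalIdeal O) O] [CharZero O] [Algebra O V] [IsLocalHom (algebraMap O V)]
    (h2 : IsUnit (2 : O)) (hinj : Function.Injective (algebraMap O V))
    {J : Type} [Finite J] (Sites : J → Site O) (j : J) (hj : (Sites j).q ∈ Sig)
    (hdvd : (Sites j).q ∣ L') (hopp : ¬ (Sites j).Allowed .opp) (T : RT.TamePair p (Sites j).q)
    (htame : ∀ τ ∈ T.A.inertiaSubgroupIn ℚ, ∃ j : ℕ, ρbar.ρ τ ^ p ^ j = 1)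
    (b : Module.Basis (Fin 2) V ρ.V) (g : (RT.LocalRing.Mat V)ˣ)
    (hnear : Near Sites j (RT.LocalRing.cj g (matOf ρ.ρ b T.F), RT.LocalRing.cj g (matOf ρ.ρ b T.σ))) :
    (Sites j).IsType .same (matOf ρ.ρ b T.F, matOf ρ.ρ b T.σ) := by
  rcases (hρ.site hsh (Sites j) hj T htame b).2.2 hdvd with h | h
  · exact h
  · have h' := isType_cj (B := V) g h
    exact absurd (allowed_of_isType' h2 hinj (V := V) (S := Sites) (j := j) hnear h') hopp

end Fermat.Agent.Lifting
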