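import Fermat.Agent.Lifting.Squarefree.Contracts
import Fermat.Agent.Lifting.Minimal.BaseFacts
import Fermat.Agent.Semistable.AuxPrimeTwelve
import Fermat.Agent.Lifting.Residual.AuxPrime
import Fermat.Agent.RT.Assembly.CoeffRing
import Fermat.Agent.RT.Assembly.EigenClass
import Fermat.Agent.RT.Systems.ResidualBridge
import Fermat.Agent.EichlerShimura.PadicEnd
import Fermat.Agent.EC.Red.Qbar
import Fermat.Agent.EC.Mult.FixedLine

/-!
# The fixed data of the raising argument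

From a raising base `L` of a liftable semistable curve: a coefficient ring with residual
representation `ρ̄ = W[p] ⊗ k`, the auxiliary level `r₀` (a prime `≡ 11 (mod 12)` at `p = 3`), an
eigenclass of all operators at level `L * r₀` with the system of `W`, its minimality, and the
facts at the sites (the bad primes other than `p`).
-/

set_option autoImplicit false
set_option linter.style.haveILetI false

noncomputable section

open IsLocalRing Polynomial ModularFormClass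

namespace Fermat.Agent.Lifting

local notation "ℚ̄" => AlgebraicClosure ℚ
local notation "Γℚ" => (AlgebraicClosure ℚ ≃ₐ[ℚ] AlgebraicClosure ℚ)

/-- The sites of the raising argument: the bad primes other than `p`. -/
def raiseSites (W : WeierstrassCurve ℤ) (p : ℕ) : Finset ℕ := W.Δ.natAbs.primeFactors.erase p

/-- The primes to be raised: the bad primes not dividing the base. -/
def raisePrimes (W : WeierstrassCurve ℤ) (L : ℕ) : Finset ℕ :=
  W.Δ.natAbs.primeFactors \ L.primeFactors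

/-- The excluded primes: `p`, the bad primes and those of the auxiliary level. -/
def raiseExcluded (W : WeierstrassCurve ℤ) (p r : ℕ) : Finset ℕ :=
  insert p (W.Δ.natAbs.primeFactors ∪ r.primeFactors)

/-- The residual representation over a field of characteristic `p`. -/
abbrev raiseRep {W : WeierstrassCurve ℤ} {p : ℕ} [Fact p.Prime] (hΔ : W.Δ ≠ 0) {k : Type}
    [Field k] (ι : ZMod p →+* k) : ResidualGaloisRep k :=
  (Residual.torsRep W p hΔ).baseChangeAlong ι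

theorem mem_raiseSites_iff {W : WeierstrassCurve ℤ} (hΔ : W.Δ ≠ 0) {p q : ℕ} :
    q ∈ raiseSites W p ↔ q.Prime ∧ q ≠ p ∧ (q : ℤ) ∣ W.Δ := by
  simp only [raiseSites, Finset.mem_erase, Nat.mem_primeFactors, ne_eq, Int.natAbs_eq_zero, hΔ,
    not_false_eq_true, and_true, Int.natCast_dvd]
  tauto

theorem mem_raisePrimes_iff {W : WeierstrassCurve ℤ} (hΔ : W.Δ ≠ 0) {L q : ℕ} (hL : L ≠ 0) :
    q ∈ raisePrimes W L ↔ q.Prime ∧ (q : ℤ) ∣ W.Δ ∧ ¬ q ∣ L := by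
  simp only [raisePrimes, Finset.mem_sdiff, Nat.mem_primeFactors, ne_eq, Int.natAbs_eq_zero, hΔ,
    hL, not_false_eq_true, and_true, Int.natCast_dvd]
  tauto

theorem not_mem_raiseExcluded_iff {W : WeierstrassCurve ℤ} (hΔ : W.Δ ≠ 0) {p r ℓ : ℕ} (hr : r ≠ 0)
    (hℓ : ℓ.Prime) :
    ℓ ∉ raiseExcluded W p r ↔ ℓ ≠ p ∧ W.IsGoodPrimeFor ℓ ∧ ¬ ℓ ∣ r := by
  simp only [raiseExcluded, Finset.mem_insert, Finset.mem_union, Nat.mem_primeFactors, hℓ, true_and,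
    ne_eq, Int.natAbs_eq_zero, hΔ, hr, not_false_eq_true, and_true, not_or,
    WeierstrassCurve.IsGoodPrimeFor, Int.natCast_dvd]

/-- The fixed data of the raising argument. -/
structure RaiseData (W : WeierstrassCurve ℤ) (hΔ : W.Δ ≠ 0) (p L : ℕ) [Fact p.Prime] (O : Type)
    [CommRing O] [IsDomain O] [IsDiscreteValuationRing O] [IsAdicComplete (maximalIdeal O) O]
    [Finite (ResidueField O)] [CharZero O] where
  hp2 : p ≠ 2
  hpO : (p : O) ∈ maximalIdeal O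
  φ : ℤ_[p] →+* O
  φ_local : IsLocalHom φ
  ι : ZMod p →+* ResidueField O
  /-- the auxiliary level -/
  r₀ : ℕ
  /-- eigenvalues of all the operators at level `L * r₀` -/
  a : Nat.Primes → ResidueField O
  a_eq : ∀ ℓ : Nat.Primes, (ℓ : ℕ) ∉ raiseExcluded W p r₀ →
    a ℓ = Minimal.residualSystem W (ResidueField O) ℓ
  squarefree : Squarefree (L * r₀)
  aux : ∀ q : ℕ, q.Prime → q ∣ r₀ → q ≠ p ∧ W.IsGoodPrimeFor q ∧ ¬ q ∣ L ∧
    (W.apOfModel q : ZMod p) ^ 2 ≠ ((q : ZMod p) + 1) ^ 2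
  cover : IsUnit (24 : O) ∨ ∃ q : ℕ, q.Prime ∧ q ∣ r₀ ∧ q % 12 = 11
  level_mem : ∀ q : ℕ, q.Prime → q ∣ L * r₀ → q ∈ raiseExcluded W p r₀
  absIrr : (raiseRep hΔ ι).IsAbsolutelyIrreducible
  det : (GaloisRepAdic.ofResidualGaloisRep (raiseRep hΔ ι)).DetIsCyclotomic p
  idx2 : ∀ (K : Type) [Field K] [Algebra (ResidueField O) K] (G : Subgroup Γℚ), G.index = 2 →
    ∀ V : Submodule K ((raiseRep hΔ ι).baseChange K).V,
      (∀ σ ∈ G, ∀ x ∈ V, ((raiseRep hΔ ι).baseChange K).ρ σ x ∈ V) → V = ⊥ ∨ V = ⊤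
  split : ∀ σ : Γℚ, ∃ α β : ResidueField O,
    LinearMap.charpoly ((raiseRep hΔ ι).ρ σ) = (X - C α) * (X - C β)
  charpoly_frob : ∀ (ℓ : ℕ) (hℓ : ℓ.Prime), ℓ ∉ raiseExcluded W p r₀ →
    ∀ A : ValuationSubring ℚ̄, A.LiesOverPrime ℓ → ∀ σ : Γℚ, A.IsFrobeniusAt σ ℓ →
      LinearMap.charpoly ((raiseRep hΔ ι).ρ σ) =
        X ^ 2 - C (a ⟨ℓ, hℓ⟩) * X + C (ℓ : ResidueField O)
  occurs : ∃ y : RT.TW.heckeH1 (1 : MulChar (ZMod 1) (ResidueField O)) (L * r₀) (one_dvd _),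
    y ≠ 0 ∧ ∀ ℓ : Nat.Primes,
      RT.TW.heckeOp (1 : MulChar (ZMod 1) (ResidueField O)) (one_dvd (L * r₀)) ℓ y = a ℓ • y
  nonEis : ∀ n : ℕ, n ≠ 0 → ∀ S' : Finset ℕ, ∃ ℓ : Nat.Primes, (ℓ : ℕ) ∉ S' ∧
    ((ℓ : ℕ) : ZMod n) = 1 ∧ a ℓ ≠ ((ℓ : ℕ) : ResidueField O) + 1
  minimal : ∀ (V : Type) [CommRing V] [IsDomain V] [IsDiscreteValuationRing V]
    [IsAdicComplete (maximalIdeal V) V] [Finite (ResidueField V)] [CharZero V] [Algebra O V]
    [IsLocalHom (algebraMap O V)] (S' : Finset ℕ) (L' : ℕ) [NeZero L'] (c : Nat.Primes → V),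
    raiseExcluded W p r₀ ⊆ S' → (∀ q : ℕ, q.Prime → q ∣ L' → q ∈ S') → L' ∣ L * r₀ →
    (p ∣ L → p ∣ L') → RT.Assembly.IsNewformSystem S' L' c →
    (∀ ℓ : Nat.Primes, (ℓ : ℕ) ∉ S' →
      residue V (c ℓ) = ResidueField.map (algebraMap O V) (a ℓ)) → L ∣ L'
  old : ∀ q : ℕ, q.Prime → q ∣ r₀ → (raiseRep hΔ ι).IsUnramifiedAt q ∧
    ∀ A : ValuationSubring ℚ̄, A.LiesOverPrime q → ∀ σ : Γℚ, A.IsFrobeniusAt σ q →
      LinearMap.trace (ResidueField O) (raiseRep hΔ ι).V ((raiseRep hΔ ι).ρ σ) ^ 2 ≠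
        ((q : ResidueField O) + 1) ^ 2
  unramified : ∀ q ∈ raisePrimes W L, q ≠ p ∧ ResiduallyUnramifiedAt W p q ∧
    (raiseRep hΔ ι).IsUnramifiedAt q
  inertia_pow : ∀ q : ℕ, q.Prime → q ≠ p → ∀ A : ValuationSubring ℚ̄, A.LiesOverPrime q →
    ∀ τ ∈ A.inertiaSubgroupIn ℚ, (raiseRep hΔ ι).ρ τ ^ p ^ 1 = 1
  flat : ¬ p ∣ L → (GaloisRepAdic.ofResidualGaloisRep (raiseRep hΔ ι)).IsFlatAt p
  ord : p ∣ L → (GaloisRepAdic.ofResidualGaloisRep (raiseRep hΔ ι)).IsStrictOrdinaryAt p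

variable {W : WeierstrassCurve ℤ} {p : ℕ} [hp : Fact p.Prime]

/-- A newform congruent to the curve outside a finite set is congruent at all good primes. -/
theorem residualNewformAt_of_cofinite (hS29 : RT.EigenformResidualRep) (hΔ : W.Δ ≠ 0)
    (hp2 : p ≠ 2) (hirr : W.ModRepIsIrreducible p) {M : ℕ} (hM : 0 < M)
    {g : CuspForm (CongruenceSubgroup.Gamma0 M) 2} (hg : g.IsNewform)
    {𝔪 : Ideal (integralClosure ℤ ℂ)} (hmax : 𝔪.IsMaximal)
    (hpm : (p : integralClosure ℤ ℂ) ∈ 𝔪) (T : Finset ℕ)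
    (hcong : ∀ ℓ : ℕ, ℓ.Prime → ℓ ∉ T → ∃ a : integralClosure ℤ ℂ, (a : ℂ) = qCoeff g ℓ ∧
      a - ((W.apOfModel ℓ : ℤ) : integralClosure ℤ ℂ) ∈ 𝔪) :
    ResidualNewformAt W p M := by
  letI : Field (integralClosure ℤ ℂ ⧸ 𝔪) := Ideal.Quotient.field 𝔪
  set φ : integralClosure ℤ ℂ →+* integralClosure ℤ ℂ ⧸ 𝔪 := Ideal.Quotient.mk 𝔪
  have hp0 : (p : integralClosure ℤ ℂ ⧸ 𝔪) = 0 := by
    rw [← map_natCast φ]
    exact Ideal.Quotient.eq_zero_iff_mem.2 hpm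
  haveI : CharP (integralClosure ℤ ℂ ⧸ 𝔪) p := (CharP.charP_iff_prime_eq_zero hp.out).2 hp0
  obtain ⟨ρ, hρ, -⟩ := hS29 hg.1 hp.out φ
  set ι : ZMod p →+* integralClosure ℤ ℂ ⧸ 𝔪 := ZMod.castHom dvd_rfl _
  have he := Minimal.torsRep_isEquiv_attached_cofinite hΔ hp2 hirr hM φ ι T
    (fun ℓ hℓ hℓT _ _ _ => by
      obtain ⟨a, ha, ham⟩ := hcong ℓ hℓ hℓT
      exact ⟨a, ha, Ideal.Quotient.eq.2 ham⟩) ρ hρ
  refine ⟨g, 𝔪, hg, hmax, hpm, fun ℓ hℓ hgood hℓM hℓp => ?_⟩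
  obtain ⟨A, σ, hA, hσ⟩ := Galois.exists_valuationSubring_isFrobeniusAt hℓ
  have hne : (ℓ : integralClosure ℤ ℂ ⧸ 𝔪) ≠ 0 := fun h0 =>
    hℓp ((Nat.prime_dvd_prime_iff_eq hp.out hℓ).1 ((CharP.cast_eq_zero_iff _ p ℓ).1 h0)).symm
  obtain ⟨a, ha, hch⟩ := hρ ℓ hℓ hℓM hne A hA σ hσ
  refine ⟨a, ha, Ideal.Quotient.eq.1 ?_⟩
  rw [Density.residual_charpoly_eq_of_isEquiv he,
    Minimal.torsRep_baseChange_charpoly_frob hΔ ι ⟨ℓ, hℓ⟩ hℓp hgood A hA σ hσ] at hch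
  have h := congrArg (fun P => Polynomial.coeff P 1) hch
  simp [Minimal.residualSystem, coeff_C, coeff_X_pow] at h
  rw [map_intCast]
  exact h.symm

/-- A newform system congruent to the curve at a level dividing `L * r` has level divisible by
`L`. -/
theorem IsRaisingBase.dvd_of_isNewformSystem (hS29 : RT.EigenformResidualRep)
    (h35 : BadPrime.NewformMultRep) (hΔ : W.Δ ≠ 0) (hp2 : p ≠ 2)
    (hirr : W.ModRepIsIrreducible p) {L : ℕ} (hL : IsRaisingBase W p L) {r : ℕ}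
    (hsf : Squarefree (L * r))
    (hr : ∀ q : ℕ, q.Prime → q ∣ r → q ≠ p ∧ W.IsGoodPrimeFor q ∧
      (W.apOfModel q : ZMod p) ^ 2 ≠ ((q : ZMod p) + 1) ^ 2)
    {V : Type} [CommRing V] [IsLocalRing V] (hpV : (p : V) ∈ maximalIdeal V)
    {S : Finset ℕ} {L' : ℕ} [NeZero L'] {c : Nat.Primes → V}
    (hLS : ∀ ℓ : ℕ, ℓ.Prime → ℓ ∣ L' → ℓ ∈ S) (hL' : L' ∣ L * r) (hp' : p ∣ L → p ∣ L')
    (hc : RT.Assembly.IsNewformSystem S L' c)
    (hres : ∀ ℓ : Nat.Primes, (ℓ : ℕ) ∉ S →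
      residue V (c ℓ) = Minimal.residualSystem W (ResidueField V) ℓ) : L ∣ L' := by
  obtain ⟨g, 𝔪, hg, hmax, hpm, hcong⟩ :=
    Minimal.exists_congruence_of_isNewformSystem hpV hLS hc hres
  have hL0 : 0 < L' := Nat.pos_of_ne_zero (NeZero.ne L')
  have hcop : L'.Coprime r := by
    refine Nat.coprime_of_dvd fun q hq hqL hqr => ?_
    obtain ⟨hqp, hgood, hne⟩ := hr q hq hqr
    have hq2 : ¬ q ^ 2 ∣ L' := fun h => by
      rw [pow_two] at h
      exact hq.ne_one (Nat.isUnit_iff.1 (hsf q (h.trans hL')))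
    obtain ⟨A, σ, hA, hσ⟩ := Galois.exists_valuationSubring_isFrobeniusAt hq
    obtain ⟨ε, hε, hch⟩ := Minimal.frobenius_charpoly_of_congruent h35 hΔ hp2 hirr hg hmax hpm S
      (fun ℓ hℓ hℓS _ _ _ => hcong ℓ hℓ hℓS) hq hqp hqL hq2 A hA σ hσ
    have hch' : LinearMap.charpoly ((Residual.torsRep W p hΔ).ρ σ) =
        X ^ 2 - C (W.apOfModel q : ZMod p) * X + C (q : ZMod p) :=
      EC.charpoly_residualGaloisRepOf W hq hA hgood hσ hqp _ _
    have h1 := congrArg (fun f => Polynomial.coeff f 1) (hch.symm.trans hch')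
    have h2 : ε * ((q : ZMod p) + 1) = (W.apOfModel q : ZMod p) := by
      simpa [Polynomial.coeff_X_pow, Polynomial.coeff_X, Polynomial.coeff_C] using h1
    exact hne (by rw [← h2, mul_pow, pow_two ε, hε, one_mul])
  exact (hL.minimal L' (hcop.dvd_of_dvd_mul_right hL') hp'
    (residualNewformAt_of_cofinite hS29 hΔ hp2 hirr hL0 hg hmax hpm S hcong)).symm.dvd

/-- A ring homomorphism from `ℤ_[p]` is local when `p` is not a unit. -/
theorem isLocalHom_padicInt {O : Type} [CommRing O] [IsLocalRing O]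
    (hpO : (p : O) ∈ maximalIdeal O) (φ : ℤ_[p] →+* O) : IsLocalHom φ := by
  refine ⟨fun x hx => ?_⟩
  by_contra h
  rw [← mem_nonunits_iff, ← IsLocalRing.mem_maximalIdeal, PadicInt.maximalIdeal_eq_span_p,
    Ideal.mem_span_singleton] at h
  obtain ⟨y, rfl⟩ := h
  rw [map_mul, map_natCast] at hx
  exact (IsLocalRing.mem_maximalIdeal _).1 hpO (isUnit_of_mul_isUnit_left hx)

/-- The auxiliary level. -/
theorem exists_auxLevel (hΔ : W.Δ ≠ 0) (hW : W.IsSemistableModel) (hp35 : p = 3 ∨ p = 5)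
    (hirr : W.ModRepIsIrreducible p) {L : ℕ} (hL : L ≠ 0) :
    ∃ r : ℕ, r ≠ 0 ∧ Squarefree r ∧
      (∀ q : ℕ, q.Prime → q ∣ r → q ≠ p ∧ W.IsGoodPrimeFor q ∧ ¬ q ∣ L ∧
        (W.apOfModel q : ZMod p) ^ 2 ≠ ((q : ZMod p) + 1) ^ 2) ∧
      (r = 1 ∨ r.Prime) ∧ (p = 3 → r.Prime ∧ r % 12 = 11) := by
  rcases hp35 with rfl | rfl
  · obtain ⟨r, hr, hrS, hr3, hgood, h12, hne⟩ :=
      Semistable.exists_aux_prime_twelve hΔ hW hirr L.primeFactors
    refine ⟨r, hr.ne_zero, hr.squarefree, fun q hq hqr => ?_, Or.inr hr, fun _ => ⟨hr, h12⟩⟩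
    obtain rfl := (Nat.prime_dvd_prime_iff_eq hq hr).1 hqr
    exact ⟨hr3, hgood, fun h => hrS (Nat.mem_primeFactors.2 ⟨hq, h, hL⟩), hne⟩
  · exact ⟨1, one_ne_zero, squarefree_one,
      fun q hq hq1 => absurd (Nat.dvd_one.1 hq1) hq.ne_one, Or.inl rfl, fun h => absurd h (by norm_num)⟩

/-- **The fixed data exist.** -/
theorem exists_raiseData (hS29 : RT.EigenformResidualRep) (h35 : BadPrime.NewformMultRep)
    (hp35 : p = 3 ∨ p = 5) (hΔ : W.Δ ≠ 0) (hW : W.IsSemistableModel)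
    (hirr : W.ModRepIsIrreducible p)
    {L : ℕ} (hL : IsRaisingBase W p L) (m : ℕ) :
    ∃ (O : Type) (_ : CommRing O) (_ : IsDomain O) (_ : IsDiscreteValuationRing O)
      (_ : IsAdicComplete (maximalIdeal O) O) (_ : Finite (ResidueField O)) (_ : CharZero O),
      (∃ ζ : O, IsPrimitiveRoot ζ (p ^ m)) ∧ Nonempty (RaiseData W hΔ p L O) := by
  classical
  have hp2 : p ≠ 2 := by omega
  obtain ⟨r, hr0, hrsf, hr, hrp, hr12⟩ :=
    exists_auxLevel hΔ hW hp35 hirr hL.pos.ne'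
  haveI : NeZero L := ⟨hL.pos.ne'⟩
  haveI : NeZero (L * r) := ⟨mul_ne_zero hL.pos.ne' hr0⟩
  obtain ⟨g, 𝔪, hg, hmax, hpm, hcong⟩ := hL.newform
  -- the system over `ZMod p` at level `L`, then at level `L * r`
  set S₀ : Finset ℕ := insert p W.Δ.natAbs.primeFactors with hS₀
  have hLbad : ∀ q : ℕ, q.Prime → q ∣ L → q ∈ W.Δ.natAbs.primeFactors := fun q hq hd =>
    Nat.mem_primeFactors.2
      ⟨hq, Int.natCast_dvd.1 (hL.dvd_bad q hq hd), Int.natAbs_ne_zero.2 hΔ⟩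
  have h0 : RT.Assembly.HasSystem L S₀
      (fun ℓ : Nat.Primes => ((W.apOfModel ℓ : ℤ) : ZMod p)) :=
    RT.Systems.hasSystem_of_eigenform hg.1 hmax hpm S₀ W.apOfModel fun ℓ hℓS hℓ => by
      rw [hS₀, Finset.mem_insert, not_or] at hℓS
      exact hcong ℓ hℓ
        (fun hd => hℓS.2 (Nat.mem_primeFactors.2
          ⟨hℓ, Int.natCast_dvd.1 hd, Int.natAbs_ne_zero.2 hΔ⟩))
        (fun hd => hℓS.2 (hLbad ℓ hℓ hd)) hℓS.1
  have h1 : RT.Assembly.HasSystem (L * r) (raiseExcluded W p r)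
      (fun ℓ : Nat.Primes => ((W.apOfModel ℓ : ℤ) : ZMod p)) := by
    rcases hrp with rfl | hrp
    · have e : raiseExcluded W p 1 = S₀ := by simp [raiseExcluded, hS₀]
      rw [mul_one, e]
      exact h0
    · obtain ⟨hrp', hgood, hrL, hne⟩ := hr r hrp dvd_rfl
      have e : raiseExcluded W p r = insert r S₀ := by
        ext x
        simp [raiseExcluded, hS₀, hrp.primeFactors, or_left_comm]
      rw [e]
      refine h0.mul_prime hrp hrL (fun h => ?_) hne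
      rw [hS₀, Finset.mem_insert, Nat.mem_primeFactors] at h
      rcases h with h | ⟨-, h, -⟩
      exacts [hrp' h, hgood (Int.natCast_dvd.2 h)]
  obtain ⟨k, ik, ikf, ikc, f, a, y, hy0, hy, ha, ⟨e⟩⟩ := RT.Assembly.exists_eigenclass p h1
  obtain ⟨O, iC, iD, iV, iA, iF, iZ, hpO, hζ, ⟨j⟩⟩ :=
    RT.Assembly.exists_coeffRing_of_finite p m k
  refine ⟨O, iC, iD, iV, iA, iF, iZ, hζ, ?_⟩
  obtain ⟨y', hy'0, hy'⟩ := RT.Assembly.exists_eigenclass_map j hy0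
  set ι : ZMod p →+* ResidueField O := j.comp f
  have hsys : ∀ ℓ : Nat.Primes, (ℓ : ℕ) ∉ raiseExcluded W p r →
      j (a ℓ) = Minimal.residualSystem W (ResidueField O) ℓ := fun ℓ hℓ => by
    rw [ha ℓ hℓ, map_intCast, map_intCast]
    rfl
  have hgalois : ∀ q : ℕ, q.Prime → q ∣ r → (q : ResidueField O) = ι q := fun q _ _ =>
    (map_natCast ι q).symm
  have hlevel : ∀ q : ℕ, q.Prime → q ∣ L * r → q ∈ raiseExcluded W p r := fun q hq hd => by
    refine Finset.mem_insert_of_mem (Finset.mem_union.2 ?_)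
    rcases hq.dvd_mul.1 hd with h | h
    exacts [Or.inl (hLbad q hq h), Or.inr (Nat.mem_primeFactors.2 ⟨hq, h, hr0⟩)]
  refine ⟨{
    hp2 := hp2
    hpO := hpO
    φ := EichlerShimura.padicToRing hpO
    φ_local := isLocalHom_padicInt hpO _
    ι := ι
    r₀ := r
    a := fun ℓ => j (a ℓ)
    a_eq := hsys
    squarefree := ?_
    aux := hr
    cover := ?_
    level_mem := hlevel
    absIrr := Residual.torsRep_baseChangeAlong_isAbsolutelyIrreducible hΔ hp2 hirr ι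
    det := Residual.torsRep_baseChange_detIsCyclotomic hΔ ι
    idx2 := fun K _ _ G hG V hV => Residual.torsion_tw hΔ hW hp2 hirr ι K G hG V hV
    split := fun σ => ?_
    charpoly_frob := fun ℓ hℓ hℓS A hA σ hσ => ?_
    occurs := ⟨y', hy'0, fun ℓ => hy' ℓ _ (hy ℓ)⟩
    nonEis := fun n hn S' => ?_
    minimal := ?_
    old := fun q hq hqr => ?_
    unramified := fun q hq => ?_
    inertia_pow := fun q hq hqp A hA τ hτ =>
      Minimal.torsRep_baseChange_inertia_pow hΔ ι hW hq hqp hA hτ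
    flat := fun hpL => ?_
    ord := fun hpL =>
      Minimal.torsRep_baseChange_isStrictOrdinaryAt hΔ ι hW (hL.p_dvd_iff.1 hpL) }⟩
  · refine Nat.squarefree_mul_iff.2 ⟨Nat.coprime_of_dvd fun q hq hqL hqr => ?_, hL.squarefree, hrsf⟩
    exact (hr q hq hqr).2.2.1 hqL
  · rcases hp35 with rfl | rfl
    · exact Or.inr ⟨r, (hr12 rfl).1, dvd_rfl, (hr12 rfl).2⟩
    · refine Or.inl ?_
      by_contra h
      have h24 : (24 : O) ∈ maximalIdeal O := h
      have h5 : (5 : O) ∈ maximalIdeal O := by exact_mod_cast hpO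
      have h2 := Ideal.sub_mem _ (Ideal.mul_mem_left _ (5 : O) h5) h24
      norm_num at h2
  · rw [RT.charpoly_baseChangeAlong]
    let b := Module.finBasisOfFinrankEq (ZMod p) (Residual.torsRep W p hΔ).V
      (Residual.torsRep W p hΔ).finrank_eq
    rw [← LinearMap.charpoly_toMatrix _ b, Matrix.charpoly_fin_two]
    simp only [Polynomial.map_sub, Polynomial.map_add, Polynomial.map_mul, Polynomial.map_pow,
      map_X, map_C]
    exact RT.Assembly.exists_roots_of_galoisField hp2 (j.comp e) ι _ _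
  · obtain ⟨hℓp, hgood, -⟩ := (not_mem_raiseExcluded_iff hΔ hr0 hℓ).1 hℓS
    rw [hsys ⟨ℓ, hℓ⟩ hℓS]
    exact Minimal.torsRep_baseChange_charpoly_frob hΔ ι ⟨ℓ, hℓ⟩ hℓp hgood A hA σ hσ
  · obtain ⟨ℓ, hℓ, hℓS, hℓp, hgood, h1', -, hne⟩ :=
      Residual.exists_nonEisenstein_prime hΔ hp2 hirr hn (S' ∪ r.primeFactors)
    rw [Finset.mem_union, not_or, Nat.mem_primeFactors] at hℓS
    refine ⟨⟨ℓ, hℓ⟩, hℓS.1, h1', fun h => hne (ι.injective ?_)⟩
    rw [hsys ⟨ℓ, hℓ⟩ ((not_mem_raiseExcluded_iff hΔ hr0 hℓ).2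
      ⟨hℓp, hgood, fun hd => hℓS.2 ⟨hℓ, hd, hr0⟩⟩)] at h
    rw [map_intCast, map_add, map_natCast, map_one]
    exact h
  · intro V _ _ _ _ _ _ _ _ S' L' _ c hS' hLS hL' hp' hc hres
    refine hL.dvd_of_isNewformSystem hS29 h35 hΔ hp2 hirr ?_ (fun q hq hqr =>
      ⟨(hr q hq hqr).1, (hr q hq hqr).2.1, (hr q hq hqr).2.2.2⟩) ?_ hLS hL' hp' hc fun ℓ hℓ => ?_
    · refine Nat.squarefree_mul_iff.2 ⟨Nat.coprime_of_dvd fun q hq hqL hqr => ?_, hL.squarefree, hrsf⟩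
      exact (hr q hq hqr).2.2.1 hqL
    · rw [← map_natCast (algebraMap O V)]
      exact map_nonunit _ _ hpO
    · rw [hres ℓ hℓ, hsys ℓ fun h => hℓ (hS' h), Minimal.residualSystem, Minimal.residualSystem,
        map_intCast]
  · obtain ⟨hqp, hgood, -, hne⟩ := hr q hq hqr
    refine ⟨Minimal.torsRep_baseChange_isUnramifiedAt hΔ ι
      (EC.galoisRepUnramifiedAt_of_isGoodPrimeFor W hq hgood fun h =>
        hqp ((Nat.prime_dvd_prime_iff_eq hq hp.out).1 h)), fun A hA σ hσ h => ?_⟩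
    rw [show LinearMap.trace (ResidueField O) (raiseRep hΔ ι).V ((raiseRep hΔ ι).ρ σ) =
        ι (W.apOfModel q : ZMod p) by
      letI : Algebra (ZMod p) (ResidueField O) := ι.toAlgebra
      rw [← Residual.trace_torsRep_frobenius hΔ hq hqp hgood hA hσ]
      exact LinearMap.trace_baseChange _ _, hgalois q hq hqr, ← map_pow, ← map_one ι, ← map_add,
      ← map_pow] at h
    exact hne (ι.injective h)
  · obtain ⟨hq', hqbad, hqL⟩ := (mem_raisePrimes_iff hΔ hL.pos.ne').1 hq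
    have hqp : q ≠ p := fun h => hqL (h ▸ hL.p_dvd_iff.2 (h ▸ hqbad))
    have hunr : ResiduallyUnramifiedAt W p q :=
      by_contra fun h => hqL (hL.ramified_dvd q hq' hqp h)
    exact ⟨hqp, hunr, Minimal.torsRep_baseChange_isUnramifiedAt hΔ ι hunr⟩
  · exact Minimal.torsRep_baseChange_isFlatAt hΔ ι fun h => hpL (hL.p_dvd_iff.2 h)

/-- **The fixed data for a liftable curve.** -/
theorem exists_raiseData_of_liftable (hS29 : RT.EigenformResidualRep)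
    (h35 : BadPrime.NewformMultRep) (hp35 : p = 3 ∨ p = 5) (hΔ : W.Δ ≠ 0)
    (hW : W.IsSemistableModel) (hirr : W.ModRepIsIrreducible p)
    {L : ℕ} (hL : IsRaisingBase W p L) (m : ℕ) :
    ∃ (O : Type) (_ : CommRing O) (_ : IsDomain O) (_ : IsDiscreteValuationRing O)
      (_ : IsAdicComplete (maximalIdeal O) O) (_ : Finite (ResidueField O)) (_ : CharZero O),
      (∃ ζ : O, IsPrimitiveRoot ζ (p ^ m)) ∧ Nonempty (RaiseData W hΔ p L O) := by
  exact exists_raiseData hS29 h35 hp35 hΔ hW hirr hL m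

end Fermat.Agent.Lifting

end
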