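import Fermat.Agent.Lifting.Algebra.Points
import Fermat.Agent.RT.LocalQ.Rep
import Fermat.Agent.RT.Assembly.LocalPoint

/-!
# The pair of a representation at a site

For a representation with the local properties of a newform system the pair of Frobenius and tame
inertia at a prime `q ≠ p` with `q² ∤ L'` satisfies the common relations of the site; it is
unramified for `q ∤ L'` and special with one of the two signs for `q ∥ L'`.
-/

set_option autoImplicit false
set_option linter.unusedSectionVars false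

noncomputable section

open IsLocalRing Polynomial
open Fermat.Agent.Deformation (matOf matOf_apply)

namespace Fermat.Agent.Lifting

open Algebra RT.LocalRing

variable {O : Type} [CommRing O] {B : Type} [CommRing B] [Algebra O B]

theorem cj_pow (g : (Mat B)ˣ) (M : Mat B) (n : ℕ) : cj g M ^ n = cj g (M ^ n) := by
  induction n with
  | zero => simp [cj]
  | succ n ih => rw [pow_succ, ih, cj_mul_cj, pow_succ]

theorem isLocalPair_cj {σ : Site O} (g : (Mat B)ˣ) {x : Mat B × Mat B} (h : σ.IsLocalPair x) :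
    σ.IsLocalPair (cj g x.1, cj g x.2) := by
  obtain ⟨h1, h2, h3, h4⟩ := h
  refine ⟨?_, by rw [det_cj, h2], by rw [det_cj, h3], by rw [trace_cj, h4]⟩
  rw [cj_pow, cj_mul_cj, cj_mul_cj, h1]

theorem isType_cj {σ : Site O} (g : (Mat B)ˣ) {ty : Ty} {x : Mat B × Mat B}
    (h : σ.IsType ty x) : σ.IsType ty (cj g x.1, cj g x.2) := by
  refine ⟨by rw [det_cj, h.1], ?_⟩
  cases ty
  · show cj g x.2 = 1
    rw [show x.2 = 1 from h.2, cj_one']
  all_goals
    obtain ⟨h1, h2, h3, h4⟩ := h.2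
    refine ⟨?_, by rw [det_cj, h2], by rw [trace_cj, h3], by rw [trace_cj, h4]⟩
    rw [cj_pow, cj_mul_cj, cj_mul_cj, h1]

section Point

variable [IsDomain B] [IsDiscreteValuationRing B]
  [IsAdicComplete (maximalIdeal B) B] [Finite (ResidueField B)] [CharZero B]
  {p : ℕ} {S : Finset ℕ} {L' : ℕ} {c : Nat.Primes → B}
  {ρbar : ResidualGaloisRep (ResidueField B)} {ρ : GaloisRepAdic B}

/-- **The pair at a site** of the representation of a newform system. -/
theorem IsLocalPoint.site_pair (hρ : RT.Assembly.IsLocalPoint p S L' c ρbar ρ) (hp : p.Prime)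
    (σ : Site O) (hq : σ.q.Prime) (hqp : σ.q ≠ p) (hq2 : ¬ σ.q ^ 2 ∣ L')
    (T : RT.TamePair p σ.q)
    (htame : ∀ τ ∈ T.A.inertiaSubgroupIn ℚ, ∃ j : ℕ, ρbar.ρ τ ^ p ^ j = 1)
    (b : Module.Basis (Fin 2) B ρ.V) :
    σ.IsLocalPair (matOf ρ.ρ b T.F, matOf ρ.ρ b T.σ) ∧
      (¬ σ.q ∣ L' → σ.IsType .unram (matOf ρ.ρ b T.F, matOf ρ.ρ b T.σ)) ∧
      (σ.q ∣ L' → σ.IsType .same (matOf ρ.ρ b T.F, matOf ρ.ρ b T.σ) ∨
        σ.IsType .opp (matOf ρ.ρ b T.F, matOf ρ.ρ b T.σ)) := by
  have htame' : ∀ τ ∈ T.A.inertiaSubgroupIn ℚ, ∃ j : ℕ, ρ.residual.ρ τ ^ p ^ j = 1 := fun τ hτ =>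
    (htame τ hτ).imp fun j hj => RT.pow_eq_one_of_isEquiv hρ.residual_isEquiv hj
  obtain ⟨hrel, hdet, hdet'⟩ := T.matOf_relations hp hq hqp.symm ρ hρ.det b htame'
  have hunip : ρ.IsUnipotentOnInertiaAt σ.q := by
    by_cases hd : σ.q ∣ L'
    · exact hρ.unipotent _ hq hqp hd hq2
    · intro P hP τ hτ
      rw [hρ.unramified _ hq hqp hd P hP τ hτ, LinearMap.charpoly_one, ρ.finrank_eq]
  have htr : (matOf ρ.ρ b T.σ).trace = 2 := T.trace_eq_two ρ b hunip
  refine ⟨⟨hrel, hdet, hdet', htr⟩, fun hd => ⟨hdet, ?_⟩, fun hd => ?_⟩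
  · show matOf ρ.ρ b T.σ = 1
    exact (RT.matOf_eq_one_iff ρ.ρ b _).2 (hρ.unramified _ hq hqp hd T.A T.hA T.σ T.hσ)
  · have hc := hρ.steinberg _ hq hqp hd hq2 T.A T.hA T.F T.hF
    rw [← LinearMap.charpoly_toMatrix (ρ.ρ T.F) b, Matrix.charpoly_fin_two] at hc
    have key : (matOf ρ.ρ b T.F).trace = (σ.q : B) + 1 ∨
        (matOf ρ.ρ b T.F).trace = -((σ.q : B) + 1) := by
      rw [matOf_apply]
      rcases hc with h | h
      · refine Or.inl ?_
        have := congrArg (fun P => Polynomial.coeff P 1) h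
        simp [coeff_X_pow, coeff_X, coeff_C] at this
        linear_combination -this
      · refine Or.inr ?_
        have := congrArg (fun P => Polynomial.coeff P 1) h
        simp [coeff_X_pow, coeff_X, coeff_C] at this
        linear_combination -this
    set s := algebraMap O B σ.sgn
    have hs : s * s = 1 := by rw [← map_mul, σ.sgn_sq, map_one]
    have hty : (matOf ρ.ρ b T.F).trace = s * ((σ.q : B) + 1) ∨
        (matOf ρ.ρ b T.F).trace = -s * ((σ.q : B) + 1) := by
      rcases mul_self_eq_one_iff.1 hs with hs | hs <;> rcases key with h | h <;> rw [hs, h] <;>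
        simp
    rcases hty with h | h
    · exact Or.inl ⟨hdet, hrel, hdet', htr, h⟩
    · refine Or.inr ⟨hdet, hrel, hdet', htr, ?_⟩
      show _ = algebraMap O B (-σ.sgn) * _
      rw [map_neg]; exact h

end Point

end Fermat.Agent.Lifting
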