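import Fermat.Agent.Lifting.Squarefree.Contracts
import Fermat.Agent.Lifting.Squarefree.SiteRep
import Fermat.Agent.Lifting.Algebra.Main
import Fermat.Agent.Lifting.Residual.PointExtend
import Fermat.Agent.Lifting.Minimal.Local

/-!
# The sites of the curve in the raising argument

At a bad `q ≠ p` the frame of `T_p W ⊗ O` gives a site: its centre is the pair of the curve, of
type `same` with the sign of `W` at `q`, and it reduces to a conjugate of the pair of `E[p] ⊗ k`.
* `CurveSite`: these data, `nonempty_curveSite`.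
* `CurveSite.not_allowed_opp`: over a prime of a raising base only `same` passes through the centre.
* `CurveSite.b₀_mem`: outside the base the component `unram` does.
* `CurveSite.isType_same_of_conj`: a special lift at a prime of the base has the sign of the curve.
-/

set_option autoImplicit false

noncomputable section

open IsLocalRing Polynomial
open Fermat.Agent.Deformation (matOf matOf_apply)

namespace Fermat.Agent.Lifting

open Lifting.Algebra RT.LocalRing

local notation "ℚ̄" => AlgebraicClosure ℚ
local notation "Γℚ" => (AlgebraicClosure ℚ ≃ₐ[ℚ] AlgebraicClosure ℚ)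

/-- An invertible matrix over the residue field lifts. -/
theorem exists_unit_lift {A : Type} [CommRing A] [IsLocalRing A]
    (u : (Mat (ResidueField A))ˣ) :
    ∃ G : (Mat A)ˣ, Units.map (residue A).mapMatrix.toMonoidHom G = u := by
  choose f hf using residue_surjective (R := A)
  have hM : ((u : Mat (ResidueField A)).map f).map (residue A) = u := by
    ext i j; simp [hf]
  have hdet : IsUnit ((u : Mat (ResidueField A)).map f).det := by
    refine isUnit_of_map_unit (residue A) _ ?_
    rw [RingHom.map_det, RingHom.mapMatrix_apply, hM]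
    exact (Matrix.isUnit_iff_isUnit_det _).1 u.isUnit
  exact ⟨((Matrix.isUnit_iff_isUnit_det _).2 hdet).unit, Units.ext (by simpa using hM)⟩

theorem map_cj {R S : Type} [CommRing R] [CommRing S] (f : R →+* S) (g : (Mat R)ˣ) (M : Mat R) :
    (cj g M).map f = cj (Units.map f.mapMatrix.toMonoidHom g) (M.map f) := by
  show f.mapMatrix (cj g M) = _
  rw [cj, map_mul, map_mul]
  rfl

variable {W : WeierstrassCurve ℤ} {p : ℕ} [hp : Fact p.Prime] (hΔ : W.Δ ≠ 0)
  {O : Type} [CommRing O] [IsLocalRing O]

/-- A natural number prime to `p` is a unit of `O`. -/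
theorem natCast_isUnit_of_not_dvd (ψ : ZMod p →+* ResidueField O) {n : ℕ} (h : ¬ p ∣ n) :
    IsUnit (n : O) := by
  refine residue_ne_zero_iff_isUnit _ |>.1 ?_
  rw [map_natCast, ← map_natCast ψ, map_ne_zero_iff ψ ψ.injective]
  exact fun h' => h ((ZMod.natCast_eq_zero_iff n p).1 h')

variable (φ : ℤ_[p] →+* O) (hφ : IsLocalHom φ) (ψ : ZMod p →+* ResidueField O)

/-- The site of the curve at a bad `q ≠ p`, relative to a tame pair and a residual basis. -/
structure CurveSite {q : ℕ} (hq : q.Prime) (hqp : q ≠ p) (T : RT.TamePair p q)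
    (bbar : Module.Basis (Fin 2) (ResidueField O)
      ((Residual.torsRep W p hΔ).baseChangeAlong ψ).V) where
  /-- the sign of the curve at `q` -/
  sgn : ℤ
  sgn_eq : sgn = 1 ∨ sgn = -1
  /-- the corner of Frobenius -/
  y₀ : O
  /-- the corner of inertia -/
  b₀ : O
  /-- the basis of the point -/
  basis : Module.Basis (Fin 2) O (Residual.pointAlong hΔ φ hφ).V
  point_F : matOf (Residual.pointAlong hΔ φ hφ).ρ basis T.F = upT ((q : O) * sgn) sgn y₀
  point_σ : matOf (Residual.pointAlong hΔ φ hφ).ρ basis T.σ = upT 1 1 b₀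
  /-- the change of frame to the residual basis -/
  frame : (Mat O)ˣ
  frame_F : (cj frame (upT ((q : O) * sgn) sgn y₀)).map (residue O) =
    matOf ((Residual.torsRep W p hΔ).baseChangeAlong ψ).ρ bbar T.F
  frame_σ : (cj frame (upT 1 1 b₀)).map (residue O) =
    matOf ((Residual.torsRep W p hΔ).baseChangeAlong ψ).ρ bbar T.σ
  unram_iff : b₀ ∈ maximalIdeal O ↔ ResiduallyUnramifiedAt W p q
  point_charpoly : ∀ (A : ValuationSubring ℚ̄) (τ : Γℚ), A.LiesOverPrime q →
    A.IsFrobeniusAt τ q → LinearMap.charpoly ((Residual.pointAlong hΔ φ hφ).ρ τ) =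
      X ^ 2 - C ((sgn : O) * ((q : O) + 1)) * X + C (q : O)
  residual_charpoly : ∀ (A : ValuationSubring ℚ̄) (τ : Γℚ), A.LiesOverPrime q →
    A.IsFrobeniusAt τ q →
      LinearMap.charpoly (((Residual.torsRep W p hΔ).baseChangeAlong ψ).ρ τ) =
        X ^ 2 - C ((sgn : ResidueField O) * ((q : ResidueField O) + 1)) * X +
          C (q : ResidueField O)

/-- Every bad `q ≠ p` of a semistable curve with irreducible `E[p]` has a site. -/
theorem nonempty_curveSite (hp2 : p ≠ 2) (hss : W.IsSemistableModel)
    (hirr : W.ModRepIsIrreducible p) {q : ℕ} (hq : q.Prime) (hqp : q ≠ p) (hbad : (q : ℤ) ∣ W.Δ)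
    (T : RT.TamePair p q) (bbar : Module.Basis (Fin 2) (ResidueField O)
      ((Residual.torsRep W p hΔ).baseChangeAlong ψ).V) :
    Nonempty (CurveSite hΔ φ hφ ψ hq hqp T bbar) := by
  obtain ⟨z, b, y, c, hz, hchar, hF, hσ, hc⟩ :=
    Residual.pointAlong_exists_frame hΔ φ hφ hss hq hqp hbad T
  obtain ⟨e⟩ := Residual.pointAlong_residual_isEquiv hΔ φ hφ hp2 hirr ψ
  have hmap : matOf ((Residual.torsRep W p hΔ).baseChangeAlong ψ).ρ ((Algebra.TensorProduct.basis (ResidueField O) b).map e.toLinearEquiv) =
      matOf (Residual.pointAlong hΔ φ hφ).residual.ρ (Algebra.TensorProduct.basis (ResidueField O) b) :=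
    Deformation.matOf_map_equiv _ _ _ _ e.map_apply
  obtain ⟨u, hu⟩ := Deformation.exists_conj_of_basis ((Residual.torsRep W p hΔ).baseChangeAlong ψ).ρ
    ((Algebra.TensorProduct.basis (ResidueField O) b).map e.toLinearEquiv) bbar
  obtain ⟨G, hG⟩ := exists_unit_lift u
  have hconj : ∀ τ, (cj G (matOf (Residual.pointAlong hΔ φ hφ).ρ b τ)).map (residue O) = matOf ((Residual.torsRep W p hΔ).baseChangeAlong ψ).ρ bbar τ := fun τ => by
    rw [map_cj, hG, RT.map_matOf_eq_residual, ← DFunLike.congr_fun hmap τ, cj, hu τ, mul_assoc,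
      Units.mul_inv, mul_one]
  have hzz : (z : O) * z = 1 := by rcases hz with rfl | rfl <;> simp
  have hpoly : ∀ (A : ValuationSubring ℚ̄) (τ : Γℚ), A.LiesOverPrime q →
      A.IsFrobeniusAt τ q → LinearMap.charpoly ((Residual.pointAlong hΔ φ hφ).ρ τ) =
        X ^ 2 - C ((z : O) * ((q : O) + 1)) * X + C (q : O) := fun A τ hA hτ => by
    rw [hchar A τ hA hτ,
      show C (q : O) = C ((q : O) * (z : O)) * C (z : O) by rw [← C_mul, mul_assoc, hzz, mul_one]]
    simp only [map_mul, map_add, map_one]
    ring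
  have hpF : matOf (Residual.pointAlong hΔ φ hφ).ρ b T.F = upT ((q : O) * z) z y := by rw [matOf_apply, hF]; rfl
  have hpσ : matOf (Residual.pointAlong hΔ φ hφ).ρ b T.σ = upT 1 1 c := by rw [matOf_apply, hσ]; rfl
  refine ⟨⟨z, hz, y, c, b, hpF, hpσ, G, hpF ▸ hconj T.F, hpσ ▸ hconj T.σ,
    hc.symm.trans (Minimal.torsRep_isUnramifiedAt_iff_residual hΔ q), hpoly,
    fun A τ hA hτ => ?_⟩⟩
  have h1 : LinearMap.charpoly ((Residual.pointAlong hΔ φ hφ).residual.ρ τ) = LinearMap.charpoly (((Residual.torsRep W p hΔ).baseChangeAlong ψ).ρ τ) := by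
    refine ((LinearMap.charpoly_toMatrix _
      (Algebra.TensorProduct.basis (ResidueField O) b)).symm.trans ?_).trans
        (LinearMap.charpoly_toMatrix _
          ((Algebra.TensorProduct.basis (ResidueField O) b).map e.toLinearEquiv))
    exact congrArg Matrix.charpoly (DFunLike.congr_fun hmap τ).symm
  have h2 : LinearMap.charpoly ((Residual.pointAlong hΔ φ hφ).residual.ρ τ) =
      (LinearMap.charpoly ((Residual.pointAlong hΔ φ hφ).ρ τ)).map (residue O) := by
    show LinearMap.charpoly (((Residual.pointAlong hΔ φ hφ).ρ τ).baseChange (ResidueField O)) = _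
    rw [LinearMap.charpoly_baseChange]
    rfl
  rw [← h1, h2, hpoly A τ hA hτ]
  simp

namespace CurveSite

variable {hΔ} {φ} {hφ} {ψ}
variable {q : ℕ} {hq : q.Prime} {hqp : q ≠ p} {T : RT.TamePair p q}
  {bbar : Module.Basis (Fin 2) (ResidueField O)
    ((Residual.torsRep W p hΔ).baseChangeAlong ψ).V}
  (s : CurveSite hΔ φ hφ ψ hq hqp T bbar)

include s in
theorem sgn_sq : (s.sgn : O) * s.sgn = 1 := by
  rcases s.sgn_eq with h | h <;> simp [h]

/-- The site. -/
abbrev site : Site O where
  q := q
  q_two_le := hq.two_le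
  q_unit := natCast_isUnit_of_not_dvd ψ fun h =>
    hqp ((Nat.prime_dvd_prime_iff_eq hp.out hq).1 h).symm
  sgn := s.sgn
  sgn_sq := s.sgn_sq
  y₀ := s.y₀
  b₀ := s.b₀

/-- The curve is the centre. -/
theorem centre_eq : s.site.centre =
    (matOf (Residual.pointAlong hΔ φ hφ).ρ s.basis T.F,
      matOf (Residual.pointAlong hΔ φ hφ).ρ s.basis T.σ) := by
  rw [s.point_F, s.point_σ]
  rfl

/-- The centre, hence the curve, is of type `same`. -/
theorem isType_same_centre : s.site.IsType .same s.site.centre := by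
  have hs := s.sgn_sq
  have hdet : (upT ((q : O) * s.sgn) s.sgn s.y₀).det = (q : O) := by
    simp [upT, Matrix.det_fin_two, mul_assoc, hs]
  refine ⟨hdet, ?_, ?_, ?_, ?_⟩
  · show upT ((q : O) * s.sgn) (s.sgn : O) s.y₀ * upT 1 1 s.b₀ =
      upT 1 1 s.b₀ ^ q * upT ((q : O) * s.sgn) (s.sgn : O) s.y₀
    rw [pow_eq_one_add_smul (by simp [upT, Matrix.det_fin_two])
      (by simp [upT, Matrix.trace_fin_two]; norm_num) q]
    ext i j
    fin_cases i <;> fin_cases j <;> simp [upT, Matrix.mul_apply, Fin.sum_univ_two] <;> ring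
  · simp [Site.centre, upT, Matrix.det_fin_two]
  · simp [Site.centre, upT, Matrix.trace_fin_two]; norm_num
  · simp [Site.centre, Site.sign, upT, Matrix.trace_fin_two]; ring

/-- The residual trace of Frobenius is `s (q + 1)`. -/
theorem residual_trace : (matOf ((Residual.torsRep W p hΔ).baseChangeAlong ψ).ρ bbar T.F).trace =
    (s.sgn : ResidueField O) * ((q : ResidueField O) + 1) := by
  rw [← s.frame_F]
  show (((residue O).mapMatrix (cj s.frame _))).trace = _
  rw [RingHom.mapMatrix_apply, ← AddMonoidHom.map_trace, trace_cj]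
  simp [upT, Matrix.trace_fin_two]
  ring

omit hp in
/-- Outside the base the curve is residually unramified. -/
theorem residuallyUnramifiedAt_of_not_dvd {L : ℕ} (hL : IsRaisingBase W p L) {r : ℕ}
    (hr : r.Prime) (hrp : r ≠ p) (hd : ¬ r ∣ L) : ResiduallyUnramifiedAt W p r := by
  by_contra h
  exact hd (hL.ramified_dvd r hr hrp h)

/-- Outside the base the component `unram` passes through the centre. -/
theorem b₀_mem {L : ℕ} (hL : IsRaisingBase W p L) (hd : ¬ q ∣ L) : s.b₀ ∈ maximalIdeal O :=
  s.unram_iff.2 (residuallyUnramifiedAt_of_not_dvd hL hq hqp hd)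

/-- Over a prime of the base the component `opp` misses the centre. -/
theorem not_allowed_opp {L : ℕ} (hL : IsRaisingBase W p L) (hd : q ∣ L) :
    ¬ s.site.Allowed .opp := by
  rintro ⟨hb, hq1⟩
  refine (mem_maximalIdeal _).1 hq1 ?_
  have h := natCast_isUnit_of_not_dvd (O := O) ψ
    (hL.sign_determined q hq hqp hd (s.unram_iff.1 hb))
  simpa using h

/-- **The sign of a special lift.** A pair over `V` of type `same` or `opp` with the residual pair
of the curve, up to conjugation, has at a prime of the base the sign of the curve. -/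
theorem isType_same_of_conj [IsAdicComplete (maximalIdeal O) O] [CharZero O]
    {V : Type} [CommRing V] [IsDomain V] [IsDiscreteValuationRing V]
    [IsAdicComplete (maximalIdeal V) V] [Algebra O V] [IsLocalHom (algebraMap O V)]
    (h2 : IsUnit (2 : O)) (hinj : Function.Injective (algebraMap O V))
    {L : ℕ} (hL : IsRaisingBase W p L) (hd : q ∣ L) (x : Mat V × Mat V)
    (u : (Mat (ResidueField V))ˣ)
    (hF : x.1.map (residue V) = cj u ((matOf ((Residual.torsRep W p hΔ).baseChangeAlong ψ).ρ
      bbar T.F).map (ResidueField.map (algebraMap O V))))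
    (hσ : x.2.map (residue V) = cj u ((matOf ((Residual.torsRep W p hΔ).baseChangeAlong ψ).ρ
      bbar T.σ).map (ResidueField.map (algebraMap O V))))
    (h : s.site.IsType .same x ∨ s.site.IsType .opp x) : s.site.IsType .same x := by
  refine h.resolve_right fun h => s.not_allowed_opp hL hd ?_
  obtain ⟨G, hG⟩ := exists_unit_lift u
  set H := G * Units.map (algebraMap O V).mapMatrix.toMonoidHom s.frame with hH
  refine allowed_of_isType' h2 hinj (J := Unit) (V := V) (S := fun _ => s.site) (j := ())
    ?_ (isType_cj H⁻¹ h)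
  have key : ∀ (M : Mat O) (y : Mat V), y.map (residue V) = cj u (((cj s.frame M).map
      (residue O)).map (ResidueField.map (algebraMap O V))) →
      MemMax (cj H⁻¹ y - M.map (algebraMap O V)) := by
    intro M y hy i j
    rw [← residue_eq_zero_iff]
    have h1 : ((cj s.frame M).map (residue O)).map (ResidueField.map (algebraMap O V)) =
        ((cj s.frame M).map (algebraMap O V)).map (residue V) := by
      ext i j
      simp [ResidueField.map_residue]
    have h2 : (cj H⁻¹ y).map (residue V) = (M.map (algebraMap O V)).map (residue V) := by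
      rw [map_cj, hy, h1, map_cj (algebraMap O V), map_cj, map_inv, hH, map_mul, hG, mul_inv_rev]
      simp only [cj, Units.val_mul, mul_inv_rev, inv_inv]
      simp only [mul_assoc, Units.inv_mul_cancel_left, Units.inv_mul, mul_one]
    have h3 := congrFun (congrFun h2 i) j
    simp only [Matrix.map_apply] at h3
    rw [Matrix.sub_apply, map_sub]
    exact sub_eq_zero.2 h3
  exact ⟨key _ _ (by rw [hF, ← s.frame_F]; rfl), key _ _ (by rw [hσ, ← s.frame_σ]; rfl)⟩

end CurveSite

end Fermat.Agent.Lifting
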