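import Fermat.Agent.Lifting.Endgame
import Fermat.Agent.Lifting.Squarefree.Contracts

/-!
# The last step of the raising argument

A nonzero eigen class with the system of the curve at a squarefree level containing the bad
primes gives the conclusion of `LiftFromRaisingBase`.
-/

set_option autoImplicit false

open WeierstrassCurve CongruenceSubgroup ModularCurve ModularCurve.Period ModularFormClass
open Fermat.Agent.Periods
open scoped MatrixGroups

namespace Fermat.Agent.Lifting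

variable {W : WeierstrassCurve ℤ} {N : ℕ} [NeZero N]

/-- A product of the primes in a finite set is squarefree. -/
theorem squarefree_prod_primes {S : Finset ℕ} (hS : ∀ ℓ ∈ S, ℓ.Prime) :
    Squarefree (∏ ℓ ∈ S, ℓ) :=
  Finset.squarefree_prod_of_pairwise_isCoprime
    (fun a ha b hb hab => Nat.coprime_iff_isRelPrime.1 ((Nat.coprime_primes (hS a ha) (hS b hb)).2 hab))
    fun a ha => (hS a ha).squarefree

/-- The conclusion of the raising argument from an eigen class at a squarefree level. -/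
theorem exists_squarefree_modular_of_eigenHom (hΔ : W.Δ ≠ 0) (hN : Squarefree N)
    (hbad : ∀ q : ℕ, q.Prime → (q : ℤ) ∣ W.Δ → q ∣ N) (S : Finset ℕ) (hS : ∀ ℓ ∈ S, ℓ.Prime)
    {K : Type*} [Field K] [CharZero K] {φ : Additive (Gamma0 N) →+ K} (hφ : φ ≠ 0)
    (hT : ∀ (ℓ : ℕ) (hℓ : ℓ.Prime), W.IsGoodPrimeFor ℓ → ¬ ℓ ∣ N → ℓ ∉ S →
      heckeHom ℤ K hℓ φ = W.apOfModel ℓ • φ) :
    ∃ R : ℕ, Squarefree R ∧ (∀ q : ℕ, q.Prime → (q : ℤ) ∣ W.Δ → q ∣ R) ∧
      W.IsModularModelOfLevel R := by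
  obtain ⟨f, hf, hfa⟩ := exists_eigenform_of_eigenHom hΔ S hφ hT
  have hm := squarefree_prod_primes hS
  have hR : Squarefree (Nat.lcm N (∏ ℓ ∈ S, ℓ)) := by
    rw [Nat.squarefree_iff_factorization_le_one (Nat.lcm_ne_zero hN.ne_zero hm.ne_zero)]
    intro q
    rw [Nat.factorization_lcm hN.ne_zero hm.ne_zero, Finsupp.sup_apply]
    exact sup_le ((Nat.squarefree_iff_factorization_le_one hN.ne_zero).1 hN q)
      ((Nat.squarefree_iff_factorization_le_one hm.ne_zero).1 hm q)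
  have : NeZero (Nat.lcm N (∏ ℓ ∈ S, ℓ)) := ⟨hR.ne_zero⟩
  obtain ⟨g, hg, hgf⟩ := BadPrime.exists_eigenform_level_of_dvd
    (R := Nat.lcm N (∏ ℓ ∈ S, ℓ)) (Nat.dvd_lcm_left _ _) hf
  refine ⟨_, hR, fun q hq hqd => (hbad q hq hqd).trans (Nat.dvd_lcm_left _ _), g, hg,
    fun ℓ hℓ hgood hℓR => ?_⟩
  rw [hgf ℓ hℓ hℓR]
  exact hfa ℓ hℓ hgood (fun h => hℓR (h.trans (Nat.dvd_lcm_left _ _)))
    fun h => hℓR ((Finset.dvd_prod_of_mem _ h).trans (Nat.dvd_lcm_right _ _))

end Fermat.Agent.Lifting
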