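import Mathlib.RingTheory.Noetherian.Basic
import Mathlib.RingTheory.Finiteness.Basic
import Mathlib.LinearAlgebra.FreeModule.Finite.Basic
import Mathlib.LinearAlgebra.Matrix.ToLin
import Mathlib.LinearAlgebra.Basis.Defs

/-!
# Finitely many witnesses for an eigen system

On a module of finite type over a noetherian ring, a vector with given eigenvalues for finitely
many of the operators has them for all.
-/

set_option autoImplicit false

noncomputable section

namespace Fermat.Agent.Lifting

variable {O : Type*} [CommRing O] [IsNoetherianRing O]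

/-- A finite set of indices decides whether a matrix family has a given eigen system at a
vector. -/
theorem exists_finite_witness {n : ℕ} {ι : Type*} (G : Set ι)
    (T : ι → Matrix (Fin n) (Fin n) O) (a : ι → O) :
    ∃ s : Finset ι, ↑s ⊆ G ∧ ∀ w : Fin n → O, (∀ l ∈ s, (T l).mulVec w = a l • w) →
      ∀ l ∈ G, (T l).mulVec w = a l • w := by
  classical
  let f : ι → Matrix (Fin n) (Fin n) O := fun l => T l - a l • 1
  obtain ⟨t, ht, htG⟩ := (Submodule.fg_span_iff_fg_span_finset_subset (f '' G)).1
    (IsNoetherian.noetherian (Submodule.span O (f '' G)))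
  choose g hgG hg using fun x : t => ht x.2
  refine ⟨Finset.univ.image g, ?_, fun w hw l hl => ?_⟩
  · rw [Finset.coe_image]
    rintro _ ⟨x, -, rfl⟩
    exact hgG x
  · have hker : ∀ x ∈ Submodule.span O (f '' G), (x : Matrix (Fin n) (Fin n) O).mulVec w = 0 := by
      rw [htG]
      intro x hx
      induction hx using Submodule.span_induction with
      | mem x hx =>
        rw [show x = f (g ⟨x, hx⟩) from (hg ⟨x, hx⟩).symm]
        simp only [f, Matrix.sub_mulVec, Matrix.smul_mulVec, Matrix.one_mulVec, sub_eq_zero]
        exact hw _ (Finset.mem_image.2 ⟨⟨x, hx⟩, Finset.mem_univ _, rfl⟩)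
      | zero => exact Matrix.zero_mulVec w
      | add x y _ _ hx hy => rw [Matrix.add_mulVec, hx, hy, add_zero]
      | smul c x _ hx => rw [Matrix.smul_mulVec, hx, smul_zero]
    have := hker _ (Submodule.subset_span ⟨l, hl, rfl⟩)
    simpa [f, Matrix.sub_mulVec, Matrix.smul_mulVec, sub_eq_zero] using this

end Fermat.Agent.Lifting

end
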