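import Fermat.Prelude.Def_GaloisRep_DeformationRingData
import Fermat.Prelude.Def_GaloisRep_StrictOrdinary
import Fermat.Agent.Lifting.Residual.Frames
import Fermat.Agent.Lifting.Residual.PointExtend
import Fermat.Agent.Lifting.Squarefree.RaiseSigns
import Fermat.Agent.Lifting.Squarefree.SiteRep
import Fermat.Agent.RT.Assembly.Final

/-!
# The curve as a point of a deformation ring of the raising argument

`T_p W ⊗ O` gives a point `pt` of every deformation ring whose condition it satisfies. At `pt` the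
universal representation is unramified at the good primes, has the Frobenius traces `a_ℓ(W)`, and
has type `same` at every bad `q ≠ p` whose site carries the sign of `W`.
-/

set_option autoImplicit false
set_option linter.style.haveILetI false

noncomputable section

open IsLocalRing Polynomial

namespace Fermat.Agent.Lifting

open Deformation (Mat matOf matOf_apply mapRep)
open Residual Fermat.Agent.Lifting.Algebra RT
open RT.LocalRing (cj)

local notation "ℚ̄" => AlgebraicClosure ℚ
local notation "Γℚ" => (AlgebraicClosure ℚ ≃ₐ[ℚ] AlgebraicClosure ℚ)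

/-- Extension of scalars along the identity changes nothing. -/
theorem isEquiv_baseChangeAlong_of_eq_id {k : Type} [Field k] (ρ : ResidualGaloisRep k)
    {f : k →+* k} (hf : f = RingHom.id k) : ρ.IsEquiv (ρ.baseChangeAlong f) := by
  let b := Module.finBasisOfFinrankEq k ρ.V ρ.finrank_eq
  let : Algebra k k := f.toAlgebra
  obtain ⟨e, he⟩ := Deformation.exists_equiv_of_matOf_eq ρ.ρ (ρ.baseChangeAlong f).ρ b
    (Algebra.TensorProduct.basis k b) (MonoidHom.ext fun τ => Matrix.ext fun i j =>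
      Eq.symm <| (congrFun (congrFun (Deformation.matOf_baseChange k ρ.ρ b
        (ρ.baseChangeAlong f).ρ (fun _ => rfl) τ) i) j).trans (RingHom.congr_fun hf _))
  exact ⟨⟨e, he⟩⟩

/-- The map of residue fields of the identity algebra is the identity. -/
theorem residueField_map_algebraMap_self (O : Type) [CommRing O] [IsLocalRing O] :
    ResidueField.map (algebraMap O O) = RingHom.id (ResidueField O) := by
  refine RingHom.ext fun x => ?_
  obtain ⟨a, rfl⟩ := residue_surjective x
  exact ResidueField.map_residue _ _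

variable {W : WeierstrassCurve ℤ} {p : ℕ} [hp : Fact p.Prime] (hΔ : W.Δ ≠ 0)
  {O : Type} [CommRing O] [IsLocalRing O] (φ : ℤ_[p] →+* O) (hφ : IsLocalHom φ)

/-- `pt` carries `ρR` to the point of the curve. -/
def IsRaisePoint {R : Type} [CommRing R] [IsLocalRing R] (ρR : GaloisRepAdic R) (pt : R →+* O) :
    Prop :=
  ∃ hpt : IsLocalHom pt, (ρR.baseChangeAlong pt hpt).IsEquiv (pointAlong hΔ φ hφ)

/-- The curve satisfies the flat condition, unramified outside its bad primes and `p`. -/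
theorem pointAlong_flatCondition [Finite (ResidueField O)] (hgood : W.IsGoodPrimeFor p)
    (S : Finset ℕ) (hpS : p ∈ S) (hS : ∀ q : ℕ, q.Prime → (q : ℤ) ∣ W.Δ → q ∈ S) :
    GaloisRep.flatCondition O p S (pointAlong hΔ φ hφ) :=
  ⟨pointAlong_detIsCyclotomic hΔ φ hφ, pointAlong_isFlatAt hΔ φ hφ hgood, fun q hq hqS =>
    pointAlong_isUnramifiedAt hΔ φ hφ hq (fun h => hqS (hS q hq h)) fun h => hqS (h ▸ hpS)⟩

/-- The curve satisfies the strict ordinary condition, unramified outside its bad primes and `p`. -/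
theorem pointAlong_strictOrdinaryCondition (hp2 : p ≠ 2) (hss : W.IsSemistableModel)
    (hbad : (p : ℤ) ∣ W.Δ) (S : Finset ℕ) (hpS : p ∈ S)
    (hS : ∀ q : ℕ, q.Prime → (q : ℤ) ∣ W.Δ → q ∈ S) :
    GaloisRep.strictOrdinaryCondition O p S (pointAlong hΔ φ hφ) :=
  ⟨pointAlong_detIsCyclotomic hΔ φ hφ, pointAlong_isStrictOrdinaryAt hΔ φ hφ hp2 hss hbad,
    fun q hq hqS =>
      pointAlong_isUnramifiedAt hΔ φ hφ hq (fun h => hqS (hS q hq h)) fun h => hqS (h ▸ hpS)⟩

set_option linter.overlappingInstances false in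
/-- **The curve gives a point** of every deformation ring whose condition it satisfies. -/
theorem exists_isRaisePoint [IsDomain O] [IsDiscreteValuationRing O]
    [IsAdicComplete (maximalIdeal O) O]
    (hp2 : p ≠ 2) (hirr : W.ModRepIsIrreducible p) (ψ : ZMod p →+* ResidueField O)
    {ρbar : ResidualGaloisRep (ResidueField O)}
    (hρbar : ρbar.IsEquiv ((torsRep W p hΔ).baseChangeAlong ψ))
    {𝒟 : ∀ ⦃A : Type⦄ [CommRing A] [IsLocalRing A] [Algebra O A], GaloisRepAdic A → Prop}
    (hx : 𝒟 (pointAlong hΔ φ hφ)) (D : GaloisRep.DeformationRingData O ρbar 𝒟) :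
    ∃ pt : D.R →ₐ[O] O, IsRaisePoint hΔ φ hφ D.ρ (pt : D.R →+* O) := by
  have hsurj : Function.Surjective (residue O ∘ algebraMap O O) := residue_surjective
  have hres : (pointAlong hΔ φ hφ).residual.IsEquiv
      (ρbar.baseChangeAlong (ResidueField.map (algebraMap O O))) := by
    obtain ⟨e₁⟩ := pointAlong_residual_isEquiv hΔ φ hφ hp2 hirr ψ
    obtain ⟨e₂⟩ := hρbar
    obtain ⟨e₃⟩ := isEquiv_baseChangeAlong_of_eq_id ρbar (residueField_map_algebraMap_self O)
    exact ⟨(e₁.trans e₂.symm).trans e₃⟩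
  obtain ⟨pt, h, -⟩ := D.universal O hsurj (pointAlong hΔ φ hφ) hx hres
  exact ⟨pt, h⟩

variable {hΔ φ hφ}

section Point

variable {R : Type} [CommRing R] [IsLocalRing R] {ρR : GaloisRepAdic R} {pt : R →+* O}
  (h : IsRaisePoint hΔ φ hφ ρR pt) (b : Module.Basis (Fin 2) R ρR.V)
include h

/-- The specialised matrices are those of the curve in some basis. -/
theorem IsRaisePoint.exists_basis :
    ∃ b' : Module.Basis (Fin 2) O (pointAlong hΔ φ hφ).V,
      ∀ g, (matOf ρR.ρ b g).map pt = matOf (pointAlong hΔ φ hφ).ρ b' g := by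
  obtain ⟨hpt, ⟨e⟩⟩ := h
  obtain ⟨c, hc⟩ := Deformation.exists_basis_baseChangeAlong ρR b pt hpt
  refine ⟨c.map e.toLinearEquiv, fun g => ?_⟩
  rw [Deformation.matOf_map_equiv _ _ c e.toLinearEquiv e.map_apply, hc]
  rfl

/-- Inertia at a good prime `q ≠ p` acts trivially. -/
theorem IsRaisePoint.map_inertia {q : ℕ} (hq : q.Prime) (hgood : W.IsGoodPrimeFor q) (hqp : q ≠ p)
    {A : ValuationSubring ℚ̄} (hA : A.LiesOverPrime q) {τ : Γℚ}
    (hτ : τ ∈ A.inertiaSubgroupIn ℚ) : (matOf ρR.ρ b τ).map pt = 1 := by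
  obtain ⟨b', hb'⟩ := h.exists_basis b
  rw [hb', RT.matOf_eq_one_iff]
  exact pointAlong_isUnramifiedAt hΔ φ hφ hq hgood hqp A hA τ hτ

/-- An inverse pair summing to the trace of inertia at a good `q ≠ p` specialises to `(1, 1)`. -/
theorem IsRaisePoint.map_eq_one_of_inertia [IsDomain O] {q : ℕ} (hq : q.Prime)
    (hgood : W.IsGoodPrimeFor q) (hqp : q ≠ p) {A : ValuationSubring ℚ̄}
    (hA : A.LiesOverPrime q) {τ : Γℚ} (hτ : τ ∈ A.inertiaSubgroupIn ℚ) {a a' : R}
    (htr : (matOf ρR.ρ b τ).trace = a + a') (hdet : a * a' = 1) : pt a = 1 := by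
  have h2 : pt a + pt a' = 2 := by
    rw [← map_add, ← htr, show pt (matOf ρR.ρ b τ).trace = ((matOf ρR.ρ b τ).map pt).trace from
      AddMonoidHom.map_trace pt.toAddMonoidHom _, h.map_inertia b hq hgood hqp hA hτ]
    simp [Matrix.trace_one]
  have h1 : pt a * pt a' = 1 := by rw [← map_mul, hdet, map_one]
  have h0 : (pt a - 1) * (pt a - 1) = 0 := by linear_combination pt a * h2 - h1
  exact sub_eq_zero.1 (mul_self_eq_zero.1 h0)

/-- The characteristic polynomial of Frobenius at a good `l ≠ p`. -/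
theorem IsRaisePoint.map_charpoly_frobenius {l : ℕ} (hl : l.Prime) (hlp : l ≠ p)
    (hgood : W.IsGoodPrimeFor l) {A : ValuationSubring ℚ̄} (hA : A.LiesOverPrime l) {σ : Γℚ}
    (hσ : A.IsFrobeniusAt σ l) :
    (LinearMap.charpoly (ρR.ρ σ)).map pt = X ^ 2 - C ((W.apOfModel l : O)) * X + C ((l : O)) := by
  obtain ⟨hpt, he⟩ := h
  rw [← RT.charpoly_adic_baseChangeAlong pt hpt, ← Density.adic_charpoly_eq_of_isEquiv he σ,
    pointAlong_charpoly_frobenius hΔ φ hφ hl hlp hgood hA hσ]

/-- The trace of Frobenius at a good `l ≠ p`. -/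
theorem IsRaisePoint.map_trace_frobenius {l : ℕ} (hl : l.Prime) (hlp : l ≠ p)
    (hgood : W.IsGoodPrimeFor l) {A : ValuationSubring ℚ̄} (hA : A.LiesOverPrime l) {σ : Γℚ}
    (hσ : A.IsFrobeniusAt σ l) : pt (matOf ρR.ρ b σ).trace = (W.apOfModel l : O) := by
  obtain ⟨b', hb'⟩ := h.exists_basis b
  rw [show pt (matOf ρR.ρ b σ).trace = ((matOf ρR.ρ b σ).map pt).trace from
    AddMonoidHom.map_trace pt.toAddMonoidHom _, hb', matOf_apply]
  have hc := pointAlong_charpoly_frobenius hΔ φ hφ hl hlp hgood hA hσ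
  rw [← LinearMap.charpoly_toMatrix ((pointAlong hΔ φ hφ).ρ σ) b', Matrix.charpoly_fin_two] at hc
  have := congrArg (fun P => Polynomial.coeff P 1) hc
  simp [coeff_X_pow, coeff_C] at this
  linear_combination this

/-- **Type `same`** at a bad `q ≠ p` whose site carries the sign of the curve. -/
theorem IsRaisePoint.isType_same (hss : W.IsSemistableModel) (σ : Site O) (hq : σ.q.Prime)
    (hqp : σ.q ≠ p) (hbad : (σ.q : ℤ) ∣ W.Δ) (T : RT.TamePair p σ.q) {z : ℤ}
    (hz : ∀ (A : ValuationSubring ℚ̄) (g : Γℚ), A.LiesOverPrime σ.q →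
      A.IsFrobeniusAt g σ.q → LinearMap.charpoly ((tatePoint W p hΔ).ρ g) =
        (X - C ((σ.q : ℤ_[p]) * (z : ℤ_[p]))) * (X - C ((z : ℤ_[p]))))
    (hsgn : σ.sgn = (z : O)) :
    σ.IsType .same ((matOf ρR.ρ b T.F).map pt, (matOf ρR.ρ b T.σ).map pt) := by
  obtain ⟨b₀, y, c, hF, hS⟩ := tatePoint_exists_frame hΔ hss hq hqp hbad T hz
  obtain ⟨b₁, hb₁⟩ := Deformation.exists_basis_baseChangeAlong (tatePoint W p hΔ) b₀ φ hφ
  obtain ⟨b', hb'⟩ := h.exists_basis b
  obtain ⟨u, hu⟩ := Deformation.exists_conj_of_basis (pointAlong hΔ φ hφ).ρ b₁ b'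
  have hconj : ∀ g, (matOf ρR.ρ b g).map pt =
      cj u ((LinearMap.toMatrix b₀ b₀ ((tatePoint W p hΔ).ρ g)).map φ) := fun g => by
    rw [hb', cj, show (LinearMap.toMatrix b₀ b₀ ((tatePoint W p hΔ).ρ g)).map φ =
      matOf (pointAlong hΔ φ hφ).ρ b₁ g from (DFunLike.congr_fun hb₁ g).symm, hu g,
      Units.mul_inv_cancel_right]
  have hs : (z : O) * z = 1 := hsgn ▸ σ.sgn_sq
  have hpow : ∀ n : ℕ, (!![1, φ c; 0, 1] : Mat O) ^ n = !![1, n * φ c; 0, 1] := by
    intro n
    induction n with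
    | zero => simp [Matrix.one_fin_two]
    | succ n ih =>
      rw [pow_succ, ih, Matrix.mul_fin_two]
      simp only [Nat.cast_succ]
      congr 1
      ring_nf
  have e1 : (!![(σ.q : ℤ_[p]) * z, y; 0, (z : ℤ_[p])]).map φ =
      (!![(σ.q : O) * z, φ y; 0, (z : O)] : Mat O) := by
    ext i j
    fin_cases i <;> fin_cases j <;> simp
  have e2 : (!![(1 : ℤ_[p]), c; 0, 1]).map φ = (!![1, φ c; 0, 1] : Mat O) := by
    ext i j
    fin_cases i <;> fin_cases j <;> simp
  suffices hI : σ.IsType .same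
      ((!![(σ.q : O) * z, φ y; 0, (z : O)] : Mat O), (!![1, φ c; 0, 1] : Mat O)) by
    have hc := isType_cj u hI
    rw [hconj, hconj, hF, hS, e1, e2]
    exact hc
  refine ⟨?_, ?_, ?_, ?_, ?_⟩
  · rw [Matrix.det_fin_two_of]
    linear_combination (σ.q : O) * hs
  · rw [hpow, Matrix.mul_fin_two, Matrix.mul_fin_two]
    ext i j
    fin_cases i <;> fin_cases j <;> simp <;> ring
  · simp [Matrix.det_fin_two_of]
  · simp [Matrix.trace_fin_two]
    norm_num
  · show _ = algebraMap O O σ.sgn * _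
    rw [hsgn, Matrix.trace_fin_two]
    simp
    ring

/-- The same for the framed conjugates at any evaluation over `pt`. -/
theorem IsRaisePoint.isType_same_frame {s : ℕ} (ev : MvPowerSeries (FrameVar s) R →+* O)
    (hev : ∀ x, ev (algebraMap R _ x) = pt x) (i : Fin s)
    (hss : W.IsSemistableModel) (σ : Site O) (hq : σ.q.Prime)
    (hqp : σ.q ≠ p) (hbad : (σ.q : ℤ) ∣ W.Δ) (T : RT.TamePair p σ.q) {z : ℤ}
    (hz : ∀ (A : ValuationSubring ℚ̄) (g : Γℚ), A.LiesOverPrime σ.q →
      A.IsFrobeniusAt g σ.q → LinearMap.charpoly ((tatePoint W p hΔ).ρ g) =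
        (X - C ((σ.q : ℤ_[p]) * (z : ℤ_[p]))) * (X - C ((z : ℤ_[p]))))
    (hsgn : σ.sgn = (z : O)) :
    σ.IsType .same ((frameConj R s i (matOf ρR.ρ b T.F)).map ev,
      (frameConj R s i (matOf ρR.ρ b T.σ)).map ev) := by
  obtain ⟨u, hu⟩ := RT.Assembly.map_frameConj ev pt hev i
  have hc := isType_cj u (h.isType_same b hss σ hq hqp hbad T hz hsgn)
  rw [hu, hu]
  exact hc

/-- **Type `same`** at the site of the curve. -/
theorem IsRaisePoint.isType_same_curveSite {ψ : ZMod p →+* ResidueField O} {q : ℕ}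
    {hq : q.Prime} {hqp : q ≠ p} {T : RT.TamePair p q}
    {bbar : Module.Basis (Fin 2) (ResidueField O) ((torsRep W p hΔ).baseChangeAlong ψ).V}
    (S : CurveSite hΔ φ hφ ψ hq hqp T bbar) :
    S.site.IsType .same ((matOf ρR.ρ b T.F).map pt, (matOf ρR.ρ b T.σ).map pt) := by
  obtain ⟨b', hb'⟩ := h.exists_basis b
  obtain ⟨u, hu⟩ := Deformation.exists_conj_of_basis (pointAlong hΔ φ hφ).ρ S.basis b'
  have hc := isType_cj u S.isType_same_centre
  have e : ∀ g, (matOf ρR.ρ b g).map pt = cj u (matOf (pointAlong hΔ φ hφ).ρ S.basis g) :=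
    fun g => by rw [hb', cj, hu g, Units.mul_inv_cancel_right]
  rw [S.centre_eq] at hc
  rw [e, e]
  exact hc

/-- The same for the framed conjugates at any evaluation over `pt`. -/
theorem IsRaisePoint.isType_same_curveSite_frame {s : ℕ}
    (ev : MvPowerSeries (FrameVar s) R →+* O) (hev : ∀ x, ev (algebraMap R _ x) = pt x) (i : Fin s)
    {ψ : ZMod p →+* ResidueField O} {q : ℕ} {hq : q.Prime} {hqp : q ≠ p} {T : RT.TamePair p q}
    {bbar : Module.Basis (Fin 2) (ResidueField O) ((torsRep W p hΔ).baseChangeAlong ψ).V}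
    (S : CurveSite hΔ φ hφ ψ hq hqp T bbar) :
    S.site.IsType .same ((frameConj R s i (matOf ρR.ρ b T.F)).map ev,
      (frameConj R s i (matOf ρR.ρ b T.σ)).map ev) := by
  obtain ⟨u, hu⟩ := RT.Assembly.map_frameConj ev pt hev i
  have hc := isType_cj u (h.isType_same_curveSite b S)
  rw [hu, hu]
  exact hc

end Point

/-- The evaluation of a presentation at the trivial frame over `pt`: it is small, and its value at
the `(i, e)` block is the specialised matrix minus the chosen lift. -/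
theorem exists_eval_of_presentation {R : Type} [CommRing R] [IsLocalRing R] [Algebra O R]
    (pt : R →ₐ[O] O) [IsLocalHom (pt : R →+* O)] {s g : ℕ}
    (Φ : MvPowerSeries (LocVar s ⊕ Fin g) O →ₐ[O] MvPowerSeries (FrameVar s) R)
    (hΦs : Function.Surjective Φ) (M : Fin s → Fin 2 → Mat R) (lift0 : Fin s → Fin 2 → Mat O)
    (hΦ : ∀ i e a c, Φ (MvPowerSeries.X (Sum.inl (i, e, a, c))) =
      frameConj R s i (M i e) a c -
        algebraMap O (MvPowerSeries (FrameVar s) R) (lift0 i e a c)) :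
    ∃ F : MvPowerSeries (LocVar s ⊕ Fin g) O →ₐ[O] O,
      (∀ f, F f = pt (MvPowerSeries.constantCoeff (Φ f))) ∧
      (∀ v, F (MvPowerSeries.X v) ∈ maximalIdeal O) ∧
      ∀ i e, (Matrix.of fun a c => F (MvPowerSeries.X (Sum.inl (i, e, a, c)))) + lift0 i e =
        (M i e).map pt := by
  let ev : MvPowerSeries (FrameVar s) R →+* O :=
    (pt : R →+* O).comp MvPowerSeries.constantCoeff
  have hev : ∀ x, ev (algebraMap R _ x) = pt x := fun x => by
    simp [ev, MvPowerSeries.algebraMap_apply]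
  have hO : ∀ x : O, ev (Φ (algebraMap O _ x)) = x := fun x => by
    rw [Φ.commutes, IsScalarTower.algebraMap_apply O R (MvPowerSeries (FrameVar s) R), hev,
      pt.commutes]
    rfl
  let F : MvPowerSeries (LocVar s ⊕ Fin g) O →ₐ[O] O :=
    { (ev.comp Φ.toRingHom) with commutes' := hO }
  refine ⟨F, fun f => rfl, fun v => ?_, fun i e => ?_⟩
  · have hm : (MvPowerSeries.X v : MvPowerSeries (LocVar s ⊕ Fin g) O) ∈
        maximalIdeal (MvPowerSeries (LocVar s ⊕ Fin g) O) := by
      rw [mem_maximalIdeal_mvPowerSeries, MvPowerSeries.constantCoeff_X]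
      exact zero_mem _
    have : IsLocalHom (Φ : MvPowerSeries (LocVar s ⊕ Fin g) O →+* MvPowerSeries (FrameVar s) R) :=
      IsLocalHom.of_surjective _ hΦs
    have hy := map_nonunit
      (Φ : MvPowerSeries (LocVar s ⊕ Fin g) O →+* MvPowerSeries (FrameVar s) R) _ hm
    rw [mem_maximalIdeal_mvPowerSeries] at hy
    exact map_nonunit (pt : R →+* O) _ hy
  · have hY : (frameY R s i).map ev = 0 := by
      refine Matrix.ext fun a c => ?_
      rw [Matrix.map_apply, frameY, Matrix.of_apply]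
      split <;> simp [ev]
    have h1 : (1 + frameY R s i).map ev = 1 := by
      rw [Matrix.map_add _ (map_add ev), Matrix.map_one _ (map_zero ev) (map_one ev), hY, add_zero]
    have h2 : (frameConj R s i (M i e)).map ev = (M i e).map pt := by
      have h3 := congrArg (fun N => N.map ev) (frameConj_mul R s i (M i e))
      simp only [Matrix.map_mul, h1, mul_one, one_mul] at h3
      rw [h3, Matrix.map_map]
      exact Matrix.ext fun a c => hev _
    refine Matrix.ext fun a c => ?_
    rw [← h2, Matrix.add_apply, Matrix.of_apply, Matrix.map_apply]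
    show ev (Φ _) + _ = _
    rw [hΦ, map_sub, IsScalarTower.algebraMap_apply O R (MvPowerSeries (FrameVar s) R), hev,
      pt.commutes]
    exact sub_add_cancel _ _

end Fermat.Agent.Lifting
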