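import Fermat.Agent.BadPrime.Conductor
import Fermat.Agent.BadPrime.TateRep
import Fermat.Prelude.Def_WeierstrassCurve_Mlc1RowStatement

/-!
# Conductor-level matching from a squarefree level

Only the behaviour of newform representations at a prime dividing the level once is used.
-/

set_option autoImplicit false
set_option linter.style.haveILetI false

open CongruenceSubgroup ModularFormClass

namespace Fermat.Agent.Lifting

/-- A semistable curve modular at a squarefree level containing its bad primes is modular at its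
conductor level. -/
theorem conductorLevel_of_squarefree (h35 : BadPrime.NewformMultRep) {W : WeierstrassCurve ℤ}
    (hΔ : W.Δ ≠ 0) (hW : W.IsSemistableModel) {N : ℕ} (hsq : Squarefree N)
    (hmod : W.IsModularModelOfLevel N)
    (hbad : ∀ ℓ : ℕ, ℓ.Prime → (ℓ : ℤ) ∣ W.Δ → ℓ ∣ N) :
    W.IsModularModelOfLevel W.conductorLevel := by
  have hN0 : N ≠ 0 := hsq.ne_zero
  haveI : NeZero N := ⟨hN0⟩
  have hT : ∀ lam : ℕ, [Fact lam.Prime] → BadPrime.HasTateRep W lam := fun lam _ =>
    BadPrime.hasTateRep W lam hΔ hW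
  obtain ⟨f, hf, hfa⟩ := hmod
  obtain ⟨M, g, hMN, hg, hgf⟩ := BadPrime.exists_newform_of_eigenform hN0 hf
  haveI : NeZero M := ⟨fun h => hN0 (Nat.eq_zero_of_zero_dvd (h ▸ hMN))⟩
  have hga : ∀ ℓ : ℕ, ℓ.Prime → ¬ ℓ ∣ N → qCoeff g ℓ = (W.apOfModel ℓ : ℂ) := fun ℓ hℓ hℓN =>
    (hgf ℓ hℓ hℓN).trans (hfa ℓ hℓ (fun h => hℓN (hbad ℓ hℓ h)) hℓN)
  have hMsq : Squarefree M := hsq.squarefree_of_dvd hMN
  have hbadM : ∀ q : ℕ, q.Prime → q ∣ M → (q : ℤ) ∣ W.Δ := fun q hq hqM => by
    by_contra hgood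
    have h := BadPrime.good_not_dvd_once h35 hT hN0 hbad hMN hg hga hq hqM hgood
    rw [pow_two] at h
    exact hq.ne_one (Nat.isUnit_iff.1 (hMsq q h))
  have hMR : M ∣ W.conductorLevel := by
    rw [← Nat.factorization_le_iff_dvd (NeZero.ne M) (NeZero.ne W.conductorLevel), Finsupp.le_iff]
    intro q hq
    have hq' : q.Prime := Nat.prime_of_mem_primeFactors hq
    exact ((Nat.squarefree_iff_factorization_le_one (NeZero.ne M)).1 hMsq q).trans
      ((hq'.dvd_iff_one_le_factorization (NeZero.ne W.conductorLevel)).mp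
        ((W.prime_dvd_conductorLevel_iff hΔ hq').mpr (hbadM q hq' (Nat.dvd_of_mem_primeFactors hq))))
  obtain ⟨f', hf', hf'g⟩ := BadPrime.exists_eigenform_level_of_dvd hMR hg.1
  refine ⟨f', hf', fun q hq hgood hqR => ?_⟩
  rw [hf'g q hq hqR]
  exact BadPrime.qCoeff_eq_apOfModel h35 hT hN0 hbad hMN hg hga hq (fun h => hqR (h.trans hMR))
    hgood

/-- The exact conductor level from a squarefree modular level containing the bad primes. -/
theorem exactConductorLevel_of_squarefree (h35 : BadPrime.NewformMultRep) {W : WeierstrassCurve ℤ}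
    (hΔ : W.Δ ≠ 0) (hW : W.IsSemistableModel) {N : ℕ} (hsq : Squarefree N)
    (hmod : W.IsModularModelOfLevel N)
    (hbad : ∀ ℓ : ℕ, ℓ.Prime → (ℓ : ℤ) ∣ W.Δ → ℓ ∣ N) :
    Mlc1IsModularModelOfExactConductorLevel W :=
  ⟨W.conductorLevel, W.conductorLevel_pos, W.squarefree_conductorLevel,
    fun _ hq => W.prime_dvd_conductorLevel_iff hΔ hq,
    conductorLevel_of_squarefree h35 hΔ hW hsq hmod hbad⟩

end Fermat.Agent.Lifting
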