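import Fermat.Agent.Lifting.Squarefree.Contracts
import Fermat.Agent.Lifting.Squarefree.Conductor
import Fermat.Agent.Endgame.Final

/-!
# Modularity of the curves with square discriminant, multiplicative at `2`

Residual modularity at `3`, the adjusted switch, and lifting at `3` and at `5` from squarefree
levels give exact conductor-level modularity of a semistable curve with square discriminant and
multiplicative reduction at `2`, in particular of the Frey curve.
-/

set_option autoImplicit false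

open WeierstrassCurve

namespace Fermat.Agent.Lifting

/-- Lifting from a squarefree residual level. -/
theorem exactConductorLevel_of_residual (hbase : RaisingBaseExists) (hlift : LiftFromRaisingBase)
    (h35 : BadPrime.NewformMultRep) {p : ℕ} (hp : p = 3 ∨ p = 5) {W : WeierstrassCurve ℤ}
    (hΔ : W.Δ ≠ 0) (hW : W.IsSemistableModel) (hirr : W.ModRepIsIrreducible p)
    (hlift' : IsLiftableAt W p) {M : ℕ} (hM : 0 < M) (hsq : Squarefree M)
    (hres : W.IsResiduallyModularOfLevel p M) (hgood : W.IsGoodPrimeFor p → ¬ p ∣ M)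
    (hextra : ∀ q : ℕ, q.Prime → q ∣ M → W.IsGoodPrimeFor q → q ≠ p → 5 ≤ q) :
    Mlc1IsModularModelOfExactConductorLevel W := by
  obtain ⟨L, hL⟩ := hbase p hp W hΔ hW hirr hlift' M hM hsq hres hgood hextra
  obtain ⟨N, hN, hbad, hmod⟩ := hlift p hp W hΔ hW hirr hlift'.raisable L hL
  exact exactConductorLevel_of_squarefree h35 hΔ hW hN hmod hbad

/-- Lifting at `3` for a curve liftable there. -/
theorem exactConductorLevel_three (h3 : Endgame.SquarefreeModularAtThree)
    (hbase : RaisingBaseExists) (hlift : LiftFromRaisingBase) (h35 : BadPrime.NewformMultRep)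
    {W : WeierstrassCurve ℤ} (hΔ : W.Δ ≠ 0) (hW : W.IsSemistableModel)
    (hW3 : IsLiftableAt W 3) (hirr : W.ModRepIsIrreducible 3) :
    Mlc1IsModularModelOfExactConductorLevel W := by
  obtain ⟨M, hM, hsq, hres, hgood⟩ := h3 W hΔ hW (hW3.two_dvd rfl) hirr
  refine exactConductorLevel_of_residual hbase hlift h35 (Or.inl rfl) hΔ hW hirr hW3 hM hsq hres
    hgood fun q hq hqM hg hq3 => ?_
  have hq2 : q ≠ 2 := by rintro rfl; exact hg (by exact_mod_cast hW3.two_dvd rfl)
  have hq4 : q ≠ 4 := by rintro rfl; exact absurd hq (by norm_num)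
  have := hq.two_le
  omega

/-- Exact conductor-level modularity for square discriminant and multiplicative reduction at
`2`. -/
theorem exactConductorLevel_of_square (h3 : Endgame.SquarefreeModularAtThree)
    (hsw : AdjustedSwitch) (h5 : FiveIrreducibleOfSquare)
    (hbase : RaisingBaseExists) (hlift : LiftFromRaisingBase) (h35 : BadPrime.NewformMultRep)
    {W : WeierstrassCurve ℤ} (hΔ : W.Δ ≠ 0) (hW : W.IsSemistableModel) (h2 : (2 : ℤ) ∣ W.Δ)
    (hsquare : IsSquare W.Δ) :
    Mlc1IsModularModelOfExactConductorLevel W := by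
  have hirr5 := h5 W hΔ hsquare
  obtain ⟨W', hΔ', hW', hW'3, hirr3, hgood3, hgood5, hcong⟩ := hsw W hΔ hW h2 hirr5
  obtain ⟨N, hN, hsq, hsupp, f, hf, hap⟩ :=
    exactConductorLevel_three h3 hbase hlift h35 hΔ' hW' hW'3 hirr3
  obtain ⟨𝔪, hmax, hpm⟩ := FLTPrelim.exists_maximalIdeal_natCast_prime_mem Nat.prime_five
  have hres : W.IsResiduallyModularOfLevel 5 N := by
    refine ⟨f, 𝔪, hf, hmax, hpm, fun ℓ hℓ hg hℓN hℓp => ?_⟩
    have hg' : W'.IsGoodPrimeFor ℓ := fun hd => hℓN ((hsupp ℓ hℓ).2 hd)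
    refine ⟨((W'.apOfModel ℓ : ℤ) : integralClosure ℤ ℂ), ?_, ?_⟩
    · rw [hap ℓ hℓ hg' hℓN]
      simp
    · obtain ⟨k, hk⟩ := hcong ℓ hℓ hg hg' hℓp
      rw [← Int.cast_sub, hk, Int.cast_mul]
      exact 𝔪.mul_mem_right _ (by exact_mod_cast hpm)
  refine exactConductorLevel_of_residual hbase hlift h35 (Or.inr rfl) hΔ hW hirr5
    ⟨Or.inl h2, fun h => absurd h (by norm_num)⟩ hN hsq hres
    (fun hg hd => hgood5 hg ((hsupp 5 Nat.prime_five).1 hd)) fun q hq hqN hg hq5 => ?_
  have hq2 : q ≠ 2 := by rintro rfl; exact hg (by exact_mod_cast h2)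
  have hq3 : q ≠ 3 := by rintro rfl; exact hgood3 hg ((hsupp 3 Nat.prime_three).1 hqN)
  have hq4 : q ≠ 4 := by rintro rfl; exact absurd hq (by norm_num)
  have := hq.two_le
  omega

end Fermat.Agent.Lifting
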