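import Fermat.Agent.Lifting.Squarefree.PointKill

/-!
# Pairs of equivalent representations

* `exists_cj_of_isEquiv`, `exists_cj_map_of_isEquiv`: equivalent representations have conjugate
  matrices;
* `basePred_cj`, `cokerPred_cj`: the predicates of the raising input are invariant under
  conjugation site by site.
-/

set_option autoImplicit false
set_option linter.unusedSectionVars false
set_option linter.style.haveILetI false

noncomputable section

open IsLocalRing
open Fermat.Agent.Deformation (matOf matOf_map_equiv exists_conj_of_basis matOf_baseChange)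

namespace Fermat.Agent.Lifting

open Lifting.Algebra RT.LocalRing Patching

local notation "Γℚ" => (AlgebraicClosure ℚ ≃ₐ[ℚ] AlgebraicClosure ℚ)

section Conj

variable {V : Type} [CommRing V] [IsLocalRing V]

/-- Equivalent representations have conjugate matrices. -/
theorem exists_cj_of_isEquiv {ρ ρ' : GaloisRepAdic V} (h : ρ.IsEquiv ρ')
    (b : Module.Basis (Fin 2) V ρ.V) (b' : Module.Basis (Fin 2) V ρ'.V) :
    ∃ u : (Mat V)ˣ, ∀ τ : Γℚ, matOf ρ'.ρ b' τ = cj u (matOf ρ.ρ b τ) := by
  obtain ⟨e⟩ := h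
  obtain ⟨u, hu⟩ := exists_conj_of_basis ρ'.ρ (b.map e.toLinearEquiv) b'
  refine ⟨u, fun τ => ?_⟩
  have h1 := hu τ
  rw [matOf_map_equiv ρ.ρ ρ'.ρ b e.toLinearEquiv e.map_apply] at h1
  rw [cj, h1, mul_assoc, Units.mul_inv, mul_one]

/-- A representation equivalent to a base change has the image matrices up to conjugation. -/
theorem exists_cj_map_of_isEquiv {A : Type} [CommRing A] [IsLocalRing A] {φ : A →+* V}
    {hφ : IsLocalHom φ} {ρ : GaloisRepAdic A} {ρV : GaloisRepAdic V}
    (h : ρV.IsEquiv (ρ.baseChangeAlong φ hφ)) (b : Module.Basis (Fin 2) A ρ.V)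
    (bV : Module.Basis (Fin 2) V ρV.V) :
    ∃ u : (Mat V)ˣ, ∀ τ : Γℚ, (matOf ρ.ρ b τ).map φ = cj u (matOf ρV.ρ bV τ) := by
  letI : _root_.Algebra A V := φ.toAlgebra
  obtain ⟨u, hu⟩ := exists_cj_of_isEquiv h bV (Algebra.TensorProduct.basis V b)
  exact ⟨u, fun τ => (matOf_baseChange V ρ.ρ b _ (fun σ => rfl) τ).symm.trans (hu τ)⟩

end Conj

variable {O : Type} [CommRing O] [IsDomain O] [IsDiscreteValuationRing O]
  [IsAdicComplete (maximalIdeal O) O] [Finite (ResidueField O)] [CharZero O]
  {J : Type} [Finite J] {g m : ℕ} {V : Type} [CommRing V] [Algebra O V]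
  (Z : Patching.RaiseData O J g m)

/-- `BasePred` is invariant under conjugation. -/
theorem basePred_cj {P P' : J → Mat V × Mat V} (u : J → (Mat V)ˣ)
    (hP' : ∀ j, P' j = (cj (u j) (P j).1, cj (u j) (P j).2)) (h : Z.BasePred P) :
    Z.BasePred P' := fun j => by
  obtain ⟨h1, h2⟩ := h j
  refine ⟨fun hj => ?_, fun hj => ?_⟩ <;> rw [hP' j]
  · exact isType_cj (u j) (h1 hj)
  · exact (h2 hj).imp (isType_cj (u j)) (isType_cj (u j))

/-- `CokerPred` is invariant under conjugation. -/
theorem cokerPred_cj {P P' : J → Mat V × Mat V} (u : J → (Mat V)ˣ)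
    (hP' : ∀ j, P' j = (cj (u j) (P j).1, cj (u j) (P j).2)) (k : Fin m) (h : Z.CokerPred k P) :
    Z.CokerPred k P' := by
  refine ⟨fun j => ?_, ?_⟩ <;> rw [hP']
  · exact isLocalPair_cj (u j) (h.1 j)
  · exact h.2.imp (isType_cj (u _)) (isType_cj (u _))

end Fermat.Agent.Lifting

end
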