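import Fermat.Agent.Lifting.Squarefree.RaiseData
import Fermat.Agent.RT.TWIteration
import Fermat.Agent.Deformation.Matrix

/-!
# The auxiliary primes of the nodes

At the auxiliary level and at Taylor–Wiles primes outside the excluded set the curve has good
reduction and `a_q² ≢ (q + 1)²` modulo `p`.
-/

set_option autoImplicit false

noncomputable section

open IsLocalRing Polynomial
open Fermat.Agent.Deformation (matOf matOf_apply)

namespace Fermat.Agent.Lifting.RaiseData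

local notation "ℚ̄" => AlgebraicClosure ℚ

variable {W : WeierstrassCurve ℤ} {hΔ : W.Δ ≠ 0} {p L : ℕ} [Fact p.Prime] {O : Type}
  [CommRing O] [IsDomain O] [IsDiscreteValuationRing O] [IsAdicComplete (maximalIdeal O) O]
  [Finite (ResidueField O)] [CharZero O] (X : RaiseData W hΔ p L O)

theorem r₀_ne_zero : X.r₀ ≠ 0 := fun h => X.squarefree.ne_zero (by rw [h, mul_zero])

/-- At a Taylor–Wiles prime outside the excluded set `a_q² ≢ (q + 1)²`. -/
theorem sq_ne_of_isTWPrime (bbar : Module.Basis (Fin 2) (ResidueField O) (raiseRep hΔ X.ι).V)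
    {n q : ℕ} (hn : 0 < n) (hS : q ∉ raiseExcluded W p X.r₀)
    (hq : RT.IsTWPrime (matOf (raiseRep hΔ X.ι).ρ bbar).toHomUnits p n q) :
    q.Prime ∧ q ≠ p ∧ W.IsGoodPrimeFor q ∧ ¬ q ∣ L ∧
      ¬ (p : ℤ) ∣ W.apOfModel q ^ 2 - ((q : ℤ) + 1) ^ 2 := by
  obtain ⟨hq', hqp, hdvd, hloc⟩ := hq
  obtain ⟨-, hgood, -⟩ := (not_mem_raiseExcluded_iff hΔ X.r₀_ne_zero hq').1 hS
  refine ⟨hq', hqp, hgood, fun h => hS (X.level_mem q hq' (h.mul_right _)), fun h => ?_⟩
  obtain ⟨A, σ, hA, hσ⟩ := Galois.exists_valuationSubring_isFrobeniusAt hq'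
  have hch := X.charpoly_frob q hq' hS A hA σ hσ
  rw [← LinearMap.charpoly_toMatrix ((raiseRep hΔ X.ι).ρ σ) bbar, Matrix.charpoly_fin_two,
    ← matOf_apply] at hch
  have htr : (matOf (raiseRep hΔ X.ι).ρ bbar σ).trace = X.a ⟨q, hq'⟩ := by
    have := congrArg (fun P => P.coeff 1) hch
    simpa [coeff_X_pow, coeff_X, coeff_C] using this
  refine ((hloc A hA).2 σ hσ).2 ?_
  show (matOf (raiseRep hΔ X.ι).ρ bbar σ).trace ^ 2 = 4
  rw [htr, X.a_eq ⟨q, hq'⟩ hS]
  have hp0 : (p : ResidueField O) = 0 := by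
    rw [← map_natCast (residue O), residue_eq_zero_iff]
    exact X.hpO
  obtain ⟨k, hk⟩ := (dvd_pow_self p hn.ne').trans hdvd
  have hq1 : (q : ResidueField O) = 1 := by
    have e : q = p * k + 1 := by have := hq'.one_lt; omega
    rw [e, Nat.cast_add, Nat.cast_mul, hp0, zero_mul, zero_add, Nat.cast_one]
  obtain ⟨d, hd⟩ := h
  have e := congrArg (Int.cast : ℤ → ResidueField O) hd
  push_cast at e
  rw [hp0, hq1, zero_mul, sub_eq_zero] at e
  rw [Minimal.residualSystem, e]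
  norm_num

/-- The primes of the auxiliary level are good and `a_q² ≢ (q + 1)²` there. -/
theorem sq_ne_of_dvd_r₀ {q : ℕ} (hq : q.Prime) (hqr : q ∣ X.r₀) :
    q.Prime ∧ q ≠ p ∧ W.IsGoodPrimeFor q ∧ ¬ q ∣ L ∧
      ¬ (p : ℤ) ∣ W.apOfModel q ^ 2 - ((q : ℤ) + 1) ^ 2 := by
  obtain ⟨h1, h2, h3, h4⟩ := X.aux q hq hqr
  refine ⟨hq, h1, h2, h3, fun h => h4 ?_⟩
  rw [← ZMod.intCast_zmod_eq_zero_iff_dvd] at h
  push_cast at h
  exact sub_eq_zero.1 h

end Fermat.Agent.Lifting.RaiseData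

end
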