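import Fermat.Agent.Lifting.Squarefree.BaseRaise
import Fermat.Agent.Lifting.Squarefree.NodeExcluded
import Fermat.Agent.RT.Assembly.Untwist

/-!
# The base prime in the exact level of a base node

`RaiseData.dvd_exactLevel`: at a level made of the base, auxiliary primes and the cover level, a
prime `q ≠ p` of the base divides the exact level of every system congruent to the curve.
-/

set_option autoImplicit false

noncomputable section

open IsLocalRing

namespace Fermat.Agent.Lifting.RaiseData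

open RT.TW RT.Assembly

variable {W : WeierstrassCurve ℤ} {hΔ : W.Δ ≠ 0} {p L₀ : ℕ} [Fact p.Prime] {O : Type}
  [CommRing O] [IsDomain O] [IsDiscreteValuationRing O] [IsAdicComplete (maximalIdeal O) O]
  [Finite (ResidueField O)] [CharZero O] (X : RaiseData W hΔ p L₀ O)

/-- A prime `q ≠ p` of the base divides the exact level at a base node. -/
theorem dvd_exactLevel (hS29 : RT.EigenformResidualRep) (h35 : BadPrime.NewformMultRep)
    (htres : TresPrimeInLevel) (hord : OrdinaryTpFive) (hp : p = 3 ∨ p = 5)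
    (hW : W.IsSemistableModel) (hirr : W.ModRepIsIrreducible p) (hlift : IsRaisableAt W p)
    (hb : IsRaisingBase W p L₀) (Q : Finset ℕ)
    (hQ : ∀ r ∈ Q, r.Prime ∧ r ≠ p ∧ W.IsGoodPrimeFor r ∧
      ¬ (p : ℤ) ∣ W.apOfModel r ^ 2 - ((r : ℤ) + 1) ^ 2)
    (hr₀Q : ∀ r : ℕ, r.Prime → r ∣ X.r₀ → r ∈ Q)
    {V : Type} [CommRing V] [IsDomain V] [IsDiscreteValuationRing V]
    [IsAdicComplete (maximalIdeal V) V] [Finite (ResidueField V)] [CharZero V] [Algebra O V]
    [IsLocalHom (algebraMap O V)] {N L L' : ℕ} (hNL : N ∣ L) (hsq : Squarefree L)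
    (hr₀L : X.r₀ ∣ L) (hLQ : ∀ r : ℕ, r.Prime → r ∣ L → r ∣ L₀ ∨ r ∈ Q)
    (hN : ∀ r : ℕ, r.Prime → r ∣ N → r ∈ Q)
    (θ : MulChar (ZMod N) V) (hθ : ∀ u : (ZMod N)ˣ, residue V (θ u) = 1)
    (S : Finset ℕ) (hS : ∀ l : ℕ, l.Prime → l ∣ L → l ∈ S)
    (hXS : raiseExcluded W p X.r₀ ⊆ S) (c : Nat.Primes → V)
    (hc : ∀ ℓ : Nat.Primes, (ℓ : ℕ) ∉ S →
      residue V (c ℓ) = ResidueField.map (algebraMap O V) (X.a ℓ))
    {q : ℕ} (hq : q.Prime) (hqp : q ≠ p) (hq₀ : q ∣ L₀) (hqL : q ∣ L)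
    (hex : IsExactLevel θ S c L L') : q ∣ L' := by
  have hpV : (p : V) ∈ maximalIdeal V := by
    rw [← map_natCast (algebraMap O V)]
    exact map_nonunit _ _ X.hpO
  have hcov : CoverHyp V (L / q) := by
    rcases X.cover with h | ⟨r, hr, hrr, h12⟩
    · exact Or.inl ((map_ofNat (algebraMap O V) 24) ▸ h.map (algebraMap O V))
    · refine Or.inr ⟨isUnit_two_of_mem X.hp2 hpV, Or.inr ⟨r, hr, ?_, h12⟩⟩
      have hne : r ≠ q := fun h =>
        (X.aux r hr hrr).2.2.1 (h ▸ hq₀)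
      obtain ⟨L₁, hL₁⟩ := hqL
      rw [hL₁, Nat.mul_div_cancel_left _ hq.pos]
      exact ((Nat.coprime_primes hr hq).2 hne).dvd_of_dvd_mul_left (hL₁ ▸ hrr.trans hr₀L)
  refine hb.dvd_exactLevel hS29 h35 htres hord hp hΔ hW hirr hlift hpV hNL hsq θ hθ S hS c
    (fun ℓ hℓ => ?_) Q hLQ hN hQ hq hqp hq₀ hqL hcov hex
  rw [hc ℓ hℓ, X.a_eq ℓ fun h => hℓ (hXS h), Minimal.residualSystem, map_intCast]

end Fermat.Agent.Lifting.RaiseData

end
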