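import Fermat.Agent.Lifting.Squarefree.NewformSystem
import Fermat.Agent.Lifting.Residual.AuxPrime
import Fermat.Agent.RT.Assembly.Points
import Fermat.Agent.RT.TW.ResidualClass
import Fermat.Agent.RT.TW.EigenLift

/-!
# Minimality of the base excludes old systems

* `noOldAt_of_minimal`: at a level with a prime `q` removed, a system congruent to the curve with
  a residually trivial twist gives a residual newform of level dividing it, prime to the primes
  at which `a_r² ≢ (r + 1)²`. When there is none, no old system occurs at `q`.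
* `not_residualNewformAt_base`: there is none when `L` is a raising base times such primes.
* `dvd_exactLevel_base`: so a prime `q ≠ p` of the base divides the exact level of every system
  congruent to the curve.
-/

set_option autoImplicit false

noncomputable section

open IsLocalRing

namespace Fermat.Agent.Lifting

open RT.TW RT.Assembly

variable {W : WeierstrassCurve ℤ} {p : ℕ} [Fact p.Prime]

/-- No system congruent to `W` occurs with `q` removed from the level when there is no residual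
newform there. -/
theorem noOldAt_of_minimal (hS29 : RT.EigenformResidualRep) (h35 : BadPrime.NewformMultRep)
    (hΔ : W.Δ ≠ 0) (hp2 : p ≠ 2) (hirr : W.ModRepIsIrreducible p)
    {V : Type} [CommRing V] [IsDomain V] [IsDiscreteValuationRing V]
    [IsAdicComplete (maximalIdeal V) V] [Finite (ResidueField V)] [CharZero V]
    (hpV : (p : V) ∈ maximalIdeal V) {N L : ℕ} (hNL : N ∣ L) (hsq : Squarefree L)
    (θ : MulChar (ZMod N) V) (hθ : ∀ u : (ZMod N)ˣ, residue V (θ u) = 1)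
    (S : Finset ℕ) (hS : ∀ l : ℕ, l.Prime → l ∣ L → l ∈ S) (c : Nat.Primes → V)
    (hc : ∀ ℓ : Nat.Primes, (ℓ : ℕ) ∉ S →
      residue V (c ℓ) = ((W.apOfModel ℓ : ℤ) : ResidueField V))
    (Q : Finset ℕ) (hQ : ∀ r ∈ Q, r.Prime ∧ r ≠ p ∧ W.IsGoodPrimeFor r ∧
      ¬ (p : ℤ) ∣ W.apOfModel r ^ 2 - ((r : ℤ) + 1) ^ 2)
    {q : ℕ} (hqL : q ∣ L) (hcov : CoverHyp V (L / q))
    (hmin : ∀ L2 : ℕ, L2 ∣ L / q → (∀ r ∈ Q, ¬ r ∣ L2) → ¬ ResidualNewformAt W p L2) :
    NoOldAt θ S c L q := by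
  intro N' hN' θ' hθ' h
  rw [eq_bot_iff]
  intro y hy
  rw [Submodule.mem_bot]
  by_contra hy0
  rw [mem_twSystem_iff] at hy
  have hp : p.Prime := Fact.out
  have hL0 : L ≠ 0 := hsq.ne_zero
  have hN0 : N ≠ 0 := fun h0 => hL0 (by simpa [h0] using hNL)
  have : NeZero N := ⟨hN0⟩
  set M := L / q with hMdef
  have hML : M ∣ L := Nat.div_dvd_of_dvd hqL
  have hM0 : M ≠ 0 := fun h0 => hL0 (by simpa [h0] using hML)
  have : NeZero M := ⟨hM0⟩
  have hp0 : (p : ResidueField V) = 0 := by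
    rw [← map_natCast (residue V)]
    exact (residue_eq_zero_iff _).2 hpV
  have : CharP (ResidueField V) p := (CharP.charP_iff_prime_eq_zero hp).2 hp0
  -- the twist is residually trivial
  have hθ1 : ∀ a : ZMod N', IsUnit a → residue V (θ' a) = 1 := by
    rintro _ ⟨a, rfl⟩
    obtain ⟨u, rfl⟩ := ZMod.unitsMap_surjective hN' a
    rw [ZMod.unitsMap_val, ← DirichletCharacter.changeLevel_eq_cast_of_dvd θ' hN', hθ']
    exact hθ u
  have hunit : ∀ ℓ : Nat.Primes, (ℓ : ℕ) ∉ S → IsUnit ((ℓ : ℕ) : ZMod N') := fun ℓ hℓ =>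
    (ZMod.isUnit_iff_coprime _ _).2 (ℓ.2.coprime_iff_not_dvd.2 fun hd =>
      hℓ (hS _ ℓ.2 (hd.trans (h.trans hML))))
  have hy' : ∀ ℓ : Nat.Primes, (ℓ : ℕ) ∉ S →
      heckeOp (neben θ') h ℓ y = (θ' ((ℓ : ℕ) : ZMod N') * c ℓ) • y := fun ℓ hℓ => by
    have e := hy ℓ hℓ
    rw [twOp, LinearMap.smul_apply] at e
    rw [mul_smul, ← e, smul_smul, Ring.mul_inverse_cancel _ ((hunit ℓ hℓ).map θ'), one_smul]
  -- a non-Eisenstein prime
  have hzmod : ∀ l : ℕ, (W.apOfModel l : ZMod p) ≠ (l : ZMod p) + 1 →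
      ((W.apOfModel l : ℤ) : ResidueField V) ≠ (l : ResidueField V) + 1 := fun l hne he =>
    hne ((ZMod.castHom (dvd_refl p) (ResidueField V)).injective
      (by simpa using he))
  obtain ⟨l₀, hl₀, hl₀S, -, -, h1, -, hne⟩ :=
    Residual.exists_nonEisenstein_prime hΔ hp2 hirr (mul_ne_zero hL0 hN0) S
  let ℓ₀ : Nat.Primes := ⟨l₀, hl₀⟩
  have h1N : ((ℓ₀ : ℕ) : ZMod N') = 1 := by
    show (l₀ : ZMod N') = 1
    rw [← map_natCast (ZMod.castHom (hN'.trans (dvd_mul_left _ L)) (ZMod N')), h1, map_one]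
  have hu : IsUnit (θ' ((ℓ₀ : ℕ) : ZMod N') * c ℓ₀ - eisensteinValue (neben θ') M ℓ₀) := by
    rw [← residue_ne_zero_iff_isUnit, eisensteinValue,
      if_neg fun hd => hl₀S (hS _ hl₀ (hd.trans hML)), h1N, map_one, map_one, one_mul, map_sub,
      hc ℓ₀ hl₀S, sub_ne_zero, map_add, map_natCast, map_one]
    exact hzmod l₀ hne
  obtain ⟨z, hz0, hz⟩ := exists_residual_class h S (fun ℓ => θ' ((ℓ : ℕ) : ZMod N') * c ℓ)
    (ℓ₀ := ℓ₀) hl₀S hu hy' hy0
  let eq1 := changeModulus (Φ := (1 : MulChar (ZMod 1) V).ringHomComp (residue V)) (one_dvd M) h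
    (Φ' := (neben θ').ringHomComp (residue V)) fun a ha => by
      rw [MulChar.ringHomComp_apply, MulChar.ringHomComp_apply, MulChar.pow_apply' _ two_ne_zero,
        map_pow, hθ1 _ ha, one_pow, MulChar.one_apply (isUnit_of_subsingleton _), map_one]
  obtain ⟨V', i1, i2, i3, i4, i5, i6, i7, i8, c', y', hy'0, hyc, hres⟩ :=
    exists_eigen_lift (one_dvd M) hcov S (fun ℓ => residue V (θ' ((ℓ : ℕ) : ZMod N') * c ℓ))
      (z := eq1 z) (fun h0 => hz0 (eq1.map_eq_zero_iff.1 h0))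
      fun ℓ hℓ => by rw [← changeModulus_heckeOp, hz ℓ hℓ, map_smul]
  have hres' : ∀ ℓ : Nat.Primes, (ℓ : ℕ) ∉ S →
      residue V' (c' ℓ) = ((W.apOfModel ℓ : ℤ) : ResidueField V') := fun ℓ hℓ => by
    rw [hres ℓ hℓ, map_mul (residue V), hθ1 _ (hunit ℓ hℓ), one_mul, hc ℓ hℓ, map_intCast]
  have hpV' : (p : V') ∈ maximalIdeal V' := by
    rw [← map_natCast (algebraMap V V')]
    exact map_nonunit _ _ hpV
  -- the newform
  let eq2 := changeModulus (A := V') (Φ := neben (1 : MulChar (ZMod 1) V')) (one_dvd M) (one_dvd M)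
    (Φ' := (1 : MulChar (ZMod 1) V')) fun a _ => by rw [neben, one_pow]
  obtain ⟨L2, _, hex, hnew⟩ := exists_exactNewform (one_dvd M) (hsq.squarefree_of_dvd hML)
    (1 : MulChar (ZMod 1) V') (fun u => ⟨1, odd_one, by rw [pow_one, MulChar.one_apply_coe]⟩) S
    (fun l hl hd => hS l hl (hd.trans hML)) c' (by
      obtain ⟨l, hl, hlS, -, -, hl1, -, hlne⟩ :=
        Residual.exists_nonEisenstein_prime hΔ hp2 hirr (n := M * 1) (by simpa using hM0) S
      refine ⟨⟨l, hl⟩, hlS, hl1, fun he => hzmod l hlne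
        ((ResidueField.map (algebraMap V V')).injective ?_)⟩
      have e := hres' ⟨l, hl⟩ hlS
      rw [he, map_add, map_natCast, map_one] at e
      rw [map_intCast, map_add, map_natCast, map_one]
      exact e.symm)
    (y := eq2 y') (mem_twSystem_iff.2 fun ℓ hℓ => by
      rw [twOp, MulChar.one_apply (isUnit_of_subsingleton _), Ring.inverse_one, one_smul,
        ← changeModulus_heckeOp, hyc ℓ hℓ, map_smul])
    fun a ha h0 => hy'0 a ha (eq2.map_eq_zero_iff.1 (by rw [map_smul]; exact h0))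
  have hL2M : L2 ∣ M := by simpa using hex.dvd
  have hnf : ResidualNewformAt W p L2 :=
    residualNewformAt_of_newformSystem hS29 hΔ hp hpV' S
      (fun l hl hd => hS l hl ((hd.trans hL2M).trans hML)) hnew hres'
  refine hmin L2 hL2M (fun r hr hrL => ?_) hnf
  obtain ⟨hrp, hrne, hgood, hndvd⟩ := hQ r hr
  refine hndvd (sq_sub_dvd_of_residualNewformAt h35 hΔ hp hp2 hirr hex.pos hnf hrp hrne hgood hrL
    fun h2 => ?_)
  have hone := ((hsq.squarefree_of_dvd ((hL2M.trans hML))) r (by simpa [sq] using h2))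
  exact hrp.ne_one (Nat.isUnit_iff.1 hone)

omit [Fact p.Prime] in
/-- Below a raising base with `q` removed there is no residual newform, also after adjoining
primes `r` of good reduction. -/
theorem not_residualNewformAt_base {L₀ L : ℕ} (hb : IsRaisingBase W p L₀) (hsq : Squarefree L)
    (Q : Finset ℕ) (hLQ : ∀ r : ℕ, r.Prime → r ∣ L → r ∣ L₀ ∨ r ∈ Q) {q : ℕ} (hq : q.Prime)
    (hqp : q ≠ p) (hpp : p.Prime) (hq₀ : q ∣ L₀) (hqL : q ∣ L)
    (hraise : p ∣ L₀ → ∀ L2 : ℕ, L2 ∣ L₀ → ¬ p ∣ L2 → ResidualNewformAt W p L2 →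
      ∃ L3 : ℕ, L3 ∣ L2 * p ∧ p ∣ L3 ∧ ResidualNewformAt W p L3)
    (L2 : ℕ) (hL2 : L2 ∣ L / q) (hQ : ∀ r ∈ Q, ¬ r ∣ L2) : ¬ ResidualNewformAt W p L2 := by
  intro hres
  have hL2L : L2 ∣ L := hL2.trans (Nat.div_dvd_of_dvd hqL)
  have hq2 : ¬ q ∣ L2 := fun hd => hq.ne_one (Nat.isUnit_iff.1 (hsq q (by
    have := mul_dvd_mul_left q (hd.trans hL2)
    rwa [Nat.mul_div_cancel' hqL] at this)))
  have hL20 : L2 ∣ L₀ := by
    rw [← Nat.prod_primeFactors_of_squarefree (hsq.squarefree_of_dvd hL2L)]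
    refine Finset.prod_primes_dvd L₀ (fun r hr => (Nat.prime_of_mem_primeFactors hr).prime)
      fun r hr => ?_
    exact (hLQ r (Nat.prime_of_mem_primeFactors hr)
      ((Nat.dvd_of_mem_primeFactors hr).trans hL2L)).resolve_right
        fun h => hQ r h (Nat.dvd_of_mem_primeFactors hr)
  by_cases hp : p ∣ L₀ → p ∣ L2
  · exact hq2 (hb.minimal L2 hL20 hp hres ▸ hq₀)
  · rw [Classical.not_imp] at hp
    obtain ⟨L3, h3, hp3, hres3⟩ := hraise hp.1 L2 hL20 hp.2 hres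
    have hL30 : L3 ∣ L₀ := h3.trans
      (Nat.Coprime.mul_dvd_of_dvd_of_dvd (hpp.coprime_iff_not_dvd.2 hp.2).symm hL20 hp.1)
    have h30 := hb.minimal L3 hL30 (fun _ => hp3) hres3
    rcases hq.dvd_mul.1 ((hq₀.trans h30.symm.dvd).trans h3) with h | h
    · exact hq2 h
    · exact hqp ((Nat.prime_dvd_prime_iff_eq hq hpp).1 h)

/-- A prime `q ≠ p` of the base divides the exact level of a system congruent to the curve. -/
theorem dvd_exactLevel_base (hS29 : RT.EigenformResidualRep) (h35 : BadPrime.NewformMultRep)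
    (hΔ : W.Δ ≠ 0) (hp2 : p ≠ 2) (hirr : W.ModRepIsIrreducible p)
    {V : Type} [CommRing V] [IsDomain V] [IsDiscreteValuationRing V]
    [IsAdicComplete (maximalIdeal V) V] [Finite (ResidueField V)] [CharZero V]
    (hpV : (p : V) ∈ maximalIdeal V) {N L L' L₀ : ℕ} (hNL : N ∣ L) (hsq : Squarefree L)
    (θ : MulChar (ZMod N) V) (hθ : ∀ u : (ZMod N)ˣ, residue V (θ u) = 1)
    (S : Finset ℕ) (hS : ∀ l : ℕ, l.Prime → l ∣ L → l ∈ S) (c : Nat.Primes → V)
    (hc : ∀ ℓ : Nat.Primes, (ℓ : ℕ) ∉ S →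
      residue V (c ℓ) = ((W.apOfModel ℓ : ℤ) : ResidueField V))
    (hb : IsRaisingBase W p L₀) (Q : Finset ℕ)
    (hLQ : ∀ r : ℕ, r.Prime → r ∣ L → r ∣ L₀ ∨ r ∈ Q)
    (hN : ∀ r : ℕ, r.Prime → r ∣ N → r ∈ Q)
    (hQ : ∀ r ∈ Q, r.Prime ∧ r ≠ p ∧ W.IsGoodPrimeFor r ∧
      ¬ (p : ℤ) ∣ W.apOfModel r ^ 2 - ((r : ℤ) + 1) ^ 2)
    {q : ℕ} (hq : q.Prime) (hqp : q ≠ p) (hq₀ : q ∣ L₀) (hqL : q ∣ L)
    (hcov : CoverHyp V (L / q))
    (hraise : p ∣ L₀ → ∀ L2 : ℕ, L2 ∣ L₀ → ¬ p ∣ L2 → ResidualNewformAt W p L2 →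
      ∃ L3 : ℕ, L3 ∣ L2 * p ∧ p ∣ L3 ∧ ResidualNewformAt W p L3)
    (hex : IsExactLevel θ S c L L') : q ∣ L' := by
  have hno := noOldAt_of_minimal hS29 h35 hΔ hp2 hirr hpV hNL hsq θ hθ S hS c hc Q hQ hqL hcov
    (not_residualNewformAt_base hb hsq Q hLQ hq hqp Fact.out hq₀ hqL hraise)
  refine Nat.dvd_of_factorization_pos ?_
  rw [hex.one q hq hqL (fun hnt => (hQ q (hN q hq hnt.1)).2.2.1 (hb.dvd_bad q hq hq₀)) hno]
  exact one_ne_zero

end Fermat.Agent.Lifting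

end
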