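import Fermat.Agent.Lifting.Squarefree.Base
import Fermat.Agent.Lifting.Squarefree.BaseNoOld

/-!
# No residual newform below the base

* `IsRaisingBase.exists_raise_at_p`: a residual newform inside the base and prime to a `p` of the
  base raises to one with `p` in the level;
* `IsRaisingBase.not_residualNewformAt_below`: hence none lives below the base with a prime
  `q ≠ p` removed, also after adjoining primes of good reduction;
* `IsRaisingBase.dvd_exactLevel`: such a prime divides the exact level of every congruent system.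
-/

set_option autoImplicit false

noncomputable section

open IsLocalRing

namespace Fermat.Agent.Lifting

open RT.TW RT.Assembly

variable {W : WeierstrassCurve ℤ} {p L₀ : ℕ}

/-- A residual newform inside the base and prime to a `p` of the base raises at `p`. -/
theorem IsRaisingBase.exists_raise_at_p (hb : IsRaisingBase W p L₀) (htres : TresPrimeInLevel)
    (hord : OrdinaryTpFive) (hp : p = 3 ∨ p = 5) (hΔ : W.Δ ≠ 0) (hW : W.IsSemistableModel)
    (hirr : W.ModRepIsIrreducible p) (hlift : IsRaisableAt W p) (hpL : p ∣ L₀)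
    (L2 : ℕ) (hd : L2 ∣ L₀) (hpL2 : ¬ p ∣ L2) (hres : ResidualNewformAt W p L2) :
    ∃ L3 : ℕ, L3 ∣ L2 * p ∧ p ∣ L3 ∧ ResidualNewformAt W p L3 := by
  have hp' : p.Prime := by rcases hp with rfl | rfl <;> norm_num
  have hp2 : p ≠ 2 := by rcases hp with rfl | rfl <;> norm_num
  have hpΔ : (p : ℤ) ∣ W.Δ := hb.p_dvd_iff.1 hpL
  have hpos : 0 < L2 := Nat.pos_of_dvd_of_pos hd hb.pos
  have hpeu : p ∣ padicValInt p W.Δ := by
    by_contra hv
    exact hpL2 (htres p hp' hp2 W hΔ hW hpΔ hv hirr L2 hpos hres.residual)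
  have hord' : OrdinaryTpAt W p := by
    rcases hp with rfl | rfl
    · exact hlift rfl hpΔ hpeu
    · exact hord W hΔ hW hpΔ hirr
  obtain ⟨f, 𝔪, hf, hmax, hpm, hc⟩ := hres.residual
  obtain ⟨a, ha, ha1⟩ := hord' L2 f 𝔪 hpos hpL2 hf hmax hpm hc
  have haLR : a ^ 2 - ((p : integralClosure ℤ ℂ) + 1) ^ 2 ∈ 𝔪 := by
    rw [show a ^ 2 - ((p : integralClosure ℤ ℂ) + 1) ^ 2 =
      (a ^ 2 - 1) - (p : integralClosure ℤ ℂ) * ((p : integralClosure ℤ ℂ) + 2) by ring]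
    exact 𝔪.sub_mem ha1 (𝔪.mul_mem_right _ hpm)
  obtain ⟨g, 𝔪', hg, hmax', hpm', hc', hnew⟩ := exists_newAt_of_sq_congr hΔ hp' hp2 hpos hp'
    hpL2 hirr hf hmax hpm (fun ℓ hℓ h1 h2 h3 _ => hc ℓ hℓ h1 h2 h3) ⟨a, ha, haLR⟩
  exact exists_residualNewform_dvd hpos hp' hpL2
    (fun ℓ hℓ hdv hℓp hgd => hgd (hb.dvd_bad ℓ hℓ (((hℓ.dvd_mul.1 hdv).resolve_right fun h =>
      hℓp ((Nat.prime_dvd_prime_iff_eq hℓ hp').1 h)).trans hd)))
    hg hmax' hpm' hc' hnew

/-- No residual newform lives below the base with a prime `q ≠ p` removed, also after adjoining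
primes of good reduction. -/
theorem IsRaisingBase.not_residualNewformAt_below (hb : IsRaisingBase W p L₀)
    (htres : TresPrimeInLevel) (hord : OrdinaryTpFive) (hp : p = 3 ∨ p = 5) (hΔ : W.Δ ≠ 0)
    (hW : W.IsSemistableModel) (hirr : W.ModRepIsIrreducible p) (hlift : IsRaisableAt W p)
    {L : ℕ} (hsq : Squarefree L) (Q : Finset ℕ)
    (hLQ : ∀ r : ℕ, r.Prime → r ∣ L → r ∣ L₀ ∨ r ∈ Q) {q : ℕ} (hq : q.Prime) (hqp : q ≠ p)
    (hq₀ : q ∣ L₀) (hqL : q ∣ L) (L2 : ℕ) (hL2 : L2 ∣ L / q) (hQ : ∀ r ∈ Q, ¬ r ∣ L2) :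
    ¬ ResidualNewformAt W p L2 :=
  not_residualNewformAt_base hb hsq Q hLQ hq hqp (by rcases hp with rfl | rfl <;> norm_num) hq₀
    hqL (hb.exists_raise_at_p htres hord hp hΔ hW hirr hlift) L2 hL2 hQ

/-- A prime `q ≠ p` of the base divides the exact level of every congruent system. -/
theorem IsRaisingBase.dvd_exactLevel (hb : IsRaisingBase W p L₀) [Fact p.Prime]
    (hS29 : RT.EigenformResidualRep) (h35 : BadPrime.NewformMultRep)
    (htres : TresPrimeInLevel) (hord : OrdinaryTpFive) (hp : p = 3 ∨ p = 5) (hΔ : W.Δ ≠ 0)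
    (hW : W.IsSemistableModel) (hirr : W.ModRepIsIrreducible p) (hlift : IsRaisableAt W p)
    {V : Type} [CommRing V] [IsDomain V] [IsDiscreteValuationRing V]
    [IsAdicComplete (maximalIdeal V) V] [Finite (ResidueField V)] [CharZero V]
    (hpV : (p : V) ∈ maximalIdeal V) {N L L' : ℕ} (hNL : N ∣ L) (hsq : Squarefree L)
    (θ : MulChar (ZMod N) V) (hθ : ∀ u : (ZMod N)ˣ, residue V (θ u) = 1)
    (S : Finset ℕ) (hS : ∀ l : ℕ, l.Prime → l ∣ L → l ∈ S) (c : Nat.Primes → V)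
    (hc : ∀ ℓ : Nat.Primes, (ℓ : ℕ) ∉ S →
      residue V (c ℓ) = ((W.apOfModel ℓ : ℤ) : ResidueField V))
    (Q : Finset ℕ) (hLQ : ∀ r : ℕ, r.Prime → r ∣ L → r ∣ L₀ ∨ r ∈ Q)
    (hN : ∀ r : ℕ, r.Prime → r ∣ N → r ∈ Q)
    (hQ : ∀ r ∈ Q, r.Prime ∧ r ≠ p ∧ W.IsGoodPrimeFor r ∧
      ¬ (p : ℤ) ∣ W.apOfModel r ^ 2 - ((r : ℤ) + 1) ^ 2)
    {q : ℕ} (hq : q.Prime) (hqp : q ≠ p) (hq₀ : q ∣ L₀) (hqL : q ∣ L)
    (hcov : CoverHyp V (L / q)) (hex : IsExactLevel θ S c L L') : q ∣ L' :=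
  dvd_exactLevel_base hS29 h35 hΔ (by rcases hp with rfl | rfl <;> norm_num) hirr hpV hNL hsq θ
    hθ S hS c hc hb Q hLQ hN hQ hq hqp hq₀ hqL hcov
    (hb.exists_raise_at_p htres hord hp hΔ hW hirr hlift) hex

end Fermat.Agent.Lifting

end
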