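import Fermat.Agent.Lifting.Squarefree.Contracts
import Fermat.Agent.Lifting.Minimal.Newform
import Fermat.Agent.RT.Assembly.Defs
import Fermat.Agent.EichlerShimura.IntegersResidue
import Fermat.Agent.HeckeFinite.Finite
import Mathlib.RingTheory.Ideal.GoingUp

/-!
# A newform system congruent to a curve is a residual newform

* `congruent_of_cofinite`: a congruence of the coefficients at almost all primes holds at every
  good prime outside the level.
* `residualNewformAt_of_newformSystem`: a newform system with residual values `a_ℓ(W)` gives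
  `ResidualNewformAt`.
* `sq_sub_dvd_of_residualNewformAt`: at a good prime `r ≠ p` of such a level `a_r² ≡ (r + 1)²`.
-/

set_option autoImplicit false
set_option linter.style.haveILetI false

noncomputable section

open scoped WeierstrassCurve.Affine
open Polynomial IsLocalRing ModularFormClass

namespace Fermat.Agent.Lifting

local notation "ℚ̄" => AlgebraicClosure ℚ

variable {W : WeierstrassCurve ℤ} {p M : ℕ}

theorem congruent_of_cofinite (hS29 : RT.EigenformResidualRep) (hΔ : W.Δ ≠ 0) (hp : p.Prime)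
    (hM : 0 < M) {g : CuspForm (CongruenceSubgroup.Gamma0 M) 2} (hg : g.IsNormalizedEigenform)
    {𝔪 : Ideal (integralClosure ℤ ℂ)} (hmax : 𝔪.IsMaximal)
    (hpm : (p : integralClosure ℤ ℂ) ∈ 𝔪) (S : Finset ℕ)
    (hcong : ∀ ℓ : ℕ, ℓ.Prime → ℓ ∉ S → ∃ a : integralClosure ℤ ℂ,
      (a : ℂ) = qCoeff g ℓ ∧ a - ((W.apOfModel ℓ : ℤ) : integralClosure ℤ ℂ) ∈ 𝔪)
    (ℓ : ℕ) (hℓ : ℓ.Prime) (hgood : W.IsGoodPrimeFor ℓ) (hℓM : ¬ ℓ ∣ M) (hℓp : ℓ ≠ p) :
    ∃ a : integralClosure ℤ ℂ, (a : ℂ) = qCoeff g ℓ ∧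
      a - ((W.apOfModel ℓ : ℤ) : integralClosure ℤ ℂ) ∈ 𝔪 := by
  classical
  haveI : Fact p.Prime := ⟨hp⟩
  haveI : (W.map (Int.castRingHom ℚ)).IsElliptic :=
    ⟨isUnit_iff_ne_zero.2 (by simpa [WeierstrassCurve.map_Δ] using hΔ)⟩
  letI : Field (integralClosure ℤ ℂ ⧸ 𝔪) := Ideal.Quotient.field 𝔪
  set φ : integralClosure ℤ ℂ →+* integralClosure ℤ ℂ ⧸ 𝔪 := Ideal.Quotient.mk 𝔪 with hφ
  have hp0 : (p : integralClosure ℤ ℂ ⧸ 𝔪) = 0 := by
    rw [← map_natCast φ, hφ, Ideal.Quotient.eq_zero_iff_mem]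
    exact hpm
  haveI : CharP (integralClosure ℤ ℂ ⧸ 𝔪) p := (CharP.charP_iff_prime_eq_zero hp).2 hp0
  obtain ⟨ρ, hρ, -⟩ := hS29 hg hp φ
  set ι : ZMod p →+* integralClosure ℤ ℂ ⧸ 𝔪 := ZMod.castHom dvd_rfl _ with hι
  set ρW : ResidualGaloisRep (integralClosure ℤ ℂ ⧸ 𝔪) :=
    (EC.torsionRepRat (W.map (Int.castRingHom ℚ)) p).baseChangeAlong ι with hρW
  have hW : ∀ l : ℕ, l.Prime → l ≠ p → W.IsGoodPrimeFor l → ∀ A : ValuationSubring ℚ̄,
      A.LiesOverPrime l → ∀ σ : ℚ̄ ≃ₐ[ℚ] ℚ̄, A.IsFrobeniusAt σ l →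
      LinearMap.charpoly (ρW.ρ σ) = X ^ 2 - C (φ ((W.apOfModel l : ℤ) : integralClosure ℤ ℂ)) * X
        + C (l : integralClosure ℤ ℂ ⧸ 𝔪) := by
    intro l hl hlp hgood A hA σ hσ
    rw [hρW, RT.charpoly_baseChangeAlong,
      RT.torsionFrobeniusCharpoly W p l hl hlp hgood A hA σ hσ]
    simp [hι]
  have hne : ∀ l : ℕ, l.Prime → l ≠ p → (l : integralClosure ℤ ℂ ⧸ 𝔪) ≠ 0 := fun l hl hlp h0 =>
    hlp ((Nat.prime_dvd_prime_iff_eq hp hl).1 ((CharP.cast_eq_zero_iff _ p l).1 h0)).symm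
  set S' : Finset ℕ := S ∪ {p} ∪ M.primeFactors ∪ W.Δ.natAbs.primeFactors with hS'
  have key : ∀ σ, LinearMap.charpoly (ρ.ρ σ) = LinearMap.charpoly (ρW.ρ σ) := by
    refine Density.residual_charpoly_eq_of_frobenius ρ ρW S' fun l hl hlS A hA σ hσ => ?_
    simp only [hS', Finset.mem_union, Finset.mem_singleton, Nat.mem_primeFactors, not_or] at hlS
    obtain ⟨⟨⟨h1, h2⟩, h3⟩, h4⟩ := hlS
    have hlM : ¬ l ∣ M := fun hd => h3 ⟨hl, hd, hM.ne'⟩
    have hgood : W.IsGoodPrimeFor l := fun hd =>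
      h4 ⟨hl, Int.natCast_dvd.1 hd, Int.natAbs_ne_zero.2 hΔ⟩
    obtain ⟨a, ha, hch⟩ := hρ l hl hlM (hne l hl h2) A hA σ hσ
    obtain ⟨b, hb, hbm⟩ := hcong l hl h1
    obtain rfl : a = b := Subtype.ext (ha.trans hb.symm)
    rw [hch, hW l hl h2 hgood A hA σ hσ,
      show φ a = φ ((W.apOfModel l : ℤ) : integralClosure ℤ ℂ) from Ideal.Quotient.eq.2 hbm]
  obtain ⟨A, σ, hA, hσ⟩ := Galois.exists_valuationSubring_isFrobeniusAt hℓ
  obtain ⟨a, ha, hch⟩ := hρ ℓ hℓ hℓM (hne ℓ hℓ hℓp) A hA σ hσ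
  refine ⟨a, ha, Ideal.Quotient.eq.1 ?_⟩
  have h := congrArg (fun P => Polynomial.coeff P 1)
    ((hch.symm.trans (key σ)).trans (hW ℓ hℓ hℓp hgood A hA σ hσ))
  simpa [hφ, coeff_X, coeff_C, coeff_X_pow] using h

/-- A newform system with residual values `a_ℓ(W)` gives a residual newform. -/
theorem residualNewformAt_of_newformSystem (hS29 : RT.EigenformResidualRep) (hΔ : W.Δ ≠ 0)
    (hp : p.Prime) {V : Type} [CommRing V] [IsDomain V] [IsDiscreteValuationRing V]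
    (hpV : (p : V) ∈ maximalIdeal V) (S : Finset ℕ) [NeZero M]
    (hS : ∀ q : ℕ, q.Prime → q ∣ M → q ∈ S) {c : Nat.Primes → V}
    (hnew : RT.Assembly.IsNewformSystem S M c)
    (hcong : ∀ ℓ : Nat.Primes, (ℓ : ℕ) ∉ S →
      residue V (c ℓ) = ((W.apOfModel ℓ : ℤ) : ResidueField V)) :
    ResidualNewformAt W p M := by
  classical
  haveI : Fact p.Prime := ⟨hp⟩
  have hp0 : (p : ResidueField V) = 0 := by
    rw [← map_natCast (residue V)]
    exact (residue_eq_zero_iff _).2 hpV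
  haveI : CharP (ResidueField V) p := (CharP.charP_iff_prime_eq_zero hp).2 hp0
  obtain ⟨g, chig, emb, hg, hchig, hemb⟩ := hnew
  haveI := HeckeFinite.moduleFinite_heckeAlgebra M 2 (↑S : Set ℕ)
  haveI : Module.Finite ℤ chig.range :=
    Module.Finite.of_surjective chig.rangeRestrict.toIntAlgHom.toLinearMap
      chig.rangeRestrict_surjective
  haveI : Algebra.IsIntegral ℤ chig.range := Algebra.IsIntegral.of_finite ℤ _
  have hmem : ∀ x : chig.range, (x : ℂ) ∈ integralClosure ℤ ℂ := fun x =>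
    (Algebra.IsIntegral.isIntegral (R := ℤ) x).map chig.range.subtype.toIntAlgHom
  let toZbar : chig.range →+* integralClosure ℤ ℂ :=
    chig.range.subtype.codRestrict (integralClosure ℤ ℂ).toSubring hmem
  let ψ : chig.range →+* ResidueField V := (residue V).comp emb
  letI : Algebra chig.range (integralClosure ℤ ℂ) := toZbar.toAlgebra
  haveI : Algebra.IsIntegral chig.range (integralClosure ℤ ℂ) :=
    ⟨fun x => (integralClosure.isIntegral x).tower_top⟩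
  have hker : RingHom.ker (algebraMap chig.range (integralClosure ℤ ℂ)) ≤ RingHom.ker ψ := by
    intro x hx
    have h0 : (x : ℂ) = 0 := congrArg Subtype.val (RingHom.mem_ker.1 hx)
    rw [RingHom.mem_ker, show x = 0 from Subtype.ext h0, map_zero]
  have hQ : (RingHom.ker ψ).IsMaximal := by
    haveI := RingHom.ker_isPrime ψ
    refine Ideal.isMaximal_of_isIntegral_of_isMaximal_comap (R := ℤ) _ ?_
    have h : (Ideal.span {(p : ℤ)}).IsMaximal :=
      PrincipalIdealRing.isMaximal_of_irreducible ((Nat.prime_iff_prime_int).mp hp).irreducible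
    have hle : Ideal.span {(p : ℤ)} ≤ (RingHom.ker ψ).comap (algebraMap ℤ chig.range) := by
      rw [Ideal.span_singleton_le_iff_mem, Ideal.mem_comap, RingHom.mem_ker, map_natCast,
        map_natCast, CharP.cast_eq_zero]
    rwa [← h.eq_of_le (fun ht => (inferInstance : (RingHom.ker ψ).IsPrime).ne_top
      ((Ideal.eq_top_iff_one _).mpr (by
        simpa using (Ideal.eq_top_iff_one _).mp ht))) hle]
  obtain ⟨𝔪, hmax, h𝔪⟩ := Ideal.exists_ideal_over_maximal_of_isIntegral (RingHom.ker ψ) hker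
  have hin : ∀ x, ψ x = 0 → toZbar x ∈ 𝔪 := fun x hx => by
    have : x ∈ 𝔪.comap (algebraMap chig.range (integralClosure ℤ ℂ)) := by rw [h𝔪]; exact hx
    exact this
  have hpm : (p : integralClosure ℤ ℂ) ∈ 𝔪 := by
    rw [← map_natCast toZbar]
    exact hin _ (by rw [map_natCast, CharP.cast_eq_zero])
  refine ⟨g, 𝔪, hg, hmax, hpm, fun ℓ hℓ hgood hℓM hℓp =>
    congruent_of_cofinite hS29 hΔ hp (Nat.pos_of_ne_zero (NeZero.ne M)) hg.1 hmax hpm S
      (fun l hl hlS => ?_) ℓ hℓ hgood hℓM hℓp⟩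
  have hlM : ¬ l ∣ M := fun h => hlS (hS l hl h)
  have hlS' : l ∉ (↑S : Set ℕ) := fun h => hlS (Finset.mem_coe.1 h)
  set t := chig.rangeRestrict (CuspForm.heckeAlgebra.T hl hlM hlS')
  refine ⟨toZbar t, hchig l hl hlM hlS', ?_⟩
  rw [← map_intCast toZbar, ← map_sub]
  refine hin _ ?_
  show residue V (emb (t - ((W.apOfModel l : ℤ) : chig.range))) = 0
  rw [map_sub, map_intCast, map_sub, map_intCast, hemb l hl hlM hlS', hcong ⟨l, hl⟩ hlS, sub_self]

/-- At a good prime `r ≠ p` exactly dividing the level of a residual newform `a_r ≡ ±(r + 1)`. -/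
theorem sq_sub_dvd_of_residualNewformAt (h35 : BadPrime.NewformMultRep) (hΔ : W.Δ ≠ 0)
    (hp : p.Prime) (hp2 : p ≠ 2) (hirr : W.ModRepIsIrreducible p) (hM : 0 < M)
    (hres : ResidualNewformAt W p M) {r : ℕ} (hr : r.Prime) (hrp : r ≠ p)
    (hgood : W.IsGoodPrimeFor r) (hrM : r ∣ M) (hr2 : ¬ r ^ 2 ∣ M) :
    (p : ℤ) ∣ W.apOfModel r ^ 2 - ((r : ℤ) + 1) ^ 2 := by
  classical
  haveI : Fact p.Prime := ⟨hp⟩
  obtain ⟨g, 𝔪, hg, hmax, hpm, hcong⟩ := hres
  haveI : NeZero M := ⟨hM.ne'⟩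
  letI : Field (integralClosure ℤ ℂ ⧸ 𝔪) := Ideal.Quotient.field 𝔪
  set φ : integralClosure ℤ ℂ →+* integralClosure ℤ ℂ ⧸ 𝔪 := Ideal.Quotient.mk 𝔪
  have hp0 : (p : integralClosure ℤ ℂ ⧸ 𝔪) = 0 := by
    rw [← map_natCast φ]
    exact Ideal.Quotient.eq_zero_iff_mem.2 hpm
  haveI : CharP (integralClosure ℤ ℂ ⧸ 𝔪) p := (CharP.charP_iff_prime_eq_zero hp).2 hp0
  obtain ⟨ρ, hρ, hmult⟩ := RT.exists_residualRep_newform h35 hg hp φ
  set ι : ZMod p →+* integralClosure ℤ ℂ ⧸ 𝔪 := ZMod.castHom dvd_rfl _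
  have he := Minimal.torsRep_isEquiv_attached hΔ hp2 hirr hM φ ι (fun ℓ hℓ hgood hℓM hℓp => by
    obtain ⟨a, ha, ham⟩ := hcong ℓ hℓ hgood hℓM hℓp
    exact ⟨a, ha, Ideal.Quotient.eq.2 ham⟩) ρ hρ
  obtain ⟨A, σ, hA, hσ⟩ := Galois.exists_valuationSubring_isFrobeniusAt hr
  obtain ⟨ε, hε, hch⟩ := hmult r hr hrp hrM hr2 A hA σ hσ
  rw [Density.residual_charpoly_eq_of_isEquiv he, RT.charpoly_baseChangeAlong,
    show LinearMap.charpoly ((Residual.torsRep W p hΔ).ρ σ) =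
      X ^ 2 - C (W.apOfModel r : ZMod p) * X + C (r : ZMod p) from
      EC.charpoly_residualGaloisRepOf W hr hA hgood hσ hrp _ _] at hch
  have h1 : ι (W.apOfModel r : ZMod p) = ε * ((r : integralClosure ℤ ℂ ⧸ 𝔪) + 1) := by
    have := congrArg (fun P => Polynomial.coeff P 1) hch
    simpa [coeff_X_pow, coeff_X, coeff_C] using this
  rw [← ZMod.intCast_zmod_eq_zero_iff_dvd]
  refine ι.injective ?_
  push_cast
  rw [map_zero, map_sub, map_pow, map_pow, h1, map_add, map_one, map_natCast]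
  linear_combination ((r : integralClosure ℤ ℂ ⧸ 𝔪) + 1) ^ 2 * hε

end Fermat.Agent.Lifting
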