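import Fermat.Agent.Lifting.Squarefree.NodePoint
import Fermat.Agent.Lifting.Patching.Raise.Input

/-!
# The predicates of the raising input at the points of the nodes

* `basePred_of_nodePoint`: at a node of which no prime to be added divides the level and whose
  exact level contains the other sites, the pairs satisfy `BasePred`;
* `cokerPred_of_nodePoint`: at a node new at the prime added at step `k` they satisfy `CokerPred`;
* `cokerPred_of_trace`: so do pairs with `tr Φ = ± (q + 1)` there.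
-/

set_option autoImplicit false
set_option linter.unusedSectionVars false

noncomputable section

open IsLocalRing
open Fermat.Agent.Deformation (matOf)

namespace Fermat.Agent.Lifting

open Lifting.Algebra RT.LocalRing Patching

variable {O : Type} [CommRing O] [IsDomain O] [IsDiscreteValuationRing O]
  [IsAdicComplete (maximalIdeal O) O] [Finite (ResidueField O)] [CharZero O]
  {J : Type} [Finite J] {g m : ℕ}
  {V : Type} [CommRing V] [IsDomain V] [IsDiscreteValuationRing V]
  [IsAdicComplete (maximalIdeal V) V] [Algebra O V] [IsLocalHom (algebraMap O V)]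
  [Finite (ResidueField V)] [CharZero V] {p : ℕ} [Fact p.Prime] {S Sig Q : Finset ℕ}
  {N L L' : ℕ} {θ : MulChar (ZMod N) V} {c : Nat.Primes → V}
  {ρbar : ResidualGaloisRep (ResidueField V)} {ρ : GaloisRepAdic V}
  (Z : Patching.RaiseData O J g m)
  (hρ : IsNodePoint p S Sig Q θ L L' c ρbar ρ) (hsh : NodeShape p S Sig Q N L)
  (hj : ∀ j, (Z.S j).q ∈ Sig) (T : ∀ j, RT.TamePair p (Z.S j).q)
  (htame : ∀ j, ∀ τ ∈ (T j).A.inertiaSubgroupIn ℚ, ∃ i : ℕ, ρbar.ρ τ ^ p ^ i = 1)
  (b : J → Module.Basis (Fin 2) V ρ.V)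

omit [IsDomain V] [IsDiscreteValuationRing V] [IsAdicComplete (maximalIdeal V) V]
  [IsLocalHom (algebraMap O V)] [Finite (ResidueField V)] [CharZero V] in
/-- Local pairs with `tr Φ = ± (q + 1)` at the prime added at step `k`. -/
theorem cokerPred_of_trace (P : J → Mat V × Mat V) (hP : ∀ j, (Z.S j).IsLocalPair (P j)) (k : Fin m)
    (htr : ∃ ty : Ty, ty ≠ .unram ∧ (P (Z.t k)).1.trace =
      algebraMap O V ((Z.S (Z.t k)).sign ty) * (((Z.S (Z.t k)).q : V) + 1)) :
    Z.CokerPred k P := by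
  refine ⟨hP, ?_⟩
  obtain ⟨h1, hd, hd', ht⟩ := hP (Z.t k)
  obtain ⟨ty, hty, htr⟩ := htr
  cases ty
  · exact absurd rfl hty
  · exact Or.inl ⟨hd, h1, hd', ht, htr⟩
  · exact Or.inr ⟨hd, h1, hd', ht, htr⟩

include hρ hsh hj htame

/-- The pairs of a point of the lowest level. -/
theorem basePred_of_nodePoint
    (hoff : ∀ j, (∃ k, Z.t k = j) → ¬ (Z.S j).q ∣ L ∨ ¬ (Z.S j).q ∣ L')
    (hon : ∀ j, (∀ k, Z.t k ≠ j) → (Z.S j).q ∣ L') :
    Z.BasePred fun j => (matOf ρ.ρ (b j) (T j).F, matOf ρ.ρ (b j) (T j).σ) := by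
  intro j
  have hs := hρ.site hsh (Z.S j) (hj j) (T j) (htame j) (b j)
  exact ⟨fun h => hs.2.1 (hoff j h), fun h => hs.2.2 (hon j h)⟩

/-- The pairs of a point new at the prime added at step `k`. -/
theorem cokerPred_of_nodePoint (k : Fin m) (hnew : (Z.S (Z.t k)).q ∣ L') :
    Z.CokerPred k fun j => (matOf ρ.ρ (b j) (T j).F, matOf ρ.ρ (b j) (T j).σ) :=
  ⟨fun j => (hρ.site hsh (Z.S j) (hj j) (T j) (htame j) (b j)).1,
    (hρ.site hsh (Z.S (Z.t k)) (hj _) (T _) (htame _) (b _)).2.2 hnew⟩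

end Fermat.Agent.Lifting

end
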